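import Mathlib
import Fermat.Agent.S36.SqChart.HypBridge
import Fermat.Agent.S36.CuspInstE9
import Fermat.Agent.S36.CuspAbsRed
import Fermat.Agent.S34.Sat
import Fermat.Agent.S34.Nodal.Defs

/-!
# S36, E-level call, binder group `Cusp`: the binder `hcusp` of `KContractE.holds_of_hyp`
(helper1, junction J3)

Model level (block of `SqAbs` `section Main`; ANY chart maps
`φa φb : Chart O (α₁ u') →+* Chart O (α₂ (α₁ u'))` lying under `α₂`, `β₂`, ANY primes `P`, `p`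
carrying a `SqExit.Hyp` with `p 1 = ker rI₁`, `p 0 = ker rZ₁`, `P 2 = centreM τM lamV`):

* `hcusp_gen` : COORDINATE-GENERIC.  The cusp brick `CuspInstE.hcusp_chart` (helper161 /
  helper173) fed with the modular equation and `hmid`, `hxz` of `CuspSqRoots` (helper169) and the
  five Kronecker congruences of `CuspAbsRed` (helper157) at `X' := J'⁻¹`, for ANY predicate
  `good`.  The coordinate enters only through three named hypotheses `hcx`, `tα`, `tβ` (cusp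
  points, cusp transfers).
* `hcusp_gen4`, `hcusp_gen9` : the Hauptmoduln `u₄` (`good M := uC * (uC + 16) ∉ M`) and `u₉`
  (`good M := uC * (uC ^ 2 + 9 * uC + 27) ∉ M`), the coordinate entering through the relation
  `hrel` with `J'` and `2 ∈ Oˣ` resp. `3 ∈ Oˣ`.

E-level (block of `SqChart/InstA` `section Package`, VERBATIM):

* `hcusp_Pc`, `hcusp4_Pc`, `hcusp9_Pc` : the same three statements in the CHART-PRIME form,
  LITERALLY the binder `hcusp` of `KInst9.holds_of_chart` (vertical primes `Pc`, `pc` on the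
  chart rings, `pc 1 = HypE.pInf`, `pc 0 = HypE.pZero`, `Pc 2 = HypE.PMid`: `rfl` at
  `Pc := ![HypE.PZero .., HypE.PInf .., HypE.PMid ..]`, `pc := ![HypE.pZero .., HypE.pInf ..]`).
* `hcusp`, `hcusp4`, `hcusp9` : LITERALLY the binder `hcusp` of `KContractE.holds_of_hyp` at
  `L := R * q`, `E := K`, `O := OE A K`, `π := q`, `u := alphaSq R q K u'`,
  `u1 := alphaHom R q K u'`, `k := q - 1`, for the binders `P p φa₀ hφa₀ φb₀ hφb₀ h` of
  `holds_of_hyp` themselves (the element `π1` of `h` is ANY name of `q` in the level-`R q` chart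
  ring, `hπ1`: for `algebraMap O (Chart O u1) π` and for `piC u1 π` it is `rfl`; no instance
  `Algebra (OE A K) (Chart ..)` is asked), with the contractions of `p 1`, `p 0`, `P 2` to the
  chart rings
  identified with the primes `HypE.pInf`, `HypE.pZero`, `HypE.PMid` of the E-level C2 exit
  (`hp1`, `hp0`, `hP2`; by `SqChart/HypBridge` (helper111) these are `rfl`-equal to
  `ker (SqAbs.rI1 ..)`, `ker (SqAbs.rZ1 .. (σ₁.comp InstA.w1) ..)`, `centreM (SqAbs.tM ..) lamV`,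
  so identities in either spelling are accepted).  `J'` is any name of `j` in `LE R K` (`hJ'`).

The level-`q` and level-`q²` reductions are those of the InstA family: `σ₁ = sigmaHom (R q) K`,
`σ₁z = σ₁ ∘ InstA.w1`, `σ = sigmaHom (R q q) K`, `σm = InstA.sigM`, `z₀ = CycloBase.zetaU`.
-/

set_option autoImplicit false
set_option linter.unusedSectionVars false
set_option linter.unusedVariables false
set_option linter.style.haveILetI false
set_option synthInstance.maxHeartbeats 400000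

open ModularCurve Polynomial

noncomputable section

namespace Fermat.Agent.S36.ECall.Cusp

universe u

/-! ### Model level, coordinate-generic -/

section Model

open Fermat.Agent.S30 Fermat.Agent.S34 Fermat.Agent.S34.TwoPrimesGauss
open Fermat.Agent.S36.SqChart Fermat.Agent.S36.MultPrimesGauss Fermat.Agent.S36.MidVal
open Fermat.Agent.S36.LocAt Fermat.Agent.S36.CuspLoc

variable {O : Type*} {E : Type u} [CommRing O] [IsDomain O] [IsDiscreteValuationRing O] [Field E]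
  [Algebra O E] [FaithfulSMul O E]
  {O' : Type*} {E' : Type u} [CommRing O'] [IsDomain O'] [IsDiscreteValuationRing O'] [Field E']
  [Algebra O' E'] [FaithfulSMul O' E']
  (ψ : O →+* O') [IsLocalHom ψ] (φ : E →+* E')
  (hψφ : ∀ r : O, φ (algebraMap O E r) = algebraMap O' E' (ψ r))
  {L' L1 L : Type*} [Field L'] [Field L1] [Field L] [Algebra O L'] [Algebra O L1] [Algebra O L]
  (ϖ : O) (hϖ : Irreducible ϖ) (q : ℕ) [NeZero q]
  -- level `q`
  (α₁ β₁ : L' →+* L1)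
  (σ₁ : L1 →+* LaurentSeries E)
  (hσ₁O : ∀ r : O, σ₁ (algebraMap O L1 r) = HahnSeries.C (algebraMap O E r))
  (hσ₁frac : ∀ x : L1, σ₁ x ∈ GaussDVR.fracField O E)
  (u' : L') (U : LaurentSeries O) (hσ₁u : σ₁ (α₁ u') = GaussDVR.iota O E U)
  (σ₁z : L1 →+* LaurentSeries E)
  (hσ₁zO : ∀ r : O, σ₁z (algebraMap O L1 r) = HahnSeries.C (algebraMap O E r))
  (hσ₁zfrac : ∀ x : L1, σ₁z x ∈ GaussDVR.fracField O E)
  (hσ₁zα : ∀ x : L', σ₁z (α₁ x) = qExpand E q (σ₁ (α₁ x)))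
  (hσ₁β : ∀ x : L', σ₁ (β₁ x) = qExpand E q (σ₁ (α₁ x)))
  (hσ₁zβ : ∀ x : L', σ₁z (β₁ x) = σ₁ (α₁ x))
  -- level `q²`
  (α₂ β₂ : L1 →+* L) (hα₂O : ∀ r : O, α₂ (algebraMap O L1 r) = algebraMap O L r)
  (hβ₂O : ∀ r : O, β₂ (algebraMap O L1 r) = algebraMap O L r)
  (σ : L →+* LaurentSeries E)
  (hσα₂ : ∀ f : L1, σ (α₂ f) = σ₁ f) (hσβ₂ : ∀ f : L1, σ (β₂ f) = qExpand E q (σ₁ f))
  (σm : L →+* LaurentSeries E')
  (hσmO : ∀ r : O, σm (algebraMap O L r) = HahnSeries.C (algebraMap O' E' (ψ r)))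
  (hσmfrac : ∀ x : L, σm x ∈ GaussDVR.fracField O' E')
  (z₀ : O'ˣ) (hz₀ : Irreducible ((z₀ : O') - 1))
  (hσmα₂ : ∀ f : L1, σm (α₂ f) = coeffMap φ (σ₁ f))
  (hσmβ₂ : ∀ f : L1, σm (β₂ f) = Congr.rescale (Twist.unitE E' z₀) (coeffMap φ (σ₁z f)))

local notation "rI₁" => SqAbs.rI1 ϖ hϖ α₁ σ₁ hσ₁O hσ₁frac u' U hσ₁u
local notation "rZ₁" => SqAbs.rZ1 ϖ hϖ q α₁ σ₁ u' U hσ₁u σ₁z hσ₁zO hσ₁zfrac hσ₁zα
local notation "τM" =>
  SqAbs.tM ψ φ hψφ α₁ σ₁ u' U hσ₁u α₂ σ hσα₂ σm hσmO hσmfrac z₀ hz₀ hσmα₂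
local notation "lamV" => GaussDVR.unif E' ((z₀ : O') - 1)

include hσ₁β hσ₁zβ hα₂O hβ₂O hσβ₂ hσmβ₂ in
/-- **The cusp brick of the chart `u` in the `SqAbs` block, coordinate-generic.**  `J'` is the
`j`-function of level `M'` (`σ₁ (α₁ J') = j(q)`), `x = α₁ J'⁻¹`.  The coordinate enters only
through `good`, `hcx` (the points which are not `good` are cusp points), `tα`, `tβ` (cusp
transfers along the two chart maps). -/
theorem hcusp_gen [Fact q.Prime] [CharP (IsLocalRing.ResidueField O) q]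
    {φa φb : Chart O (α₁ u') →+* Chart O ((α₂.comp α₁) u')}
    (hφa : ∀ b : Chart O (α₁ u'), ((φa b : Chart O ((α₂.comp α₁) u')) : L) = α₂ (b : L1))
    (hφb : ∀ b : Chart O (α₁ u'), ((φb b : Chart O ((α₂.comp α₁) u')) : L) = β₂ (b : L1))
    {π1 : Chart O (α₁ u')} (v : Chart O ((α₂.comp α₁) u')) (hv : IsUnit v)
    (hqπ : ((q : ℕ) : Chart O ((α₂.comp α₁) u')) = φa π1 * v)
    (P : Fin 3 → Ideal (Chart O ((α₂.comp α₁) u'))) (p : Fin 2 → Ideal (Chart O (α₁ u')))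
    (h : SqExit.Hyp φa φb π1 (p 1) (p 0) (P 1) (P 0) (P 2) (q - 1))
    (hp1 : p 1 = RingHom.ker rI₁) (hp0 : p 0 = RingHom.ker rZ₁)
    (hP2 : P 2 = SqGlue.centreM τM lamV)
    (J' : L') (hJ : σ₁ (α₁ J') = jqModC E)
    (good : Ideal (Chart O ((α₂.comp α₁) u')) → Prop)
    (hcx : ∀ M : Ideal (Chart O ((α₂.comp α₁) u')), M.IsMaximal → ¬ good M →
      LocIn M M (α₂ (α₁ J'⁻¹)))
    (tα : ∀ M : Ideal (Chart O ((α₂.comp α₁) u')), M.IsMaximal → LocIn M M (α₂ (α₁ J'⁻¹)) →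
      LocIn (M.comap φa) (M.comap φa) (α₁ J'⁻¹))
    (tβ : ∀ M : Ideal (Chart O ((α₂.comp α₁) u')), M.IsMaximal → LocIn M M (β₂ (α₁ J'⁻¹)) →
      LocIn (M.comap φb) (M.comap φb) (α₁ J'⁻¹)) :
    ∀ M : Ideal (Chart O ((α₂.comp α₁) u')), M.IsMaximal → ¬ good M → ∀ i : Fin 3, P i ≤ M →
      ∃ t ∈ P i, ∀ r ∈ P i, ∃ s : Chart O ((α₂.comp α₁) u'), s ∉ M ∧
        s * r ∈ Ideal.span {t} := by
  have hq : q.Prime := Fact.out
  obtain ⟨hX, hs, hfrob⟩ := CuspAbsRed.src_inv_j (O := O) (σ := σ₁) q (x := α₁ J'⁻¹)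
    (CuspSqRoots.sigma_inv_of_J σ₁ α₁ J' hJ)
  have goo := CuspAbsRed.goo ϖ hϖ q α₁ β₁ σ₁ hσ₁O hσ₁frac u' U hσ₁u hσ₁β J'⁻¹ _ hX hs hfrob
  have g0 := fun V : O[X] => CuspAbsRed.g0 ϖ hϖ q α₁ β₁ σ₁ u' U hσ₁u σ₁z hσ₁zO hσ₁zfrac hσ₁zα
    hσ₁zβ J'⁻¹ _ hX hs hfrob V
  have K1 := CuspAbsRed.gen_k1 ψ φ hψφ q α₁ β₁ σ₁ u' U hσ₁u hσ₁β α₂ σ hσα₂ σm hσmO hσmfrac z₀
    hz₀ hσmα₂ J'⁻¹ _ hX hfrob
  have K2 := CuspAbsRed.gen_k2 ψ φ hψφ α₁ β₁ σ₁ u' U hσ₁u σ₁z hσ₁zβ α₂ β₂ σ hσα₂ σm hσmO hσmfrac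
    z₀ hz₀ hσmα₂ hσmβ₂ J'⁻¹ _ hX
  have KX := CuspAbsRed.genUnit_x ψ φ hψφ α₁ σ₁ u' U hσ₁u α₂ σ hσα₂ σm hσmO hσmfrac z₀ hz₀ hσmα₂
    J'⁻¹ _ hX hs
  rw [← hp1] at goo
  rw [← hP2] at K1 K2 KX
  obtain ⟨Φ, hΦ, hx0, hy0, hroot, hroot'⟩ :=
    CuspSqRoots.exists_phi_of_J (O := O) σ₁ hσ₁O α₁ β₁ hq hσ₁β J' hJ
  have hmid : β₂ (α₁ J'⁻¹) = α₂ (β₁ J'⁻¹) :=
    CuspSqRoots.hmid_of_J σ₁ σ α₁ β₁ α₂ β₂ q hσ₁β hσα₂ hσβ₂ J'⁻¹
  have hxz : α₂ (α₁ J'⁻¹) ≠ β₂ (β₁ J'⁻¹) :=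
    CuspSqRoots.hxz_of_J σ₁ σ α₁ β₁ α₂ β₂ q hq.two_le hσ₁β hσα₂ hσβ₂ J' hJ
  exact CuspInstE.hcusp_chart (α₁ u') ((α₂.comp α₁) u') α₂ β₂ (fun b => (hφa b).symm)
    (fun b => (hφb b).symm) hα₂O hβ₂O P p q hq h Φ hΦ hx0 hy0 hroot hroot' hmid hxz goo
    (hp0 ▸ g0 _) v hqπ hv good hcx tα tβ K1 K2 KX

include hσ₁β hσ₁zβ hα₂O hβ₂O hσβ₂ hσmβ₂ in
/-- **The cusp brick of the chart `u` in the `SqAbs` block, Hauptmodul `u₄`** (`q` odd), for ANY
chart maps `φa`, `φb` under `α₂`, `β₂`: `good M := uC * (uC + 16) ∉ M`. -/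
theorem hcusp_gen4 [Fact q.Prime] [CharP (IsLocalRing.ResidueField O) q]
    {φa φb : Chart O (α₁ u') →+* Chart O ((α₂.comp α₁) u')}
    (hφa : ∀ b : Chart O (α₁ u'), ((φa b : Chart O ((α₂.comp α₁) u')) : L) = α₂ (b : L1))
    (hφb : ∀ b : Chart O (α₁ u'), ((φb b : Chart O ((α₂.comp α₁) u')) : L) = β₂ (b : L1))
    {π1 : Chart O (α₁ u')} (v : Chart O ((α₂.comp α₁) u')) (hv : IsUnit v)
    (hqπ : ((q : ℕ) : Chart O ((α₂.comp α₁) u')) = φa π1 * v)
    (P : Fin 3 → Ideal (Chart O ((α₂.comp α₁) u'))) (p : Fin 2 → Ideal (Chart O (α₁ u')))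
    (h : SqExit.Hyp φa φb π1 (p 1) (p 0) (P 1) (P 0) (P 2) (q - 1))
    (hp1 : p 1 = RingHom.ker rI₁) (hp0 : p 0 = RingHom.ker rZ₁)
    (hP2 : P 2 = SqGlue.centreM τM lamV)
    (J' : L') (hJ : σ₁ (α₁ J') = jqModC E)
    (hrel : J' * u' ^ 4 * (u' + 16) = (u' ^ 2 + 256 * u' + 4096) ^ 3)
    (h2 : IsUnit (2 : O))
    (uC : Chart O ((α₂.comp α₁) u')) (huC : (uC : L) = α₂ (α₁ u')) :
    ∀ M : Ideal (Chart O ((α₂.comp α₁) u')), M.IsMaximal → ¬ (uC * (uC + 16) ∉ M) →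
      ∀ i : Fin 3, P i ≤ M →
        ∃ t ∈ P i, ∀ r ∈ P i, ∃ s : Chart O ((α₂.comp α₁) u'), s ∉ M ∧
          s * r ∈ Ideal.span {t} := by
  have hJ0 : J' ≠ 0 := by
    rintro rfl
    rw [map_zero, map_zero] at hJ
    exact CuspKron.jq_ne_zero E hJ.symm
  have hj1 : α₁ J' ≠ 0 := (map_ne_zero α₁).mpr hJ0
  have hj2 : α₂ (α₁ J') ≠ 0 := (map_ne_zero α₂).mpr hj1
  have hrel1 : α₁ J' * α₁ u' ^ 4 * (α₁ u' + 16) = (α₁ u' ^ 2 + 256 * α₁ u' + 4096) ^ 3 := by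
    have := congrArg α₁ hrel
    simpa only [map_mul, map_add, map_pow, map_ofNat] using this
  have hrel2 : α₂ (α₁ J') * α₂ (α₁ u') ^ 4 * (α₂ (α₁ u') + 16)
      = (α₂ (α₁ u') ^ 2 + 256 * α₂ (α₁ u') + 4096) ^ 3 := by
    have := congrArg α₂ hrel1
    simpa only [map_mul, map_add, map_pow, map_ofNat] using this
  have hxinv : α₁ J'⁻¹ = (α₁ J')⁻¹ := map_inv₀ α₁ J'
  have hXinv : α₂ (α₁ J'⁻¹) = (α₂ (α₁ J'))⁻¹ := by rw [hxinv, map_inv₀]
  refine hcusp_gen ψ φ hψφ ϖ hϖ q α₁ β₁ σ₁ hσ₁O hσ₁frac u' U hσ₁u σ₁z hσ₁zO hσ₁zfrac hσ₁zα hσ₁β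
    hσ₁zβ α₂ β₂ hα₂O hβ₂O σ hσα₂ hσβ₂ σm hσmO hσmfrac z₀ hz₀ hσmα₂ hσmβ₂ hφa hφb v hv hqπ P p h
    hp1 hp0 hP2 J' hJ (fun M => uC * (uC + 16) ∉ M) ?_ ?_ ?_
  · intro M hM hg
    haveI := hM.isPrime
    rw [hXinv]
    exact (CuspInstE.cusp_chart_u4 h2 ((α₂.comp α₁) u') uC huC hj2 hrel2 M).mp (not_not.mp hg)
  · intro M hM hx
    haveI := hM.isPrime
    rw [hxinv] at hx ⊢
    exact CuspInstE.transfer_chart_u4 h2 (α₁ u') ((α₂.comp α₁) u') φa α₂
      (fun b => (hφa b).symm) hj1 hrel1 M hx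
  · intro M hM hx
    haveI := hM.isPrime
    rw [hxinv] at hx ⊢
    exact CuspInstE.transfer_chart_u4 h2 (α₁ u') ((α₂.comp α₁) u') φb β₂
      (fun b => (hφb b).symm) hj1 hrel1 M hx

include hσ₁β hσ₁zβ hα₂O hβ₂O hσβ₂ hσmβ₂ in
/-- **The cusp brick of the chart `u` in the `SqAbs` block, Hauptmodul `u₉`** (`3` a unit; in
use `q = 2`), for ANY chart maps `φa`, `φb` under `α₂`, `β₂`:
`good M := uC * (uC ^ 2 + 9 * uC + 27) ∉ M`. -/
theorem hcusp_gen9 [Fact q.Prime] [CharP (IsLocalRing.ResidueField O) q]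
    {φa φb : Chart O (α₁ u') →+* Chart O ((α₂.comp α₁) u')}
    (hφa : ∀ b : Chart O (α₁ u'), ((φa b : Chart O ((α₂.comp α₁) u')) : L) = α₂ (b : L1))
    (hφb : ∀ b : Chart O (α₁ u'), ((φb b : Chart O ((α₂.comp α₁) u')) : L) = β₂ (b : L1))
    {π1 : Chart O (α₁ u')} (v : Chart O ((α₂.comp α₁) u')) (hv : IsUnit v)
    (hqπ : ((q : ℕ) : Chart O ((α₂.comp α₁) u')) = φa π1 * v)
    (P : Fin 3 → Ideal (Chart O ((α₂.comp α₁) u'))) (p : Fin 2 → Ideal (Chart O (α₁ u')))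
    (h : SqExit.Hyp φa φb π1 (p 1) (p 0) (P 1) (P 0) (P 2) (q - 1))
    (hp1 : p 1 = RingHom.ker rI₁) (hp0 : p 0 = RingHom.ker rZ₁)
    (hP2 : P 2 = SqGlue.centreM τM lamV)
    (J' : L') (hJ : σ₁ (α₁ J') = jqModC E)
    (hrel : J' * u' ^ 9 * (u' ^ 2 + 9 * u' + 27)
      = (u' + 9) ^ 3 * (u' ^ 3 + 243 * u' ^ 2 + 2187 * u' + 6561) ^ 3)
    (h3 : IsUnit (3 : O))
    (uC : Chart O ((α₂.comp α₁) u')) (huC : (uC : L) = α₂ (α₁ u')) :
    ∀ M : Ideal (Chart O ((α₂.comp α₁) u')), M.IsMaximal →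
      ¬ (uC * (uC ^ 2 + 9 * uC + 27) ∉ M) →
      ∀ i : Fin 3, P i ≤ M →
        ∃ t ∈ P i, ∀ r ∈ P i, ∃ s : Chart O ((α₂.comp α₁) u'), s ∉ M ∧
          s * r ∈ Ideal.span {t} := by
  have hJ0 : J' ≠ 0 := by
    rintro rfl
    rw [map_zero, map_zero] at hJ
    exact CuspKron.jq_ne_zero E hJ.symm
  have hj1 : α₁ J' ≠ 0 := (map_ne_zero α₁).mpr hJ0
  have hj2 : α₂ (α₁ J') ≠ 0 := (map_ne_zero α₂).mpr hj1
  have hrel1 : α₁ J' * α₁ u' ^ 9 * (α₁ u' ^ 2 + 9 * α₁ u' + 27)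
      = (α₁ u' + 9) ^ 3 * (α₁ u' ^ 3 + 243 * α₁ u' ^ 2 + 2187 * α₁ u' + 6561) ^ 3 :=
    CuspChart9.u9_rel_map α₁ hrel
  have hrel2 : α₂ (α₁ J') * α₂ (α₁ u') ^ 9 * (α₂ (α₁ u') ^ 2 + 9 * α₂ (α₁ u') + 27)
      = (α₂ (α₁ u') + 9) ^ 3
        * (α₂ (α₁ u') ^ 3 + 243 * α₂ (α₁ u') ^ 2 + 2187 * α₂ (α₁ u') + 6561) ^ 3 :=
    CuspChart9.u9_rel_map α₂ hrel1
  have hxinv : α₁ J'⁻¹ = (α₁ J')⁻¹ := map_inv₀ α₁ J'
  have hXinv : α₂ (α₁ J'⁻¹) = (α₂ (α₁ J'))⁻¹ := by rw [hxinv, map_inv₀]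
  refine hcusp_gen ψ φ hψφ ϖ hϖ q α₁ β₁ σ₁ hσ₁O hσ₁frac u' U hσ₁u σ₁z hσ₁zO hσ₁zfrac hσ₁zα hσ₁β
    hσ₁zβ α₂ β₂ hα₂O hβ₂O σ hσα₂ hσβ₂ σm hσmO hσmfrac z₀ hz₀ hσmα₂ hσmβ₂ hφa hφb v hv hqπ P p h
    hp1 hp0 hP2 J' hJ (fun M => uC * (uC ^ 2 + 9 * uC + 27) ∉ M) ?_ ?_ ?_
  · intro M hM hg
    haveI := hM.isPrime
    rw [hXinv]
    exact (CuspInstE9.cusp_chart_u9 h3 ((α₂.comp α₁) u') uC huC hj2 hrel2 M).mp
      (not_not.mp hg)
  · intro M hM hx
    haveI := hM.isPrime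
    rw [hxinv] at hx ⊢
    exact CuspChart9.transfer_chart_u9 h3 (α₁ u') ((α₂.comp α₁) u') φa α₂
      (fun b => (hφa b).symm) hj1 hrel1 M hx
  · intro M hM hx
    haveI := hM.isPrime
    rw [hxinv] at hx ⊢
    exact CuspChart9.transfer_chart_u9 h3 (α₁ u') ((α₂.comp α₁) u') φb β₂
      (fun b => (hφb b).symm) hj1 hrel1 M hx

end Model

/-! ### E-level: the block of `SqChart/InstA` `section Package` -/

section ELevel

open Fermat.Agent.S30 Fermat.Agent.S30.CSide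
open Fermat.Agent.S18.K1Defs Fermat.Agent.S18.K1Main
open Fermat.Agent.S34.TwoPrimesRank Fermat.Agent.S34.HauptU.Plug
open Fermat.Agent.S36.SqChart Fermat.Agent.S36.CycloBase Fermat.Agent.S36.SqRankE
open Fermat.Agent.S36.LocAt

local notation "Qb" => AlgebraicClosure ℚ

attribute [local instance] InstA.algL InstA.towerL

variable (A : ValuationSubring Qb) {q : ℕ} (hq : q.Prime) [NeZero q] (hA : A.LiesOverPrime q)
  (K : IntermediateField ℚ Qb) [FiniteDimensional ℚ K]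
  (hK : A.inertiaSubgroupIn ℚ ≤ K.fixingSubgroup) {ζ : Qb} (hζ : IsPrimitiveRoot ζ q)
  [IsDiscreteValuationRing (OE A K)] [IsDiscreteValuationRing (OE A (cyclo K ζ))]
  (R : ℕ) [NeZero R] (hqR : ¬ q ∣ R)
  (u' : LE R K) (U : LaurentSeries (OE A K))
  (hU : (u' : LaurentSeries K) = GaussDVR.iota (OE A K) K U)

/-! #### The level-`q` embedding identities of the InstA family -/

include hU in
/-- `hσ₁u`. -/
theorem sigma1_u :
    sigmaHom (R * q) K (alphaHom R q K u') = GaussDVR.iota (OE A K) K U := by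
  rw [Fermat.Agent.S34.Sat.sigma_alpha, hU]

/-- `hσ₁β`. -/
theorem sigma1_beta (x : LE R K) :
    sigmaHom (R * q) K (betaHom R q K x)
      = qExpand K q (sigmaHom (R * q) K (alphaHom R q K x)) := by
  rw [Fermat.Agent.S34.Sat.sigma_alpha]
  exact coe_heckeBetaBar R q x

/-- The expansion at the cusp `0` of level `R q`: `σ₁z = σ₁ ∘ w₁`. -/
abbrev sig1z : LE (R * q) K →+* LaurentSeries K :=
  (sigmaHom (R * q) K).comp (InstA.w1 hq K R hqR)

/-- `hσ₁zO`. -/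
theorem sig1z_algebraMap (r : OE A K) :
    sig1z hq K R hqR (algebraMap (OE A K) (LE (R * q) K) r)
      = HahnSeries.C (algebraMap (OE A K) K r) := by
  rw [RingHom.comp_apply]
  have h := wHom_algebraMap R q K hq hqR (O := OE A K) r
  rw [show InstA.w1 hq K R hqR (algebraMap (OE A K) (LE (R * q) K) r)
    = algebraMap (OE A K) (LE (R * q) K) r from h]
  exact sigmaHom_algebraMap (R * q) K r

/-- `hσ₁zfrac`. -/
theorem sig1z_mem_fracField (x : LE (R * q) K) :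
    sig1z hq K R hqR x ∈ GaussDVR.fracField (OE A K) K :=
  sigmaHom_mem_fracField (R * q) K A _

/-- `hσ₁zα`. -/
theorem sig1z_alpha (x : LE R K) :
    sig1z hq K R hqR (alphaHom R q K x)
      = qExpand K q (sigmaHom (R * q) K (alphaHom R q K x)) := by
  rw [RingHom.comp_apply, InstA.w1_alpha, sigma1_beta]

/-- `hσ₁zβ`. -/
theorem sig1z_beta (x : LE R K) :
    sig1z hq K R hqR (betaHom R q K x) = sigmaHom (R * q) K (alphaHom R q K x) := by
  rw [RingHom.comp_apply, InstA.w1_beta]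

/-- `hσα₂`. -/
theorem sigma_alpha2 (f : LE (R * q) K) :
    sigmaHom (R * q * q) K (alphaHom (R * q) q K f) = sigmaHom (R * q) K f :=
  Fermat.Agent.S34.Sat.sigma_alpha (R * q) q K f

/-- `hσβ₂`. -/
theorem sigma_beta2 (f : LE (R * q) K) :
    sigmaHom (R * q * q) K (betaHom (R * q) q K f) = qExpand K q (sigmaHom (R * q) K f) :=
  coe_heckeBetaBar (R * q) q f

/-! #### The primes of the E-level C2 exit -/

local notation "ϖ" => ((q : ℕ) : OE A K)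
local notation "hϖ" => InstA.irreducible_q A hq hA K hK
local notation "α₁" => alphaHom R q K
local notation "β₁" => betaHom R q K
local notation "σ₁" => sigmaHom (R * q) K
local notation "hσ₁O" => sigmaHom_algebraMap (R * q) K (O := OE A K)
local notation "hσ₁frac" => sigmaHom_mem_fracField (R * q) K A
local notation "hσ₁u" => sigma1_u A K R u' U hU
local notation "σ₁z" => sig1z hq K R hqR
local notation "hσ₁zO" => sig1z_algebraMap A hq K R hqR
local notation "hσ₁zfrac" => sig1z_mem_fracField A hq K R hqR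
local notation "hσ₁zα" => sig1z_alpha hq K R hqR
local notation "α₂" => alphaHom (R * q) q K
local notation "β₂" => betaHom (R * q) q K
local notation "σ" => sigmaHom (R * q * q) K
local notation "hσα₂" => sigma_alpha2 K R (q := q)
local notation "ψ" => inclOE A (le_cyclo K ζ)
local notation "φ" => inclE (le_cyclo K ζ)
local notation "hψφ" => inclE_algebraMap A (le_cyclo K ζ)
local notation "σm" => InstA.sigM A hq hA K hζ R hqR
local notation "hσmO" => InstA.sigM_algebraMap A hq hA K hζ R hqR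
local notation "hσmfrac" => InstA.sigM_mem_fracField A hq hA K hζ R hqR
local notation "z₀" => zetaU A hq K hζ
local notation "hz₀" => InstA.irreducible_zeta_sub_one A hq hA K hK hζ
local notation "hσmα₂" => InstA.sigM_alpha A hq hA K hζ R hqR

/-- `hJ` : any name `J'` of `j` in `LE R K` has `σ₁ (α₁ J') = j(q)`. -/
theorem sigma1_J (J' : LE R K) (hJ' : (J' : LaurentSeries K) = coeffEmb K jq) :
    sigmaHom (R * q) K (alphaHom R q K J') = jqModC K := by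
  rw [Fermat.Agent.S34.Sat.sigma_alpha, hJ', Fermat.Agent.S30.E2G1.coeffEmb_jq]

/-! #### The binder `hcusp`, chart-prime form (the `hcusp` of `KInst9.holds_of_chart`) -/

open Fermat.Agent.S34.Nodal in
/-- **E-level call, binder `hcusp` of `KInst9.holds_of_chart`** (vertical primes `Pc`, `pc` on
the chart rings; `L := R * q`, `E := K`, `O := OE A K`, `u := alphaSq R q K u'`,
`u1 := alphaHom R q K u'`, `k := q - 1`), coordinate-generic.

Inputs: the binders `Pc pc φa₀ hφa₀ φb₀ hφb₀ h` of `holds_of_chart` themselves (`π1` any name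
of `q`, `hπ1 := rfl` for the literal `algebraMap O (Chart O u1) π`); the identification of
`pc 1`, `pc 0`, `Pc 2` with the primes `HypE.pInf`, `HypE.pZero`, `HypE.PMid` of the E-level C2
exit (`rfl` at `Pc := ![HypE.PZero .., HypE.PInf .., HypE.PMid ..]`,
`pc := ![HypE.pZero .., HypE.pInf ..]`); any name `J'` of `j` in `LE R K`; and the coordinate
facts `good`, `hcx`, `tα`, `tβ` for `x = α₁ J'⁻¹`. -/
theorem hcusp_Pc
    (Pc : Fin 3 → Ideal (Chart (OE A K) (alphaSq R q K u')))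
    (pc : Fin 2 → Ideal (Chart (OE A K) (alphaHom R q K u')))
    (φa₀ : Chart (OE A K) (alphaHom R q K u') →+* Chart (OE A K) (alphaSq R q K u'))
    (hφa₀ : ∀ x : Chart (OE A K) (alphaHom R q K u'),
      ((φa₀ x : Chart (OE A K) (alphaSq R q K u')) : LE (R * q * q) K)
        = alphaHom (R * q) q K (x : LE (R * q) K))
    (φb₀ : Chart (OE A K) (alphaHom R q K u') →+* Chart (OE A K) (alphaSq R q K u'))
    (hφb₀ : ∀ x : Chart (OE A K) (alphaHom R q K u'),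
      ((φb₀ x : Chart (OE A K) (alphaSq R q K u')) : LE (R * q * q) K)
        = betaHom (R * q) q K (x : LE (R * q) K))
    {π1 : Chart (OE A K) (alphaHom R q K u')}
    (h : SqExit.Hyp φa₀ φb₀ π1 (pc 1) (pc 0) (Pc 1) (Pc 0) (Pc 2) (q - 1))
    (hπ1 : (π1 : LE (R * q) K) = algebraMap (OE A K) (LE (R * q) K) ((q : ℕ) : OE A K))
    (hp1 : pc 1 = HypE.pInf A hq hA K hK R u' U hU)
    (hp0 : pc 0 = HypE.pZero A hq hA K hK R hqR u' U hU)
    (hP2 : Pc 2 = HypE.PMid A hq hA K hK hζ R hqR u' U hU)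
    (J' : LE R K) (hJ' : (J' : LaurentSeries K) = coeffEmb K jq)
    (good : Ideal (Chart (OE A K) (alphaSq R q K u')) → Prop)
    (hcx : ∀ M : Ideal (Chart (OE A K) (alphaSq R q K u')), M.IsMaximal → ¬ good M →
      LocIn M M (alphaHom (R * q) q K (alphaHom R q K J'⁻¹)))
    (tα : ∀ M : Ideal (Chart (OE A K) (alphaSq R q K u')), M.IsMaximal →
      LocIn M M (alphaHom (R * q) q K (alphaHom R q K J'⁻¹)) →
      LocIn (M.comap φa₀) (M.comap φa₀) (alphaHom R q K J'⁻¹))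
    (tβ : ∀ M : Ideal (Chart (OE A K) (alphaSq R q K u')), M.IsMaximal →
      LocIn M M (betaHom (R * q) q K (alphaHom R q K J'⁻¹)) →
      LocIn (M.comap φb₀) (M.comap φb₀) (alphaHom R q K J'⁻¹)) :
    ∀ y : Ideal (Chart (OE A K) (alphaSq R q K u')), y.IsMaximal → ¬ good y →
      ∀ i : Fin 3, Pc i ≤ y →
      ∃ t' ∈ Pc i, ∀ x ∈ Pc i,
        ∃ s : Chart (OE A K) (alphaSq R q K u'), s ∉ y ∧ s * x ∈ Ideal.span {t'} := by
  haveI : Fact q.Prime := ⟨hq⟩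
  haveI : CharP (IsLocalRing.ResidueField (OE A K)) q :=
    Fermat.Agent.S34.Sat.charP_residue_OE' A K hq hA
  have hqπ : ((q : ℕ) : Chart (OE A K) (alphaSq R q K u')) = φa₀ π1 * 1 := by
    have e : ((φa₀ π1 * 1 : Chart (OE A K) (alphaSq R q K u')) : LE (R * q * q) K)
        = ((q : ℕ) : LE (R * q * q) K) := by
      rw [mul_one, hφa₀, hπ1, alphaHom_algebraMap (R * q) q K (O := OE A K), map_natCast]
    exact Subtype.ext e.symm
  exact hcusp_gen ψ φ hψφ ϖ hϖ q α₁ β₁ σ₁ hσ₁O hσ₁frac u' U hσ₁u σ₁z hσ₁zO hσ₁zfrac hσ₁zα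
    (sigma1_beta K R) (sig1z_beta hq K R hqR) α₂ β₂
    (alphaHom_algebraMap (R * q) q K (O := OE A K)) (betaHom_algebraMap (R * q) q K (O := OE A K))
    σ hσα₂ (sigma_beta2 K R) σm hσmO hσmfrac z₀ hz₀ hσmα₂
    (InstA.sigM_beta A hq hA K hζ R hqR) hφa₀ hφb₀ 1 isUnit_one hqπ Pc pc
    h (hp1.trans (HypBridge.pInf_eq A hq hA K hK R u' U hU hϖ hσ₁O hσ₁frac hσ₁u))
    (hp0.trans (HypBridge.pZero_eq A hq hA K hK R hqR u' U hU hϖ hσ₁u hσ₁zO hσ₁zfrac hσ₁zα))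
    (hP2.trans (HypBridge.PMid_eq A hq hA K hK hζ R hqR u' U hU hσ₁u hσα₂ hσmO hσmfrac hz₀
      hσmα₂)) J' (sigma1_J K R J' hJ') good hcx tα tβ

open Fermat.Agent.S34.Nodal in
/-- **E-level call, binder `hcusp` of `KInst9.holds_of_chart`, Hauptmodul `u₄`** (`q` odd):
`good y := uC * (uC + 16) ∉ y` for any name `uC` of the coordinate `alphaSq R q K u'` in its
chart ring.  Coordinate facts: `hrel` (`Haupt4.jE_mul_u4E R K h4 J' hJ'` at `u' = u₄`), `h2`. -/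
theorem hcusp4_Pc
    (Pc : Fin 3 → Ideal (Chart (OE A K) (alphaSq R q K u')))
    (pc : Fin 2 → Ideal (Chart (OE A K) (alphaHom R q K u')))
    (φa₀ : Chart (OE A K) (alphaHom R q K u') →+* Chart (OE A K) (alphaSq R q K u'))
    (hφa₀ : ∀ x : Chart (OE A K) (alphaHom R q K u'),
      ((φa₀ x : Chart (OE A K) (alphaSq R q K u')) : LE (R * q * q) K)
        = alphaHom (R * q) q K (x : LE (R * q) K))
    (φb₀ : Chart (OE A K) (alphaHom R q K u') →+* Chart (OE A K) (alphaSq R q K u'))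
    (hφb₀ : ∀ x : Chart (OE A K) (alphaHom R q K u'),
      ((φb₀ x : Chart (OE A K) (alphaSq R q K u')) : LE (R * q * q) K)
        = betaHom (R * q) q K (x : LE (R * q) K))
    {π1 : Chart (OE A K) (alphaHom R q K u')}
    (h : SqExit.Hyp φa₀ φb₀ π1 (pc 1) (pc 0) (Pc 1) (Pc 0) (Pc 2) (q - 1))
    (hπ1 : (π1 : LE (R * q) K) = algebraMap (OE A K) (LE (R * q) K) ((q : ℕ) : OE A K))
    (hp1 : pc 1 = HypE.pInf A hq hA K hK R u' U hU)
    (hp0 : pc 0 = HypE.pZero A hq hA K hK R hqR u' U hU)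
    (hP2 : Pc 2 = HypE.PMid A hq hA K hK hζ R hqR u' U hU)
    (J' : LE R K) (hJ' : (J' : LaurentSeries K) = coeffEmb K jq)
    (hrel : J' * u' ^ 4 * (u' + 16) = (u' ^ 2 + 256 * u' + 4096) ^ 3)
    (h2 : IsUnit (2 : OE A K))
    (uC : Chart (OE A K) (alphaSq R q K u'))
    (huC : (uC : LE (R * q * q) K) = alphaSq R q K u') :
    ∀ y : Ideal (Chart (OE A K) (alphaSq R q K u')), y.IsMaximal → ¬ (uC * (uC + 16) ∉ y) →
      ∀ i : Fin 3, Pc i ≤ y →
      ∃ t' ∈ Pc i, ∀ x ∈ Pc i,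
        ∃ s : Chart (OE A K) (alphaSq R q K u'), s ∉ y ∧ s * x ∈ Ideal.span {t'} := by
  haveI : Fact q.Prime := ⟨hq⟩
  haveI : CharP (IsLocalRing.ResidueField (OE A K)) q :=
    Fermat.Agent.S34.Sat.charP_residue_OE' A K hq hA
  have hqπ : ((q : ℕ) : Chart (OE A K) (alphaSq R q K u')) = φa₀ π1 * 1 := by
    have e : ((φa₀ π1 * 1 : Chart (OE A K) (alphaSq R q K u')) : LE (R * q * q) K)
        = ((q : ℕ) : LE (R * q * q) K) := by
      rw [mul_one, hφa₀, hπ1, alphaHom_algebraMap (R * q) q K (O := OE A K), map_natCast]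
    exact Subtype.ext e.symm
  exact hcusp_gen4 ψ φ hψφ ϖ hϖ q α₁ β₁ σ₁ hσ₁O hσ₁frac u' U hσ₁u σ₁z hσ₁zO hσ₁zfrac hσ₁zα
    (sigma1_beta K R) (sig1z_beta hq K R hqR) α₂ β₂
    (alphaHom_algebraMap (R * q) q K (O := OE A K)) (betaHom_algebraMap (R * q) q K (O := OE A K))
    σ hσα₂ (sigma_beta2 K R) σm hσmO hσmfrac z₀ hz₀ hσmα₂
    (InstA.sigM_beta A hq hA K hζ R hqR) hφa₀ hφb₀ 1 isUnit_one hqπ Pc pc
    h (hp1.trans (HypBridge.pInf_eq A hq hA K hK R u' U hU hϖ hσ₁O hσ₁frac hσ₁u))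
    (hp0.trans (HypBridge.pZero_eq A hq hA K hK R hqR u' U hU hϖ hσ₁u hσ₁zO hσ₁zfrac hσ₁zα))
    (hP2.trans (HypBridge.PMid_eq A hq hA K hK hζ R hqR u' U hU hσ₁u hσα₂ hσmO hσmfrac hz₀
      hσmα₂)) J' (sigma1_J K R J' hJ') hrel h2 uC huC

open Fermat.Agent.S34.Nodal in
/-- **E-level call, binder `hcusp` of `KInst9.holds_of_chart`, Hauptmodul `u₉`** (in use:
`q = 2`): `good y := uC * (uC ^ 2 + 9 * uC + 27) ∉ y` for any name `uC` of the coordinate
`alphaSq R q K u'` in its chart ring.  Coordinate facts: `hrel`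
(`Haupt9.jE_mul_u9E R K h9 J' hJ'` at `u' = u₉`), `h3`. -/
theorem hcusp9_Pc
    (Pc : Fin 3 → Ideal (Chart (OE A K) (alphaSq R q K u')))
    (pc : Fin 2 → Ideal (Chart (OE A K) (alphaHom R q K u')))
    (φa₀ : Chart (OE A K) (alphaHom R q K u') →+* Chart (OE A K) (alphaSq R q K u'))
    (hφa₀ : ∀ x : Chart (OE A K) (alphaHom R q K u'),
      ((φa₀ x : Chart (OE A K) (alphaSq R q K u')) : LE (R * q * q) K)
        = alphaHom (R * q) q K (x : LE (R * q) K))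
    (φb₀ : Chart (OE A K) (alphaHom R q K u') →+* Chart (OE A K) (alphaSq R q K u'))
    (hφb₀ : ∀ x : Chart (OE A K) (alphaHom R q K u'),
      ((φb₀ x : Chart (OE A K) (alphaSq R q K u')) : LE (R * q * q) K)
        = betaHom (R * q) q K (x : LE (R * q) K))
    {π1 : Chart (OE A K) (alphaHom R q K u')}
    (h : SqExit.Hyp φa₀ φb₀ π1 (pc 1) (pc 0) (Pc 1) (Pc 0) (Pc 2) (q - 1))
    (hπ1 : (π1 : LE (R * q) K) = algebraMap (OE A K) (LE (R * q) K) ((q : ℕ) : OE A K))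
    (hp1 : pc 1 = HypE.pInf A hq hA K hK R u' U hU)
    (hp0 : pc 0 = HypE.pZero A hq hA K hK R hqR u' U hU)
    (hP2 : Pc 2 = HypE.PMid A hq hA K hK hζ R hqR u' U hU)
    (J' : LE R K) (hJ' : (J' : LaurentSeries K) = coeffEmb K jq)
    (hrel : J' * u' ^ 9 * (u' ^ 2 + 9 * u' + 27)
      = (u' + 9) ^ 3 * (u' ^ 3 + 243 * u' ^ 2 + 2187 * u' + 6561) ^ 3)
    (h3 : IsUnit (3 : OE A K))
    (uC : Chart (OE A K) (alphaSq R q K u'))
    (huC : (uC : LE (R * q * q) K) = alphaSq R q K u') :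
    ∀ y : Ideal (Chart (OE A K) (alphaSq R q K u')), y.IsMaximal →
      ¬ (uC * (uC ^ 2 + 9 * uC + 27) ∉ y) →
      ∀ i : Fin 3, Pc i ≤ y →
      ∃ t' ∈ Pc i, ∀ x ∈ Pc i,
        ∃ s : Chart (OE A K) (alphaSq R q K u'), s ∉ y ∧ s * x ∈ Ideal.span {t'} := by
  haveI : Fact q.Prime := ⟨hq⟩
  haveI : CharP (IsLocalRing.ResidueField (OE A K)) q :=
    Fermat.Agent.S34.Sat.charP_residue_OE' A K hq hA
  have hqπ : ((q : ℕ) : Chart (OE A K) (alphaSq R q K u')) = φa₀ π1 * 1 := by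
    have e : ((φa₀ π1 * 1 : Chart (OE A K) (alphaSq R q K u')) : LE (R * q * q) K)
        = ((q : ℕ) : LE (R * q * q) K) := by
      rw [mul_one, hφa₀, hπ1, alphaHom_algebraMap (R * q) q K (O := OE A K), map_natCast]
    exact Subtype.ext e.symm
  exact hcusp_gen9 ψ φ hψφ ϖ hϖ q α₁ β₁ σ₁ hσ₁O hσ₁frac u' U hσ₁u σ₁z hσ₁zO hσ₁zfrac hσ₁zα
    (sigma1_beta K R) (sig1z_beta hq K R hqR) α₂ β₂
    (alphaHom_algebraMap (R * q) q K (O := OE A K)) (betaHom_algebraMap (R * q) q K (O := OE A K))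
    σ hσα₂ (sigma_beta2 K R) σm hσmO hσmfrac z₀ hz₀ hσmα₂
    (InstA.sigM_beta A hq hA K hζ R hqR) hφa₀ hφb₀ 1 isUnit_one hqπ Pc pc
    h (hp1.trans (HypBridge.pInf_eq A hq hA K hK R u' U hU hϖ hσ₁O hσ₁frac hσ₁u))
    (hp0.trans (HypBridge.pZero_eq A hq hA K hK R hqR u' U hU hϖ hσ₁u hσ₁zO hσ₁zfrac hσ₁zα))
    (hP2.trans (HypBridge.PMid_eq A hq hA K hK hζ R hqR u' U hU hσ₁u hσα₂ hσmO hσmfrac hz₀
      hσmα₂)) J' (sigma1_J K R J' hJ') hrel h3 uC huC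

/-! #### The binder `hcusp`, overlap form (the `hcusp` of `KContractE.holds_of_hyp`) -/

open Fermat.Agent.S34.Nodal in
/-- **E-level call, binder `hcusp` of `KContractE.holds_of_hyp`** (`L := R * q`, `E := K`,
`O := OE A K`, `π := q`, `u := alphaSq R q K u'`, `u1 := alphaHom R q K u'`, `k := q - 1`),
coordinate-generic.

Inputs: the binders `P p φa₀ hφa₀ φb₀ hφb₀ h` of `holds_of_hyp` themselves (`π1` any name of
`q`, `hπ1 := rfl` for the literal `algebraMap O (Chart O u1) π`); the identification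
of the contractions of `p 1`, `p 0`, `P 2` with the primes `HypE.pInf`, `HypE.pZero`,
`HypE.PMid` of the E-level C2 exit (`hp1`, `hp0`, `hP2`); any name `J'` of `j` in `LE R K`;
and the coordinate facts `good`, `hcx`, `tα`, `tβ` for `x = α₁ J'⁻¹`. -/
theorem hcusp
    (P : Fin 3 → Ideal (Overlap (OE A K) (alphaSq R q K u')))
    (p : Fin 2 → Ideal (Overlap (OE A K) (alphaHom R q K u')))
    (φa₀ : Chart (OE A K) (alphaHom R q K u') →+* Chart (OE A K) (alphaSq R q K u'))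
    (hφa₀ : ∀ x : Chart (OE A K) (alphaHom R q K u'),
      ((φa₀ x : Chart (OE A K) (alphaSq R q K u')) : LE (R * q * q) K)
        = alphaHom (R * q) q K (x : LE (R * q) K))
    (φb₀ : Chart (OE A K) (alphaHom R q K u') →+* Chart (OE A K) (alphaSq R q K u'))
    (hφb₀ : ∀ x : Chart (OE A K) (alphaHom R q K u'),
      ((φb₀ x : Chart (OE A K) (alphaSq R q K u')) : LE (R * q * q) K)
        = betaHom (R * q) q K (x : LE (R * q) K))
    {π1 : Chart (OE A K) (alphaHom R q K u')}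
    (h : SqExit.Hyp φa₀ φb₀ π1
      ((p 1).comap (toOverlapZero (OE A K) (alphaHom R q K u')))
      ((p 0).comap (toOverlapZero (OE A K) (alphaHom R q K u')))
      ((P 1).comap (toOverlapZero (OE A K) (alphaSq R q K u')))
      ((P 0).comap (toOverlapZero (OE A K) (alphaSq R q K u')))
      ((P 2).comap (toOverlapZero (OE A K) (alphaSq R q K u'))) (q - 1))
    (hπ1 : (π1 : LE (R * q) K) = algebraMap (OE A K) (LE (R * q) K) ((q : ℕ) : OE A K))
    (hp1 : (p 1).comap (toOverlapZero (OE A K) (alphaHom R q K u'))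
      = HypE.pInf A hq hA K hK R u' U hU)
    (hp0 : (p 0).comap (toOverlapZero (OE A K) (alphaHom R q K u'))
      = HypE.pZero A hq hA K hK R hqR u' U hU)
    (hP2 : (P 2).comap (toOverlapZero (OE A K) (alphaSq R q K u'))
      = HypE.PMid A hq hA K hK hζ R hqR u' U hU)
    (J' : LE R K) (hJ' : (J' : LaurentSeries K) = coeffEmb K jq)
    (good : Ideal (Chart (OE A K) (alphaSq R q K u')) → Prop)
    (hcx : ∀ M : Ideal (Chart (OE A K) (alphaSq R q K u')), M.IsMaximal → ¬ good M →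
      LocIn M M (alphaHom (R * q) q K (alphaHom R q K J'⁻¹)))
    (tα : ∀ M : Ideal (Chart (OE A K) (alphaSq R q K u')), M.IsMaximal →
      LocIn M M (alphaHom (R * q) q K (alphaHom R q K J'⁻¹)) →
      LocIn (M.comap φa₀) (M.comap φa₀) (alphaHom R q K J'⁻¹))
    (tβ : ∀ M : Ideal (Chart (OE A K) (alphaSq R q K u')), M.IsMaximal →
      LocIn M M (betaHom (R * q) q K (alphaHom R q K J'⁻¹)) →
      LocIn (M.comap φb₀) (M.comap φb₀) (alphaHom R q K J'⁻¹)) :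
    ∀ y : Ideal (Chart (OE A K) (alphaSq R q K u')), y.IsMaximal → ¬ good y →
      ∀ i : Fin 3, (P i).comap (toOverlapZero (OE A K) (alphaSq R q K u')) ≤ y →
      ∃ t' ∈ (P i).comap (toOverlapZero (OE A K) (alphaSq R q K u')),
        ∀ x ∈ (P i).comap (toOverlapZero (OE A K) (alphaSq R q K u')),
          ∃ s : Chart (OE A K) (alphaSq R q K u'), s ∉ y ∧ s * x ∈ Ideal.span {t'} :=
  hcusp_Pc A hq hA K hK hζ R hqR u' U hU
    (fun i => (P i).comap (toOverlapZero (OE A K) (alphaSq R q K u')))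
    (fun j => (p j).comap (toOverlapZero (OE A K) (alphaHom R q K u')))
    φa₀ hφa₀ φb₀ hφb₀ h hπ1 hp1 hp0 hP2 J' hJ' good hcx tα tβ

open Fermat.Agent.S34.Nodal in
/-- **E-level call, binder `hcusp` of `KContractE.holds_of_hyp`, Hauptmodul `u₄`** (`q` odd):
`good y := uC * (uC + 16) ∉ y` for any name `uC` of the coordinate `alphaSq R q K u'` in its
chart ring.  Coordinate facts: `hrel` (`Haupt4.jE_mul_u4E R K h4 J' hJ'` at `u' = u₄`), `h2`. -/
theorem hcusp4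
    (P : Fin 3 → Ideal (Overlap (OE A K) (alphaSq R q K u')))
    (p : Fin 2 → Ideal (Overlap (OE A K) (alphaHom R q K u')))
    (φa₀ : Chart (OE A K) (alphaHom R q K u') →+* Chart (OE A K) (alphaSq R q K u'))
    (hφa₀ : ∀ x : Chart (OE A K) (alphaHom R q K u'),
      ((φa₀ x : Chart (OE A K) (alphaSq R q K u')) : LE (R * q * q) K)
        = alphaHom (R * q) q K (x : LE (R * q) K))
    (φb₀ : Chart (OE A K) (alphaHom R q K u') →+* Chart (OE A K) (alphaSq R q K u'))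
    (hφb₀ : ∀ x : Chart (OE A K) (alphaHom R q K u'),
      ((φb₀ x : Chart (OE A K) (alphaSq R q K u')) : LE (R * q * q) K)
        = betaHom (R * q) q K (x : LE (R * q) K))
    {π1 : Chart (OE A K) (alphaHom R q K u')}
    (h : SqExit.Hyp φa₀ φb₀ π1
      ((p 1).comap (toOverlapZero (OE A K) (alphaHom R q K u')))
      ((p 0).comap (toOverlapZero (OE A K) (alphaHom R q K u')))
      ((P 1).comap (toOverlapZero (OE A K) (alphaSq R q K u')))
      ((P 0).comap (toOverlapZero (OE A K) (alphaSq R q K u')))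
      ((P 2).comap (toOverlapZero (OE A K) (alphaSq R q K u'))) (q - 1))
    (hπ1 : (π1 : LE (R * q) K) = algebraMap (OE A K) (LE (R * q) K) ((q : ℕ) : OE A K))
    (hp1 : (p 1).comap (toOverlapZero (OE A K) (alphaHom R q K u'))
      = HypE.pInf A hq hA K hK R u' U hU)
    (hp0 : (p 0).comap (toOverlapZero (OE A K) (alphaHom R q K u'))
      = HypE.pZero A hq hA K hK R hqR u' U hU)
    (hP2 : (P 2).comap (toOverlapZero (OE A K) (alphaSq R q K u'))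
      = HypE.PMid A hq hA K hK hζ R hqR u' U hU)
    (J' : LE R K) (hJ' : (J' : LaurentSeries K) = coeffEmb K jq)
    (hrel : J' * u' ^ 4 * (u' + 16) = (u' ^ 2 + 256 * u' + 4096) ^ 3)
    (h2 : IsUnit (2 : OE A K))
    (uC : Chart (OE A K) (alphaSq R q K u'))
    (huC : (uC : LE (R * q * q) K) = alphaSq R q K u') :
    ∀ y : Ideal (Chart (OE A K) (alphaSq R q K u')), y.IsMaximal → ¬ (uC * (uC + 16) ∉ y) →
      ∀ i : Fin 3, (P i).comap (toOverlapZero (OE A K) (alphaSq R q K u')) ≤ y →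
      ∃ t' ∈ (P i).comap (toOverlapZero (OE A K) (alphaSq R q K u')),
        ∀ x ∈ (P i).comap (toOverlapZero (OE A K) (alphaSq R q K u')),
          ∃ s : Chart (OE A K) (alphaSq R q K u'), s ∉ y ∧ s * x ∈ Ideal.span {t'} :=
  hcusp4_Pc A hq hA K hK hζ R hqR u' U hU
    (fun i => (P i).comap (toOverlapZero (OE A K) (alphaSq R q K u')))
    (fun j => (p j).comap (toOverlapZero (OE A K) (alphaHom R q K u')))
    φa₀ hφa₀ φb₀ hφb₀ h hπ1 hp1 hp0 hP2 J' hJ' hrel h2 uC huC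

open Fermat.Agent.S34.Nodal in
/-- **E-level call, binder `hcusp` of `KContractE.holds_of_hyp`, Hauptmodul `u₉`** (in use:
`q = 2`): `good y := uC * (uC ^ 2 + 9 * uC + 27) ∉ y` for any name `uC` of the coordinate
`alphaSq R q K u'` in its chart ring.  Coordinate facts: `hrel` (`Haupt9.jE_mul_u9E R K h9 J' hJ'`
at `u' = u₉`), `h3`. -/
theorem hcusp9
    (P : Fin 3 → Ideal (Overlap (OE A K) (alphaSq R q K u')))
    (p : Fin 2 → Ideal (Overlap (OE A K) (alphaHom R q K u')))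
    (φa₀ : Chart (OE A K) (alphaHom R q K u') →+* Chart (OE A K) (alphaSq R q K u'))
    (hφa₀ : ∀ x : Chart (OE A K) (alphaHom R q K u'),
      ((φa₀ x : Chart (OE A K) (alphaSq R q K u')) : LE (R * q * q) K)
        = alphaHom (R * q) q K (x : LE (R * q) K))
    (φb₀ : Chart (OE A K) (alphaHom R q K u') →+* Chart (OE A K) (alphaSq R q K u'))
    (hφb₀ : ∀ x : Chart (OE A K) (alphaHom R q K u'),
      ((φb₀ x : Chart (OE A K) (alphaSq R q K u')) : LE (R * q * q) K)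
        = betaHom (R * q) q K (x : LE (R * q) K))
    {π1 : Chart (OE A K) (alphaHom R q K u')}
    (h : SqExit.Hyp φa₀ φb₀ π1
      ((p 1).comap (toOverlapZero (OE A K) (alphaHom R q K u')))
      ((p 0).comap (toOverlapZero (OE A K) (alphaHom R q K u')))
      ((P 1).comap (toOverlapZero (OE A K) (alphaSq R q K u')))
      ((P 0).comap (toOverlapZero (OE A K) (alphaSq R q K u')))
      ((P 2).comap (toOverlapZero (OE A K) (alphaSq R q K u'))) (q - 1))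
    (hπ1 : (π1 : LE (R * q) K) = algebraMap (OE A K) (LE (R * q) K) ((q : ℕ) : OE A K))
    (hp1 : (p 1).comap (toOverlapZero (OE A K) (alphaHom R q K u'))
      = HypE.pInf A hq hA K hK R u' U hU)
    (hp0 : (p 0).comap (toOverlapZero (OE A K) (alphaHom R q K u'))
      = HypE.pZero A hq hA K hK R hqR u' U hU)
    (hP2 : (P 2).comap (toOverlapZero (OE A K) (alphaSq R q K u'))
      = HypE.PMid A hq hA K hK hζ R hqR u' U hU)
    (J' : LE R K) (hJ' : (J' : LaurentSeries K) = coeffEmb K jq)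
    (hrel : J' * u' ^ 9 * (u' ^ 2 + 9 * u' + 27)
      = (u' + 9) ^ 3 * (u' ^ 3 + 243 * u' ^ 2 + 2187 * u' + 6561) ^ 3)
    (h3 : IsUnit (3 : OE A K))
    (uC : Chart (OE A K) (alphaSq R q K u'))
    (huC : (uC : LE (R * q * q) K) = alphaSq R q K u') :
    ∀ y : Ideal (Chart (OE A K) (alphaSq R q K u')), y.IsMaximal →
      ¬ (uC * (uC ^ 2 + 9 * uC + 27) ∉ y) →
      ∀ i : Fin 3, (P i).comap (toOverlapZero (OE A K) (alphaSq R q K u')) ≤ y →
      ∃ t' ∈ (P i).comap (toOverlapZero (OE A K) (alphaSq R q K u')),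
        ∀ x ∈ (P i).comap (toOverlapZero (OE A K) (alphaSq R q K u')),
          ∃ s : Chart (OE A K) (alphaSq R q K u'), s ∉ y ∧ s * x ∈ Ideal.span {t'} :=
  hcusp9_Pc A hq hA K hK hζ R hqR u' U hU
    (fun i => (P i).comap (toOverlapZero (OE A K) (alphaSq R q K u')))
    (fun j => (p j).comap (toOverlapZero (OE A K) (alphaHom R q K u')))
    φa₀ hφa₀ φb₀ hφb₀ h hπ1 hp1 hp0 hP2 J' hJ' hrel h3 uC huC

end ELevel

end Fermat.Agent.S36.ECall.Cusp
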