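import Mathlib
import Fermat.Agent.S36.SqChart.HypE
import Fermat.Agent.S36.PrinAt

/-!
# S36 / ECall / H0 : the binders `good`, `h0` of `KContractE.holds_of_hyp` at the `E`-level

Vocabulary and variable block of `SqChart/HypE` (helper111): `O = 𝒪_K = OE A K`, `ϖ = q`,
level `q` : `α₁ = alphaHom R q K`, level `q²` : `α₂ ∘ α₁ = alphaSq R q K`; the coordinate
`u' ∈ LE R K` is generic (`hU`).  `u1 = α₁ u'`, `u = α₂ (α₁ u')`.

The ONE coordinate fact is the named hypothesis `hgen0` : the prime `p_0 = HypE.pZero` of the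
chart ring of level `R q` is locally principal at the closed points through it (the exit
`gen_0` of C1):

* unconditional form (`(C1Inst4Alt.gen_u4 ..).2` for `u₄`): `h0` holds for EVERY predicate
  `good`;
* pointwise form, at the closed points of the level-`R q` chart satisfying a predicate `goodq`
  (non-cuspidal points, the `u₉` exit at `q = 2`): `h0_good`, for every `good` with
  `good y → goodq (y.comap φa₀)`.

Statements:

* `h0_of_gen` : the core, from integrality of `φa₀` and `φa₀ (p_0) ⊆ P_0`;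
* `h0`, `h0_good` : the LITERAL binder `h0` of `KContractE.holds_of_hyp` /
  `KContractChart.kContract_of_hyp` (`L := R * q`, `E := K`, `O := OE A K`,
  `u := alphaSq R q K u'`, `u1 := alphaHom R q K u'`, `π := q`) for ANY overlap primes `P`, `p`,
  chart maps `φa₀`, `φb₀` and exponent `k` satisfying the binder `h : SqExit.Hyp ..` of
  `holds_of_hyp`, with `p 0` contracting to `HypE.pZero` on the chart of `u1`.
-/

set_option autoImplicit false
set_option linter.unusedSectionVars false
set_option linter.unusedVariables false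
set_option linter.style.haveILetI false
set_option synthInstance.maxHeartbeats 400000

open ModularCurve Polynomial

noncomputable section

namespace Fermat.Agent.S36.ECall.H0

open Fermat.Agent.S30 Fermat.Agent.S30.CSide
open Fermat.Agent.S18.K1Defs Fermat.Agent.S18.K1Main
open Fermat.Agent.S34 Fermat.Agent.S34.TwoPrimesGauss Fermat.Agent.S34.TwoPrimesRank
open Fermat.Agent.S34.HauptU.Plug
open Fermat.Agent.S36.SqChart Fermat.Agent.S36.SqChart.InstA Fermat.Agent.S36.SqRankE
open Fermat.Agent.S36.PrinAt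

local notation "Qb" => AlgebraicClosure ℚ

attribute [local instance] InstA.algL InstA.towerL

section Core

variable {B1 B2 : Type*} [CommRing B1] [CommRing B2]

/-- The core of `h0`: if `p0` is locally principal at every closed point through it satisfying
`goodq`, `φ` is integral and `φ (p0) ⊆ P0`, then `p0` is locally principal at the contraction of
every closed point `y` through `P0` with `goodq (y.comap φ)`. -/
theorem h0_of_gen (φ : B1 →+* B2) (hint : φ.IsIntegral) (p0 : Ideal B1) (P0 : Ideal B2)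
    (hle : ∀ a ∈ p0, φ a ∈ P0) (goodq : Ideal B1 → Prop)
    (hgen0 : ∀ y : Ideal B1, y.IsMaximal → goodq y → p0 ≤ y → ∃ t, t ≠ 0 ∧ PrinAt y p0 t)
    (y : Ideal B2) (hy : y.IsMaximal) (hg : goodq (y.comap φ)) (hP0 : P0 ≤ y) :
    ∃ t', t' ≠ 0 ∧ PrinAt (y.comap φ) p0 t' :=
  hgen0 (y.comap φ) (Ideal.isMaximal_comap_of_isIntegral_of_isMaximal' φ hint y) hg
    (fun a ha => hP0 (hle a ha))

end Core

section Inst

variable (A : ValuationSubring Qb) {q : ℕ} (hq : q.Prime) [NeZero q] (hA : A.LiesOverPrime q)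
  (K : IntermediateField ℚ Qb) [FiniteDimensional ℚ K]
  (hK : A.inertiaSubgroupIn ℚ ≤ K.fixingSubgroup)
  [IsDiscreteValuationRing (OE A K)]
  (R : ℕ) [NeZero R] (hqR : ¬ q ∣ R)
  (u' : LE R K) (U : LaurentSeries (OE A K))
  (hU : (u' : LaurentSeries K) = GaussDVR.iota (OE A K) K U)

/-- **The binder `h0` of `KContractE.holds_of_hyp`** (`u := alphaSq R q K u'`,
`u1 := alphaHom R q K u'`, `π := q`), pointwise form: for overlap primes `p` of level `R q` with
`p 0` contracting to `HypE.pZero` on the chart of `u1`, from the C1 exit `hgen0` at the closed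
points of the level-`R q` chart satisfying `goodq`, for every `good` with
`good y → goodq (y.comap φa₀)`. -/
theorem h0_good
    (P : Fin 3 → Ideal (Nodal.Overlap (OE A K) (alphaSq R q K u')))
    (p : Fin 2 → Ideal (Nodal.Overlap (OE A K) (alphaHom R q K u')))
    (hp0 : (p 0).comap (Nodal.toOverlapZero (OE A K) (alphaHom R q K u')) =
      HypE.pZero A hq hA K hK R hqR u' U hU)
    (φa₀ φb₀ : Nodal.Chart (OE A K) (alphaHom R q K u') →+*
      Nodal.Chart (OE A K) (alphaSq R q K u'))
    (k : ℕ)
    (h : SqExit.Hyp φa₀ φb₀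
      (algebraMap (OE A K) (Nodal.Chart (OE A K) (alphaHom R q K u')) ((q : ℕ) : OE A K))
      ((p 1).comap (Nodal.toOverlapZero (OE A K) (alphaHom R q K u')))
      ((p 0).comap (Nodal.toOverlapZero (OE A K) (alphaHom R q K u')))
      ((P 1).comap (Nodal.toOverlapZero (OE A K) (alphaSq R q K u')))
      ((P 0).comap (Nodal.toOverlapZero (OE A K) (alphaSq R q K u')))
      ((P 2).comap (Nodal.toOverlapZero (OE A K) (alphaSq R q K u'))) k)
    (goodq : Ideal (Nodal.Chart (OE A K) (alphaHom R q K u')) → Prop)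
    (hgen0 : ∀ y : Ideal (Nodal.Chart (OE A K) (alphaHom R q K u')), y.IsMaximal → goodq y →
      HypE.pZero A hq hA K hK R hqR u' U hU ≤ y →
      ∃ t, t ≠ 0 ∧ PrinAt y (HypE.pZero A hq hA K hK R hqR u' U hU) t)
    (good : Ideal (Nodal.Chart (OE A K) (alphaSq R q K u')) → Prop)
    (hgood : ∀ y : Ideal (Nodal.Chart (OE A K) (alphaSq R q K u')), y.IsMaximal → good y →
      goodq (y.comap φa₀)) :
    ∀ y : Ideal (Nodal.Chart (OE A K) (alphaSq R q K u')), y.IsMaximal → good y →
      (P 0).comap (Nodal.toOverlapZero (OE A K) (alphaSq R q K u')) ≤ y →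
      (P 1).comap (Nodal.toOverlapZero (OE A K) (alphaSq R q K u')) ≤ y →
      (P 2).comap (Nodal.toOverlapZero (OE A K) (alphaSq R q K u')) ≤ y →
      ∃ t', t' ≠ 0 ∧ PrinAt (y.comap φa₀)
        ((p 0).comap (Nodal.toOverlapZero (OE A K) (alphaHom R q K u'))) t' := by
  intro y hy hg hP0 _ _
  refine h0_of_gen φa₀ h.α_int _ _ h.α_p0_P0 goodq ?_ y hy (hgood y hy hg) hP0
  rw [hp0]
  exact hgen0

/-- **The binder `h0` of `KContractE.holds_of_hyp`** (`u := alphaSq R q K u'`,
`u1 := alphaHom R q K u'`, `π := q`), for overlap primes `p` of level `R q` with `p 0`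
contracting to `HypE.pZero` on the chart of `u1`, from the unconditional C1 exit `hgen0`;
`good` is arbitrary. -/
theorem h0
    (P : Fin 3 → Ideal (Nodal.Overlap (OE A K) (alphaSq R q K u')))
    (p : Fin 2 → Ideal (Nodal.Overlap (OE A K) (alphaHom R q K u')))
    (hp0 : (p 0).comap (Nodal.toOverlapZero (OE A K) (alphaHom R q K u')) =
      HypE.pZero A hq hA K hK R hqR u' U hU)
    (φa₀ φb₀ : Nodal.Chart (OE A K) (alphaHom R q K u') →+*
      Nodal.Chart (OE A K) (alphaSq R q K u'))
    (k : ℕ)
    (h : SqExit.Hyp φa₀ φb₀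
      (algebraMap (OE A K) (Nodal.Chart (OE A K) (alphaHom R q K u')) ((q : ℕ) : OE A K))
      ((p 1).comap (Nodal.toOverlapZero (OE A K) (alphaHom R q K u')))
      ((p 0).comap (Nodal.toOverlapZero (OE A K) (alphaHom R q K u')))
      ((P 1).comap (Nodal.toOverlapZero (OE A K) (alphaSq R q K u')))
      ((P 0).comap (Nodal.toOverlapZero (OE A K) (alphaSq R q K u')))
      ((P 2).comap (Nodal.toOverlapZero (OE A K) (alphaSq R q K u'))) k)
    (hgen0 : ∀ y : Ideal (Nodal.Chart (OE A K) (alphaHom R q K u')), y.IsMaximal →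
      HypE.pZero A hq hA K hK R hqR u' U hU ≤ y →
      ∃ t, t ≠ 0 ∧ PrinAt y (HypE.pZero A hq hA K hK R hqR u' U hU) t)
    (good : Ideal (Nodal.Chart (OE A K) (alphaSq R q K u')) → Prop) :
    ∀ y : Ideal (Nodal.Chart (OE A K) (alphaSq R q K u')), y.IsMaximal → good y →
      (P 0).comap (Nodal.toOverlapZero (OE A K) (alphaSq R q K u')) ≤ y →
      (P 1).comap (Nodal.toOverlapZero (OE A K) (alphaSq R q K u')) ≤ y →
      (P 2).comap (Nodal.toOverlapZero (OE A K) (alphaSq R q K u')) ≤ y →
      ∃ t', t' ≠ 0 ∧ PrinAt (y.comap φa₀)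
        ((p 0).comap (Nodal.toOverlapZero (OE A K) (alphaHom R q K u'))) t' :=
  h0_good A hq hA K hK R hqR u' U hU P p hp0 φa₀ φb₀ k h (fun _ => True)
    (fun y hy _ => hgen0 y hy) good (fun _ _ _ => trivial)

end Inst

end Fermat.Agent.S36.ECall.H0
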