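import Mathlib
import Fermat.Agent.S36.SqChart.HypE
import Fermat.Agent.S36.DedInfSq
import Fermat.Agent.S34.HauptU.LevelMAux

/-!
# S36, E-level call `ECall/Inf`: the binders at infinity of `KContractE.holds_of_hyp`

The binders `hsep`, `h11inf`, `hreg` (fibre `u⁻¹ = 0` of the chart `u⁻¹`) of
`KContractE.holds_of_hyp` at `L := R * q`, `E := K`, `O := OE A K` (instances `InstA.algL`,
`InstA.towerL`), `π := q`, `u := alphaSq R q K u'`, `u1 := alphaHom R q K u'`, `k := q - 1`, for a
GENERIC coordinate `u' : LE R K`, ANY overlap primes `P : Fin 3 → Ideal (Overlap O u)` whose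
contractions to the chart `u` are the three Gauss primes of `SqChart/HypE`
(`P 0 = PZero`, `P 1 = PInf`, `P 2 = PMid`; named hypotheses `hP0 hP1 hP2`).

## `hreg` (regularity of the three components at the points over `u⁻¹ = 0`)

`DedInfSq.hreg_inf` at the objects of `InstA.package_alpha`, with the second base
`β' = betaSq R q K`.  Coordinate facts, all NAMED hypotheses:

* `hnormal`, `hT`, `hD` : the level `R` fibre is normal on the chart `u'` and Dedekind on the
  chart `u'⁻¹`, `u'` is transcendental (all three are fields of `LevelMAux.ChartFacts`, see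
  `hreg_of_chartFacts`);
* `hyI`, `hyI'` : `(β₂ β₁ u')⁻¹` and `(α₂ α₁ u')⁻¹` are integral over each other's polynomial
  rings; `sq_inv_of_steps` gets them from the four single-step facts (`(I2)` at infinity at the
  levels `(R, R q)` and `(R q, R q²)`).

* `hreg` : block of `SqChart/InstA` `section Package` (`hy`, `hcop`/`hfrob` for `q * q`);
* `hreg_hypE` : block of `SqChart/HypE` `section Inst` (`hwu`, `hcop`/`hfrob` for `q`);
* `hreg_of_chartFacts` : the same from `ChartFacts K q u' u'⁻¹`.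
-/

set_option autoImplicit false
set_option linter.unusedSectionVars false
set_option linter.unusedVariables false
set_option linter.style.haveILetI false
set_option synthInstance.maxHeartbeats 400000
set_option maxHeartbeats 1000000

open ModularCurve Polynomial

noncomputable section

namespace Fermat.Agent.S36.ECall.Inf

open Fermat.Agent.S30 Fermat.Agent.S30.CSide
open Fermat.Agent.S18.K1Defs Fermat.Agent.S18.K1Main
open Fermat.Agent.S34 Fermat.Agent.S34.TwoPrimesGauss Fermat.Agent.S34.TwoPrimesRank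
open Fermat.Agent.S34.HauptU.Plug
open Fermat.Agent.S36 Fermat.Agent.S36.SqChart Fermat.Agent.S36.MultPrimesGauss
open Fermat.Agent.S36.CycloBase Fermat.Agent.S36.SqRankE Fermat.Agent.S36.SqChart.InstA

local notation "Qb" => AlgebraicClosure ℚ

/-! ### Level-free: the two integrality facts of level `q²` at infinity from the single steps -/

section Steps

variable {O L' L1 L : Type*} [CommRing O] [Field L'] [Field L1] [Field L]
  [Algebra O L'] [Algebra O L1] [Algebra O L]
  (a1 b1 : L' →+* L1) (a2 b2 : L1 →+* L)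
  (hb2O : ∀ r : O, b2 (algebraMap O L1 r) = algebraMap O L r)
  (u' : L')

include hb2O in
/-- `(β₂ β₁ u')⁻¹` and `(α₂ α₁ u')⁻¹` are integral over each other's polynomial rings, from the
two levels: `h1`, `h1'` at the level `(M', M' q)` (in the form `α₁ u'⁻¹`, `β₁ u'⁻¹`), `h2`, `h2'`
at the level `(M' q, M' q²)` (the hypotheses `hβinv`, `hαinv` of `ECall/ObjInf`). -/
theorem sq_inv_of_steps
    (h1 : IsIntegral (Algebra.adjoin O ({a1 u'⁻¹} : Set L1)) (b1 u'⁻¹))
    (h1' : IsIntegral (Algebra.adjoin O ({b1 u'⁻¹} : Set L1)) (a1 u'⁻¹))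
    (h2 : IsIntegral (Algebra.adjoin O ({((a2.comp a1) u')⁻¹} : Set L)) (b2 (a1 u'))⁻¹)
    (h2' : IsIntegral (Algebra.adjoin O ({(b2 (a1 u'))⁻¹} : Set L)) ((a2.comp a1) u')⁻¹) :
    IsIntegral (Algebra.adjoin O ({((a2.comp a1) u')⁻¹} : Set L)) ((b2.comp b1) u')⁻¹ ∧
    IsIntegral (Algebra.adjoin O ({((b2.comp b1) u')⁻¹} : Set L)) ((a2.comp a1) u')⁻¹ := by
  have e1 : b2 (a1 u'⁻¹) = (b2 (a1 u'))⁻¹ := by rw [map_inv₀, map_inv₀]
  have e2 : b2 (b1 u'⁻¹) = ((b2.comp b1) u')⁻¹ := by
    rw [RingHom.comp_apply, map_inv₀, map_inv₀]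
  constructor
  · have h := DedInf.isIntegral_map_of_forall b2 hb2O {a1 u'⁻¹}
      (Algebra.adjoin O ({((a2.comp a1) u')⁻¹} : Set L))
      (fun t ht => by
        rw [Set.mem_singleton_iff] at ht
        rw [ht, e1]
        exact h2) h1
    rw [e2] at h
    exact h
  · have hT : IsIntegral (Algebra.adjoin O ({((b2.comp b1) u')⁻¹} : Set L)) (b2 (a1 u'))⁻¹ := by
      have h := DedInf.isIntegral_map_of_forall b2 hb2O {b1 u'⁻¹}
        (Algebra.adjoin O ({((b2.comp b1) u')⁻¹} : Set L))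
        (fun t ht => by
          rw [Set.mem_singleton_iff] at ht
          rw [ht, e2]
          exact isIntegral_algebraMap
            (R := Algebra.adjoin O ({((b2.comp b1) u')⁻¹} : Set L)) (A := L)
            (x := ⟨((b2.comp b1) u')⁻¹, Algebra.subset_adjoin (Set.mem_singleton _)⟩)) h1'
      rw [e1] at h
      exact h
    exact DedInf.isIntegral_map_of_forall (O := O) (RingHom.id L) (fun _ => rfl)
      {(b2 (a1 u'))⁻¹} _
      (fun t ht => by
        rw [Set.mem_singleton_iff] at ht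
        rw [ht]
        exact hT) h2'

end Steps

/-! ### E-level -/

attribute [local instance] InstA.algL InstA.towerL

section ELevel

variable (A : ValuationSubring Qb) {q : ℕ} (hq : q.Prime) [NeZero q] (hA : A.LiesOverPrime q)
  (K : IntermediateField ℚ Qb) [FiniteDimensional ℚ K]
  (hK : A.inertiaSubgroupIn ℚ ≤ K.fixingSubgroup) {ζ : Qb} (hζ : IsPrimitiveRoot ζ q)
  [IsDiscreteValuationRing (OE A K)] [IsDiscreteValuationRing (OE A (cyclo K ζ))]
  (R : ℕ) [NeZero R] (hqR : ¬ q ∣ R)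
  (u' : LE R K) (U : LaurentSeries (OE A K))
  (hU : (u' : LaurentSeries K) = GaussDVR.iota (OE A K) K U)

/-- `σ (β₂ (β₁ x)) = (σ (α₂ (α₁ x)))(q^{q q})`. -/
theorem sigma_betaSq_alphaSq (x : LE R K) :
    sigmaHom (R * q * q) K (betaSq R q K x)
      = qExpand K (q * q) (sigmaHom (R * q * q) K (alphaSq R q K x)) := by
  rw [sigma_betaSq, sigma_alphaSq]

/-- `σ₀ (β₂ (β₁ x)) = σ (α₂ (α₁ x))`. -/
theorem sig0_betaSq_alphaSq (x : LE R K) :
    sig0 hq K R hqR (betaSq R q K x) = sigmaHom (R * q * q) K (alphaSq R q K x) := by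
  rw [sig0_betaSq, sigma_alphaSq]

/-- The E-level statement of the binder `hreg`. -/
abbrev HregStmt (P : Fin 3 → Ideal (Nodal.Overlap (OE A K) (alphaSq R q K u'))) : Prop :=
  ∀ M : Ideal (Nodal.Chart (OE A K) (alphaSq R q K u')⁻¹), M.IsMaximal →
    Model.ChartInf.tInf (alphaSq R q K u') ∈ M → ∀ i,
    (P i).comap (Nodal.toOverlapInf (OE A K) (alphaSq R q K u')) ≤ M →
    ∃ θ ∈ M, ∀ y ∈ M, ∃ c, c ∉ M ∧
      c * y ∈ (P i).comap (Nodal.toOverlapInf (OE A K) (alphaSq R q K u')) ⊔ Ideal.span {θ}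

section PackageBlock

variable [FiniteDimensional (IntermediateField.adjoin K {u'}) (LE R K)]
  (hy : IsIntegral (Algebra.adjoin (OE A K) {alphaSq R q K u'}) (betaSq R q K u'))
  (hprime : Prime (piC u' ((q : ℕ) : OE A K)))
  (hcop : IsCoprime (GaussDVR.rho (OE A K) U).order ((q * q : ℕ) : ℤ))
  (hord : (GaussDVR.rho (OE A K) U).order ≠ 0)
  (hθ : QFormal.theta (GaussDVR.rho (OE A K) U) ≠ 0)
  (hfrob : qExpand (IsLocalRing.ResidueField (OE A K)) (q * q) (GaussDVR.rho (OE A K) U)
    = GaussDVR.rho (OE A K) U ^ (q * q))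

include hy hprime hcop hord hθ hfrob in
/-- **E-level call, binder `hreg` of `KContractE.holds_of_hyp`** (block of `InstA.package_alpha`),
coordinate-generic: `DedInfSq.hreg_inf` at the objects of `SqChart/InstA`. -/
theorem hreg
    (hnormal : IsIntegrallyClosed
      (Chart (OE A K) u' ⧸ Ideal.span {piC u' ((q : ℕ) : OE A K)}))
    (hT : Transcendental K u')
    [hD : IsDedekindDomain (Chart (OE A K) u'⁻¹ ⧸ Ideal.span {piC u'⁻¹ ((q : ℕ) : OE A K)})]
    (hyI : IsIntegral (Algebra.adjoin (OE A K) {(alphaSq R q K u')⁻¹}) (betaSq R q K u')⁻¹)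
    (hyI' : IsIntegral (Algebra.adjoin (OE A K) {(betaSq R q K u')⁻¹}) (alphaSq R q K u')⁻¹)
    (P : Fin 3 → Ideal (Nodal.Overlap (OE A K) (alphaSq R q K u'))) [hP : ∀ i, (P i).IsPrime]
    (hP0 : (P 0).comap (Nodal.toOverlapZero (OE A K) (alphaSq R q K u'))
      = HypE.PZero A hq hA K hK R hqR u' U hU)
    (hP1 : (P 1).comap (Nodal.toOverlapZero (OE A K) (alphaSq R q K u'))
      = HypE.PInf A hq hA K hK R u' U hU)
    (hP2 : (P 2).comap (Nodal.toOverlapZero (OE A K) (alphaSq R q K u'))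
      = HypE.PMid A hq hA K hK hζ R hqR u' U hU) :
    HregStmt A K R u' P := by
  have h2 : 2 ≤ q := hq.two_le
  have hcard : q * (q + 1) < Fintype.card (Fin (1 + q * q + (q - 1) + 1)) := by
    rw [Fintype.card_fin, Nat.mul_succ]
    omega
  obtain ⟨hu', hπL, -, -, hnzd⟩ := Nodal.ChartTransfer.chart_inf_facts (E := K)
    ((q : ℕ) : OE A K) (irreducible_q A hq hA K hK) u' hT
  exact DedInfSq.hreg_inf (inclOE A (le_cyclo K ζ)) (inclE (le_cyclo K ζ))
    (inclE_algebraMap A (le_cyclo K ζ)) ((q : ℕ) : OE A K) (irreducible_q A hq hA K hK)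
    (alphaSq R q K) (alphaSq_algebraMap R q K (O := OE A K)) (sigmaHom (R * q * q) K)
    (sigmaHom_algebraMap (R * q * q) K (O := OE A K)) (sigmaHom_mem_fracField (R * q * q) K A)
    u' U (sigma_u A K R u' U hU) (sigM A hq hA K hζ R hqR) (sigM_algebraMap A hq hA K hζ R hqR)
    (sigM_mem_fracField A hq hA K hζ R hqR) (sigM_alphaSq A hq hA K hζ R hqR)
    (zetaU A hq K hζ) (irreducible_zeta_sub_one A hq hA K hK hζ) (q - 1)
    (lam_pow_dvd A hq hA K hK hζ) (betaSq R q K u') hy (sigM_y A hq hA K hζ R hqR u' U hU) hθ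
    (q * q) (sig0 hq K R hqR) (sig0_algebraMap hq K R hqR A) (sig0_mem_fracField hq K R hqR A)
    (sig0_alphaSq hq K R hqR) (sigma_y A K R u' U hU) (sig0_y A hq K R hqR u' U hU) (by omega)
    hprime hcop hord (by nlinarith) hfrob (fun v => hrank_alphaSq R q K hq hqR u' hcard v)
    (betaSq R q K) (betaSq_algebraMap R q K (O := OE A K)) rfl (sigma_betaSq_alphaSq K R)
    (sig0_betaSq_alphaSq hq K R hqR) hnormal hu' hπL hnzd hyI hyI' P hP0 hP1 hP2

end PackageBlock

section InstBlock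

variable (hwu : IsIntegral (Algebra.adjoin (OE A K) {alphaHom R q K u'})
    (wHom R q K hq hqR (alphaHom R q K u')))
  [FiniteDimensional (IntermediateField.adjoin K {u'}) (LE R K)]
  (hprime : Prime (piC u' ((q : ℕ) : OE A K)))
  (hcop : IsCoprime (GaussDVR.rho (OE A K) U).order ((q : ℕ) : ℤ))
  (hord : (GaussDVR.rho (OE A K) U).order ≠ 0)
  (hθ : QFormal.theta (GaussDVR.rho (OE A K) U) ≠ 0)
  (hfrob : qExpand (IsLocalRing.ResidueField (OE A K)) q (GaussDVR.rho (OE A K) U)
    = GaussDVR.rho (OE A K) U ^ q)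

include hwu in
/-- `hy` of `InstA.package_alpha` from `hwu` of `HypE.hyp`. -/
theorem isIntegral_betaSq :
    IsIntegral (Algebra.adjoin (OE A K) {alphaSq R q K u'}) (betaSq R q K u') :=
  HypGauss.isIntegral_y (alphaHom R q K) u' (wHom R q K hq hqR) hwu (alphaHom (R * q) q K)
    (betaHom (R * q) q K) (alphaHom_sq_algebraMap R q K (O := OE A K))
    (betaHom_sq_algebraMap R q K (O := OE A K)) (HypE.beta_alpha_comm hq K R hqR)
    (betaSq R q K u') (HypE.betaSq_eq hq K R hqR u')

include hcop in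
/-- `hcop` of `InstA.package_alpha` from `hcop` of `HypE.hyp`. -/
theorem isCoprime_sq :
    IsCoprime (GaussDVR.rho (OE A K) U).order ((q * q : ℕ) : ℤ) := by
  push_cast
  exact IsCoprime.mul_right hcop hcop

include hfrob in
/-- `hfrob` of `InstA.package_alpha` from `hfrob` of `HypE.hyp`. -/
theorem frob_sq :
    qExpand (IsLocalRing.ResidueField (OE A K)) (q * q) (GaussDVR.rho (OE A K) U)
      = GaussDVR.rho (OE A K) U ^ (q * q) := by
  rw [← qExpand_qExpand, hfrob, map_pow, hfrob, ← pow_mul]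

include hwu hprime hcop hord hθ hfrob in
/-- **E-level call, binder `hreg` of `KContractE.holds_of_hyp`**, in the block of
`SqChart/HypE` `section Inst` (the block of `HypE.hyp`). -/
theorem hreg_hypE
    (hnormal : IsIntegrallyClosed
      (Chart (OE A K) u' ⧸ Ideal.span {piC u' ((q : ℕ) : OE A K)}))
    (hT : Transcendental K u')
    [hD : IsDedekindDomain (Chart (OE A K) u'⁻¹ ⧸ Ideal.span {piC u'⁻¹ ((q : ℕ) : OE A K)})]
    (hyI : IsIntegral (Algebra.adjoin (OE A K) {(alphaSq R q K u')⁻¹}) (betaSq R q K u')⁻¹)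
    (hyI' : IsIntegral (Algebra.adjoin (OE A K) {(betaSq R q K u')⁻¹}) (alphaSq R q K u')⁻¹)
    (P : Fin 3 → Ideal (Nodal.Overlap (OE A K) (alphaSq R q K u'))) [hP : ∀ i, (P i).IsPrime]
    (hP0 : (P 0).comap (Nodal.toOverlapZero (OE A K) (alphaSq R q K u'))
      = HypE.PZero A hq hA K hK R hqR u' U hU)
    (hP1 : (P 1).comap (Nodal.toOverlapZero (OE A K) (alphaSq R q K u'))
      = HypE.PInf A hq hA K hK R u' U hU)
    (hP2 : (P 2).comap (Nodal.toOverlapZero (OE A K) (alphaSq R q K u'))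
      = HypE.PMid A hq hA K hK hζ R hqR u' U hU) :
    HregStmt A K R u' P :=
  hreg A hq hA K hK hζ R hqR u' U hU (isIntegral_betaSq A hq K R hqR u' hwu) hprime
    (isCoprime_sq A K U hcop) hord hθ (frob_sq A K U hfrob) hnormal hT hyI hyI' P hP0 hP1 hP2

/-- `(3) → (2)`: the `β`-form of `hwu` (`SqInstW`) gives the `w`-form (`HypE`), at any
element. -/
theorem isIntegral_w_of_beta (x : LE R K)
    (h : IsIntegral (Algebra.adjoin (OE A K) {alphaHom R q K x}) (betaHom R q K x)) :
    IsIntegral (Algebra.adjoin (OE A K) {alphaHom R q K x})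
      (wHom R q K hq hqR (alphaHom R q K x)) := by
  rw [wHom_alpha]
  exact h

/-- `(2) → (3)`: the `w`-form of `hwu` gives the `β`-form, at any element. -/
theorem isIntegral_beta_of_w (x : LE R K)
    (h : IsIntegral (Algebra.adjoin (OE A K) {alphaHom R q K x})
      (wHom R q K hq hqR (alphaHom R q K x))) :
    IsIntegral (Algebra.adjoin (OE A K) {alphaHom R q K x}) (betaHom R q K x) := by
  rw [wHom_alpha] at h
  exact h

/-- The reverse direction in the `β`-form from the `w`-form, at any element. -/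
theorem isIntegral_alpha_of_w (x : LE R K)
    (h : IsIntegral (Algebra.adjoin (OE A K) {wHom R q K hq hqR (alphaHom R q K x)})
      (alphaHom R q K x)) :
    IsIntegral (Algebra.adjoin (OE A K) {betaHom R q K x}) (alphaHom R q K x) := by
  rw [wHom_alpha] at h
  exact h

include hwu hcop hord hθ hfrob in
/-- **The binder `hreg` from the level `R` chart facts** `ChartFacts K q u' u'⁻¹`
(`Haupt4/Fibre.chartFacts_u4_OE`, `Haupt9/Fibre.chartFacts_u9_OE`) and the four single-step
integrality facts at infinity. -/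
theorem hreg_of_chartFacts
    (hF : HauptU.LevelMAux.ChartFacts K ((q : ℕ) : OE A K) u' u'⁻¹)
    (h1 : IsIntegral (Algebra.adjoin (OE A K) {alphaHom R q K u'⁻¹}) (betaHom R q K u'⁻¹))
    (h1' : IsIntegral (Algebra.adjoin (OE A K) {betaHom R q K u'⁻¹}) (alphaHom R q K u'⁻¹))
    (hβinv : IsIntegral (Algebra.adjoin (OE A K) {(alphaSq R q K u')⁻¹})
      (betaHom (R * q) q K (alphaHom R q K u'))⁻¹)
    (hαinv : IsIntegral (Algebra.adjoin (OE A K) {(betaHom (R * q) q K (alphaHom R q K u'))⁻¹})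
      (alphaSq R q K u')⁻¹)
    (P : Fin 3 → Ideal (Nodal.Overlap (OE A K) (alphaSq R q K u'))) [hP : ∀ i, (P i).IsPrime]
    (hP0 : (P 0).comap (Nodal.toOverlapZero (OE A K) (alphaSq R q K u'))
      = HypE.PZero A hq hA K hK R hqR u' U hU)
    (hP1 : (P 1).comap (Nodal.toOverlapZero (OE A K) (alphaSq R q K u'))
      = HypE.PInf A hq hA K hK R u' U hU)
    (hP2 : (P 2).comap (Nodal.toOverlapZero (OE A K) (alphaSq R q K u'))
      = HypE.PMid A hq hA K hK hζ R hqR u' U hU) :
    HregStmt A K R u' P := by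
  haveI := hF.dedekind_inf
  obtain ⟨hyI, hyI'⟩ := sq_inv_of_steps (O := OE A K) (alphaHom R q K) (betaHom R q K)
    (alphaHom (R * q) q K) (betaHom (R * q) q K) (betaHom_sq_algebraMap R q K (O := OE A K)) u'
    h1 h1' hβinv hαinv
  exact hreg_hypE A hq hA K hK hζ R hqR u' U hU hwu hF.prime_zero hcop hord hθ hfrob
    hF.normal_zero hF.transcendental hyI hyI' P hP0 hP1 hP2

include hwu hcop hord hθ hfrob in
/-- **The binder `hreg` for overlap primes given through chart primes `Pc`** (the shape of the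
binder `hinf` of `KInst9.holds_of_chart`): `Pc` ANY spelling of the three Gauss primes
(`hPc0 hPc1 hPc2`; for the `SqInstW` kernels these are `rfl`, see `SqChart/HypBridge`), `P` ANY
overlap primes with `(P i) ∩ Chart = Pc i`. -/
theorem hreg_of_comap
    (hF : HauptU.LevelMAux.ChartFacts K ((q : ℕ) : OE A K) u' u'⁻¹)
    (h1 : IsIntegral (Algebra.adjoin (OE A K) {alphaHom R q K u'⁻¹}) (betaHom R q K u'⁻¹))
    (h1' : IsIntegral (Algebra.adjoin (OE A K) {betaHom R q K u'⁻¹}) (alphaHom R q K u'⁻¹))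
    (hβinv : IsIntegral (Algebra.adjoin (OE A K) {(alphaSq R q K u')⁻¹})
      (betaHom (R * q) q K (alphaHom R q K u'))⁻¹)
    (hαinv : IsIntegral (Algebra.adjoin (OE A K) {(betaHom (R * q) q K (alphaHom R q K u'))⁻¹})
      (alphaSq R q K u')⁻¹)
    (Pc : Fin 3 → Ideal (Nodal.Chart (OE A K) (alphaSq R q K u')))
    (hPc0 : Pc 0 = HypE.PZero A hq hA K hK R hqR u' U hU)
    (hPc1 : Pc 1 = HypE.PInf A hq hA K hK R u' U hU)
    (hPc2 : Pc 2 = HypE.PMid A hq hA K hK hζ R hqR u' U hU)
    (P : Fin 3 → Ideal (Nodal.Overlap (OE A K) (alphaSq R q K u'))) [hP : ∀ i, (P i).IsPrime]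
    (hc : ∀ i, (P i).comap (Nodal.toOverlapZero (OE A K) (alphaSq R q K u')) = Pc i) :
    HregStmt A K R u' P :=
  hreg_of_chartFacts A hq hA K hK hζ R hqR u' U hU hwu hcop hord hθ hfrob hF h1 h1' hβinv hαinv
    P ((hc 0).trans hPc0) ((hc 1).trans hPc1) ((hc 2).trans hPc2)

end InstBlock

end ELevel

end Fermat.Agent.S36.ECall.Inf
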