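import Mathlib
import Fermat.Agent.S36.SqChart.InstA
import Fermat.Agent.S36.SqInfMapsInt

/-!
# S36, E-level call `ECall/ObjInf`: the chart maps at infinity `φa₁`, `φb₁` and their integrality

The binders `φa₁ hφa₁ hinta φb₁ hφb₁ hintb` of `KContractE.holds_of_hyp` at `L := R * q`,
`E := K`, `O := OE A K` (instances `InstA.algL`, `InstA.towerL`), `u := alphaSq R q K u'`,
`u1 := alphaHom R q K u'`, for a GENERIC coordinate `u' : LE R K`:

* `phiA1 = SqInfMaps.alphaInf` (`x ↦ α₂ x`), `coe_phiA1` (`rfl`), `phiA1_isIntegral`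
  (no hypothesis);
* `phiB1 hβinv = SqInfMaps.betaInf` (`x ↦ β₂ x`), `coe_phiB1` (`rfl`),
  `phiB1_isIntegral hβinv hαinv`, where the two coordinate facts are NAMED hypotheses:
  `hβinv` : `(β₂ (α₁ u'))⁻¹` is integral over `O[(α₂ (α₁ u'))⁻¹]`, `hαinv` : the converse.
  For `u' = Haupt4.u4E R K h4` (`q` odd) they are `Haupt4.InfSq.hbetaInv_u4E` /
  `halphaInv_u4E`; for `u' = Haupt9.u9E` they are `Haupt9.hwu_u9E_inv` / `hwu_u9E_inv'` at
  level `R * 2`.
-/

set_option autoImplicit false
set_option linter.unusedSectionVars false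
set_option linter.unusedVariables false
set_option linter.style.haveILetI false
set_option synthInstance.maxHeartbeats 400000
set_option maxHeartbeats 1000000

open ModularCurve Polynomial

noncomputable section

namespace Fermat.Agent.S36.ECall.ObjInf

open Fermat.Agent.S30 Fermat.Agent.S18.K1Defs Fermat.Agent.S18.K1Main
open Fermat.Agent.S34 Fermat.Agent.S34.TwoPrimesRank
open Fermat.Agent.S36 Fermat.Agent.S36.SqRankE Fermat.Agent.S36.SqChart

local notation "Qb" => AlgebraicClosure ℚ

attribute [local instance] InstA.algL InstA.towerL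

variable (A : ValuationSubring Qb) {q : ℕ} [NeZero q] (K : IntermediateField ℚ Qb)
  [IsDiscreteValuationRing (OE A K)] (R : ℕ) [NeZero R] (u' : LE R K)

/-- **`φa₁`**: the degeneracy map `α` on the charts at infinity, `x ↦ alphaHom (R q) q K x`. -/
def phiA1 : Nodal.Chart (OE A K) (alphaHom R q K u')⁻¹ →+*
    Nodal.Chart (OE A K) (alphaSq R q K u')⁻¹ :=
  SqInfMaps.alphaInf (alphaHom R q K) u' (alphaHom (R * q) q K) (alphaHom_sq_algebraMap R q K)

/-- **`hφa₁`** (literal binder of `KContractE.holds_of_hyp`). -/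
theorem coe_phiA1 (x : Nodal.Chart (OE A K) (alphaHom R q K u')⁻¹) :
    ((phiA1 A K R u' x : Nodal.Chart (OE A K) (alphaSq R q K u')⁻¹) : LE (R * q * q) K)
      = alphaHom (R * q) q K (x : LE (R * q) K) := rfl

/-- **`hinta`**. -/
theorem phiA1_isIntegral : (phiA1 (q := q) A K R u').IsIntegral :=
  SqInfMaps.alphaInf_isIntegral (alphaHom R q K) u' (alphaHom (R * q) q K)
    (alphaHom_sq_algebraMap R q K)

theorem phiA1_injective : Function.Injective (phiA1 (q := q) A K R u') :=
  SqInfMaps.alphaInf_injective (alphaHom R q K) u' (alphaHom (R * q) q K)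
    (alphaHom_sq_algebraMap R q K)

variable (hβinv : IsIntegral (Algebra.adjoin (OE A K) {(alphaSq R q K u')⁻¹})
  (betaHom (R * q) q K (alphaHom R q K u'))⁻¹)

/-- **`φb₁`**: the degeneracy map `β` on the charts at infinity, `x ↦ betaHom (R q) q K x`. -/
def phiB1 : Nodal.Chart (OE A K) (alphaHom R q K u')⁻¹ →+*
    Nodal.Chart (OE A K) (alphaSq R q K u')⁻¹ :=
  SqInfMaps.betaInf (alphaHom R q K) u' (alphaHom (R * q) q K) (betaHom (R * q) q K)
    (betaHom_sq_algebraMap R q K) hβinv

/-- **`hφb₁`** (literal binder of `KContractE.holds_of_hyp`). -/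
theorem coe_phiB1 (x : Nodal.Chart (OE A K) (alphaHom R q K u')⁻¹) :
    ((phiB1 A K R u' hβinv x : Nodal.Chart (OE A K) (alphaSq R q K u')⁻¹) : LE (R * q * q) K)
      = betaHom (R * q) q K (x : LE (R * q) K) := rfl

/-- **`hintb`**. -/
theorem phiB1_isIntegral
    (hαinv : IsIntegral (Algebra.adjoin (OE A K) {(betaHom (R * q) q K (alphaHom R q K u'))⁻¹})
      (alphaSq R q K u')⁻¹) :
    (phiB1 A K R u' hβinv).IsIntegral :=
  SqInfMaps.betaInf_isIntegral (alphaHom R q K) u' (alphaHom (R * q) q K) (betaHom (R * q) q K)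
    (betaHom_sq_algebraMap R q K) hβinv hαinv

theorem phiB1_injective : Function.Injective (phiB1 A K R u' hβinv) :=
  SqInfMaps.betaInf_injective (alphaHom R q K) u' (alphaHom (R * q) q K) (betaHom (R * q) q K)
    (betaHom_sq_algebraMap R q K) hβinv

end Fermat.Agent.S36.ECall.ObjInf
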