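import Mathlib
import Fermat.Agent.S36.SqChart.HypE

/-!
# S36 / ECall / Red : the binder `red` of `KContractE.holds_of_hyp` at the `E`-level

Vocabulary and variable block of `SqChart/HypE` (helper111): `O = 𝒪_K = OE A K`, `ϖ = q`,
level `q` : `α₁ = alphaHom R q K`, `σ₁ = sigmaHom (R q) K`, `w₁ = Plug.wHom R q K`; the coordinate
`u' ∈ LE R K` is generic (`hU`), with the level-`q` coordinate hypotheses `hwu`, `hprime`, `hcop`,
`hord`, `hfrob` of `TwoPrimesGauss.package` as named hypotheses.  `u1 = α₁ u'`.

* `red_chart` : `p_∞ ⊓ p_0 ≤ (q)` for the two primes `HypE.pInf`, `HypE.pZero` of the chart ring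
  of level `R q` ((SAT) of the level-`q` Gauss package);
* `red` : the LITERAL binder `red` of `KContractE.holds_of_hyp` / `KContractChart.kContract_of_hyp`
  (`L := R * q`, `E := K`, `O := OE A K`, `u1 := alphaHom R q K u'`, `π := q`) for ANY pair of
  overlap primes `p : Fin 2 → Ideal (Overlap O u1)` whose contractions to the chart of `u1` are
  `HypE.pZero` (`p 0`) and `HypE.pInf` (`p 1`).
-/

set_option autoImplicit false
set_option linter.unusedSectionVars false
set_option linter.unusedVariables false
set_option linter.style.haveILetI false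
set_option synthInstance.maxHeartbeats 400000

open ModularCurve Polynomial

noncomputable section

namespace Fermat.Agent.S36.ECall.Red

open Fermat.Agent.S30 Fermat.Agent.S30.CSide
open Fermat.Agent.S18.K1Defs Fermat.Agent.S18.K1Main
open Fermat.Agent.S34 Fermat.Agent.S34.TwoPrimesGauss Fermat.Agent.S34.TwoPrimesRank
open Fermat.Agent.S34.HauptU.Plug
open Fermat.Agent.S36.SqChart Fermat.Agent.S36.SqChart.InstA

local notation "Qb" => AlgebraicClosure ℚ

attribute [local instance] InstA.algL InstA.towerL

section Inst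

variable (A : ValuationSubring Qb) {q : ℕ} (hq : q.Prime) [NeZero q] (hA : A.LiesOverPrime q)
  (K : IntermediateField ℚ Qb) [FiniteDimensional ℚ K]
  (hK : A.inertiaSubgroupIn ℚ ≤ K.fixingSubgroup)
  [IsDiscreteValuationRing (OE A K)]
  (R : ℕ) [NeZero R] (hqR : ¬ q ∣ R)
  (u' : LE R K) (U : LaurentSeries (OE A K))
  (hU : (u' : LaurentSeries K) = GaussDVR.iota (OE A K) K U)
  (hwu : IsIntegral (Algebra.adjoin (OE A K) {alphaHom R q K u'})
    (wHom R q K hq hqR (alphaHom R q K u')))
  [FiniteDimensional (IntermediateField.adjoin K {u'}) (LE R K)]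
  (hprime : Prime (piC u' ((q : ℕ) : OE A K)))
  (hcop : IsCoprime (GaussDVR.rho (OE A K) U).order ((q : ℕ) : ℤ))
  (hord : (GaussDVR.rho (OE A K) U).order ≠ 0)
  (hfrob : qExpand (IsLocalRing.ResidueField (OE A K)) q (GaussDVR.rho (OE A K) U)
    = GaussDVR.rho (OE A K) U ^ q)

/-- The element `q` of the level-`R q` chart ring: `piC` is the structure map. -/
theorem piC_eq_algebraMap :
    piC (alphaHom R q K u') ((q : ℕ) : OE A K) =
      algebraMap (OE A K) (Nodal.Chart (OE A K) (alphaHom R q K u')) ((q : ℕ) : OE A K) :=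
  rfl

include hwu hprime hcop hord hfrob in
/-- **(SAT) at level `R q`** in the vocabulary of `SqChart/HypE`: an element of the chart ring
killed by both reductions is divisible by `q`. -/
theorem red_chart :
    HypE.pInf A hq hA K hK R u' U hU ⊓ HypE.pZero A hq hA K hK R hqR u' U hU ≤
      Ideal.span {algebraMap (OE A K) (Nodal.Chart (OE A K) (alphaHom R q K u'))
        ((q : ℕ) : OE A K)} := by
  intro c hc
  exact Ideal.mem_span_singleton.mpr
    (dvd_of_redInf_redZero ((q : ℕ) : OE A K) (irreducible_q A hq hA K hK) (alphaHom R q K)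
      (alphaHom_algebraMap R q K (O := OE A K)) (sigmaHom (R * q) K)
      (sigmaHom_algebraMap (R * q) K (O := OE A K)) (sigmaHom_mem_fracField (R * q) K A) u' U
      (HypE.sigma1_u A K R u' U hU) (wHom R q K hq hqR)
      (wHom_algebraMap R q K hq hqR (O := OE A K)) q (sigmaHom_wHom_alpha R q K hq hqR)
      (wHom_wHom R q K hq hqR) hprime hcop hord hq.two_le hfrob hwu
      (fun v => hrank_modular_of_finite R q K hq hqR u' v) c
      (RingHom.mem_ker.mp hc.1) (RingHom.mem_ker.mp hc.2))

include hwu hprime hcop hord hfrob in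
/-- **The binder `red` of `KContractE.holds_of_hyp`** (`u1 := alphaHom R q K u'`, `π := q`), for
overlap primes `p` of level `R q` contracting to `HypE.pZero`, `HypE.pInf` on the chart of
`u1`. -/
theorem red (p : Fin 2 → Ideal (Nodal.Overlap (OE A K) (alphaHom R q K u')))
    (hp0 : (p 0).comap (Nodal.toOverlapZero (OE A K) (alphaHom R q K u')) =
      HypE.pZero A hq hA K hK R hqR u' U hU)
    (hp1 : (p 1).comap (Nodal.toOverlapZero (OE A K) (alphaHom R q K u')) =
      HypE.pInf A hq hA K hK R u' U hU) :
    (p 1).comap (Nodal.toOverlapZero (OE A K) (alphaHom R q K u')) ⊓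
        (p 0).comap (Nodal.toOverlapZero (OE A K) (alphaHom R q K u')) ≤
      Ideal.span {algebraMap (OE A K) (Nodal.Chart (OE A K) (alphaHom R q K u'))
        ((q : ℕ) : OE A K)} := by
  rw [hp0, hp1]
  exact red_chart A hq hA K hK R hqR u' U hU hwu hprime hcop hord hfrob

end Inst

end Fermat.Agent.S36.ECall.Red
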