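import Mathlib
import Fermat.Agent.S36.ECall.Inf
import Fermat.Agent.S36.SqChart.Coord9

/-!
# S36, E-level call `ECall/Inf9`: the binder `hreg` at `u' = u₉` (`q = 2`)

The `_u9` form (ruling #16 (3)) of the binder `hreg` of `KContractE.holds_of_hyp` at `q := 2`,
`L := R * 2`, `E := K`, `O := OE A K` (instances `InstA.algL`, `InstA.towerL`), `π := 2`,
`u := alphaSq R 2 K (u9E R K h9)`: `ECall.Inf.hreg` with EVERY coordinate hypothesis discharged:

* `hU`, `hy`, `hcop`, `hord`, `hθ`, `hfrob` (at `N = 2 * 2`), finiteness : `SqChart/Coord9`,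
  `Haupt9/Inputs`;
* the level `R` fibre (normal on the chart `u₉`, Dedekind on the chart `u₉⁻¹`, `2` prime, `u₉`
  transcendental) : `Haupt9/Fibre.chartFacts_u9_OE` at `π := 2`;
* `hyI`, `hyI'` : `Coord9.hy_s9`, `hy_s9'` (`map_inv₀`).

Remaining arguments: `A hA K hK hζ R h2R h9 z hz hzK` and the overlap primes `P` with the three
comap-zero identities against `HypE.PZero / PInf / PMid` (`hreg_u9`), or chart primes `Pc` in any
spelling + `hc : ∀ i, (P i) ∩ Chart = Pc i` (`hreg_u9_of_comap`, the shape of the binder `hinf`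
of `KInst9.holds_of_chart`).
-/

set_option autoImplicit false
set_option linter.unusedSectionVars false
set_option linter.unusedVariables false
set_option linter.style.haveILetI false
set_option synthInstance.maxHeartbeats 400000
set_option maxHeartbeats 1000000

open ModularCurve Polynomial

noncomputable section

namespace Fermat.Agent.S36.ECall.Inf9

open Fermat.Agent.S30 Fermat.Agent.S18.K1Defs Fermat.Agent.S18.K1Main
open Fermat.Agent.S34 Fermat.Agent.S34.TwoPrimesRank
open Fermat.Agent.S36 Fermat.Agent.S36.SqRankE Fermat.Agent.S36.SqChart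
open Fermat.Agent.S36.CycloBase Fermat.Agent.S36.Haupt9

local notation "Qb" => AlgebraicClosure ℚ

attribute [local instance] InstA.algL InstA.towerL

variable (A : ValuationSubring Qb) (hA : A.LiesOverPrime 2)
  (K : IntermediateField ℚ Qb) [FiniteDimensional ℚ K]
  (hK : A.inertiaSubgroupIn ℚ ≤ K.fixingSubgroup) {ζ : Qb} (hζ : IsPrimitiveRoot ζ 2)
  [IsDiscreteValuationRing (OE A K)] [IsDiscreteValuationRing (OE A (cyclo K ζ))]
  (R : ℕ) [NeZero R] (h2R : ¬ 2 ∣ R) (h9 : 9 ∣ R)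
  (z : Qb) (hz : IsPrimitiveRoot z R) (hzK : z ∈ K)

include hA hK h2R hz hzK in
/-- The level `R` chart facts of `u₉` at `π := 2`. -/
theorem chartFacts_u9 :
    HauptU.LevelMAux.ChartFacts K ((2 : ℕ) : OE A K) (u9E R K h9) (u9E R K h9)⁻¹ :=
  haveI : Fact (Nat.Prime 2) := ⟨Nat.prime_two⟩
  Fibre.chartFacts_u9_OE A R h9 h2R hA K z hz hzK ((2 : ℕ) : OE A K)
    (InstA.irreducible_q A Nat.prime_two hA K hK)

/-- `hyI` at `u₉`: `(β₂ β₁ u₉)⁻¹` is integral over `O[(α₂ α₁ u₉)⁻¹]`. -/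
theorem hyI_u9 :
    IsIntegral (Algebra.adjoin (OE A K) {(alphaSq R 2 K (u9E R K h9))⁻¹})
      (betaSq R 2 K (u9E R K h9))⁻¹ := by
  have h := Coord9.hy_s9 (O := OE A K) R K h9
  rw [map_inv₀, map_inv₀] at h
  exact h

/-- `hyI'` at `u₉`: `(α₂ α₁ u₉)⁻¹` is integral over `O[(β₂ β₁ u₉)⁻¹]`. -/
theorem hyI_u9' :
    IsIntegral (Algebra.adjoin (OE A K) {(betaSq R 2 K (u9E R K h9))⁻¹})
      (alphaSq R 2 K (u9E R K h9))⁻¹ := by
  have h := Coord9.hy_s9' (O := OE A K) R K h9
  rw [map_inv₀, map_inv₀] at h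
  exact h

include hz hzK in
/-- **`hreg` at `u₉`** (`q = 2`): the binder `hreg` of `KContractE.holds_of_hyp` for any overlap
primes `P` contracting to the three Gauss primes of `SqChart/HypE` on the chart `u`. -/
theorem hreg_u9
    (P : Fin 3 → Ideal (Nodal.Overlap (OE A K) (alphaSq R 2 K (u9E R K h9))))
    [hP : ∀ i, (P i).IsPrime]
    (hP0 : (P 0).comap (Nodal.toOverlapZero (OE A K) (alphaSq R 2 K (u9E R K h9)))
      = HypE.PZero A Nat.prime_two hA K hK R h2R (u9E R K h9) (u9 (OE A K))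
          (coe_u9E_eq_iota R K h9))
    (hP1 : (P 1).comap (Nodal.toOverlapZero (OE A K) (alphaSq R 2 K (u9E R K h9)))
      = HypE.PInf A Nat.prime_two hA K hK R (u9E R K h9) (u9 (OE A K))
          (coe_u9E_eq_iota R K h9))
    (hP2 : (P 2).comap (Nodal.toOverlapZero (OE A K) (alphaSq R 2 K (u9E R K h9)))
      = HypE.PMid A Nat.prime_two hA K hK hζ R h2R (u9E R K h9) (u9 (OE A K))
          (coe_u9E_eq_iota R K h9)) :
    Inf.HregStmt (q := 2) A K R (u9E R K h9) P := by
  haveI := Coord9.finite_u9E R K h9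
  haveI := Coord9.charP_two K A hA
  have hF := chartFacts_u9 A hA K hK R h2R h9 z hz hzK
  haveI := hF.dedekind_inf
  exact Inf.hreg A Nat.prime_two hA K hK hζ R h2R (u9E R K h9) (u9 (OE A K))
    (coe_u9E_eq_iota R K h9) (Coord9.hy_u9 R K h9) hF.prime_zero (Coord9.hcop_u9 (2 * 2))
    Coord9.hord_u9 Coord9.theta_rho_u9_ne_zero (Coord9.qExpand_sq_rho_u9 2 Nat.prime_two)
    hF.normal_zero hF.transcendental (hyI_u9 A K R h9) (hyI_u9' A K R h9) P hP0 hP1 hP2

include hz hzK in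
/-- **`hreg` at `u₉` for overlap primes given through chart primes `Pc`** (any spelling of the
three Gauss primes: `hPc0 hPc1 hPc2`, `rfl` for `![HypE.PZero .., HypE.PInf .., HypE.PMid ..]`
and for the `SqInstW` kernels). -/
theorem hreg_u9_of_comap
    (Pc : Fin 3 → Ideal (Nodal.Chart (OE A K) (alphaSq R 2 K (u9E R K h9))))
    (hPc0 : Pc 0
      = HypE.PZero A Nat.prime_two hA K hK R h2R (u9E R K h9) (u9 (OE A K))
          (coe_u9E_eq_iota R K h9))
    (hPc1 : Pc 1
      = HypE.PInf A Nat.prime_two hA K hK R (u9E R K h9) (u9 (OE A K))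
          (coe_u9E_eq_iota R K h9))
    (hPc2 : Pc 2
      = HypE.PMid A Nat.prime_two hA K hK hζ R h2R (u9E R K h9) (u9 (OE A K))
          (coe_u9E_eq_iota R K h9))
    (P : Fin 3 → Ideal (Nodal.Overlap (OE A K) (alphaSq R 2 K (u9E R K h9))))
    [hP : ∀ i, (P i).IsPrime]
    (hc : ∀ i, (P i).comap (Nodal.toOverlapZero (OE A K) (alphaSq R 2 K (u9E R K h9))) = Pc i) :
    Inf.HregStmt (q := 2) A K R (u9E R K h9) P :=
  hreg_u9 A hA K hK hζ R h2R h9 z hz hzK P ((hc 0).trans hPc0) ((hc 1).trans hPc1)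
    ((hc 2).trans hPc2)

end Fermat.Agent.S36.ECall.Inf9
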