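import Mathlib
import Fermat.Agent.S36.ECall.ObjInf
import Fermat.Agent.S36.Haupt9.InfSq

/-!
# S36, E-level call `ECall/ObjInf9`: the chart maps at infinity at `u' = u₉` (`q = 2`)

The `_u9` forms (ruling #16 (3)) of the binders `φa₁ hφa₁ hinta φb₁ hφb₁ hintb` of
`KContractE.holds_of_hyp` at `q := 2`, `L := R * 2`, `E := K`, `O := OE A K` (instances
`InstA.algL`, `InstA.towerL`), `u := alphaSq R 2 K (u9E R K h9)`,
`u1 := alphaHom R 2 K (u9E R K h9)`: the two named coordinate hypotheses `hβinv`, `hαinv` of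
`ECall/ObjInf` are DISCHARGED by `Haupt9.InfSq.hbetaInv_u9E` / `halphaInv_u9E` (no unit
hypothesis).  Remaining arguments: `A K R h9` only.

* `hbetaInv_u9`, `halphaInv_u9` : the two coordinate facts in the literal of `ObjInf`;
* `phiA1_u9`, `coe_phiA1_u9`, `phiA1_isIntegral_u9`, `phiA1_injective_u9`;
* `phiB1_u9`, `coe_phiB1_u9`, `phiB1_isIntegral_u9`, `phiB1_injective_u9`.
-/

set_option autoImplicit false
set_option linter.unusedSectionVars false
set_option linter.unusedVariables false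
set_option linter.style.haveILetI false
set_option synthInstance.maxHeartbeats 400000
set_option maxHeartbeats 1000000

open ModularCurve Polynomial

noncomputable section

namespace Fermat.Agent.S36.ECall.ObjInf9

open Fermat.Agent.S30 Fermat.Agent.S18.K1Defs Fermat.Agent.S18.K1Main
open Fermat.Agent.S34 Fermat.Agent.S34.TwoPrimesRank
open Fermat.Agent.S36 Fermat.Agent.S36.SqRankE Fermat.Agent.S36.SqChart
open Fermat.Agent.S36.Haupt9

local notation "Qb" => AlgebraicClosure ℚ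

attribute [local instance] InstA.algL InstA.towerL

variable (A : ValuationSubring Qb) (K : IntermediateField ℚ Qb)
  [IsDiscreteValuationRing (OE A K)] (R : ℕ) [NeZero R] (h9 : 9 ∣ R)

/-- **`hβinv` at `u₉`**, in the literal of `ObjInf.phiB1` (`q = 2`). -/
theorem hbetaInv_u9 :
    IsIntegral (Algebra.adjoin (OE A K) {(alphaSq R 2 K (u9E R K h9))⁻¹})
      (betaHom (R * 2) 2 K (alphaHom R 2 K (u9E R K h9)))⁻¹ :=
  InfSq.hbetaInv_u9E R K h9

/-- **`hαinv` at `u₉`**, in the literal of `ObjInf.phiB1_isIntegral` (`q = 2`). -/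
theorem halphaInv_u9 :
    IsIntegral (Algebra.adjoin (OE A K) {(betaHom (R * 2) 2 K (alphaHom R 2 K (u9E R K h9)))⁻¹})
      (alphaSq R 2 K (u9E R K h9))⁻¹ :=
  InfSq.halphaInv_u9E R K h9

/-- **`φa₁` at `u₉`**. -/
def phiA1_u9 : Nodal.Chart (OE A K) (alphaHom R 2 K (u9E R K h9))⁻¹ →+*
    Nodal.Chart (OE A K) (alphaSq R 2 K (u9E R K h9))⁻¹ :=
  ObjInf.phiA1 A K R (u9E R K h9)

/-- **`hφa₁` at `u₉`**. -/
theorem coe_phiA1_u9 (x : Nodal.Chart (OE A K) (alphaHom R 2 K (u9E R K h9))⁻¹) :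
    ((phiA1_u9 A K R h9 x : Nodal.Chart (OE A K) (alphaSq R 2 K (u9E R K h9))⁻¹) :
        LE (R * 2 * 2) K)
      = alphaHom (R * 2) 2 K (x : LE (R * 2) K) := rfl

/-- **`hinta` at `u₉`**. -/
theorem phiA1_isIntegral_u9 : (phiA1_u9 A K R h9).IsIntegral :=
  ObjInf.phiA1_isIntegral A K R (u9E R K h9)

theorem phiA1_injective_u9 : Function.Injective (phiA1_u9 A K R h9) :=
  ObjInf.phiA1_injective A K R (u9E R K h9)

/-- **`φb₁` at `u₉`**. -/
def phiB1_u9 : Nodal.Chart (OE A K) (alphaHom R 2 K (u9E R K h9))⁻¹ →+*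
    Nodal.Chart (OE A K) (alphaSq R 2 K (u9E R K h9))⁻¹ :=
  ObjInf.phiB1 A K R (u9E R K h9) (hbetaInv_u9 A K R h9)

/-- **`hφb₁` at `u₉`**. -/
theorem coe_phiB1_u9 (x : Nodal.Chart (OE A K) (alphaHom R 2 K (u9E R K h9))⁻¹) :
    ((phiB1_u9 A K R h9 x : Nodal.Chart (OE A K) (alphaSq R 2 K (u9E R K h9))⁻¹) :
        LE (R * 2 * 2) K)
      = betaHom (R * 2) 2 K (x : LE (R * 2) K) := rfl

/-- **`hintb` at `u₉`**. -/
theorem phiB1_isIntegral_u9 : (phiB1_u9 A K R h9).IsIntegral :=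
  ObjInf.phiB1_isIntegral A K R (u9E R K h9) (hbetaInv_u9 A K R h9) (halphaInv_u9 A K R h9)

theorem phiB1_injective_u9 : Function.Injective (phiB1_u9 A K R h9) :=
  ObjInf.phiB1_injective A K R (u9E R K h9) (hbetaInv_u9 A K R h9)

end Fermat.Agent.S36.ECall.ObjInf9
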