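import Mathlib
import Fermat.Agent.S34.Nodal.Defs

/-!
# S36, `E`-level calls: the `O`-algebra structure of a chart ring

The binders of `KContractChart.kContract_of_hyp` / `KContractE.holds_of_hyp` contain the literal
`algebraMap O (Chart O t) π` for a GENERIC base ring `O`; there instance search finds
`Subalgebra.algebra'` for `Algebra O (Chart O t)`.  At `O := OE A K` (a subring of a field) the
same search does not succeed within `synthInstance.maxHeartbeats 400000`, so the literal cannot
be typed as it stands in an `E`-level statement.

`chartAlg t` is the generic instance, as a reducible definition.  With

`attribute [local instance] Fermat.Agent.S36.ECall.ChartAlg.chartAlg`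

in an `E`-level file, `algebraMap (OE A K) (Chart (OE A K) t) π` elaborates at once and is, up
to reducible unfolding, the literal of `holds_of_hyp` instantiated at `O := OE A K`.

* `chartAlg` : the instance;
* `piChart t π` : the element `algebraMap O (Chart O t) π` (generic literal, no instance search
  at the use site);
* `coe_algebraMap`, `coe_piChart` : its image in `L`.
-/

set_option autoImplicit false

open Fermat.Agent.S34.Nodal

namespace Fermat.Agent.S36.ECall.ChartAlg

variable {O L : Type*} [CommRing O] [Field L] [Algebra O L]

/-- The `O`-algebra structure of the chart ring `Chart O t` found by instance search for a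
generic base ring `O` (`Subalgebra.algebra'`).  To be used as a local instance at `E`-level. -/
@[reducible] noncomputable def chartAlg (t : L) : Algebra O (Chart O t) := inferInstance

/-- The element `π` of the chart ring `Chart O t`, in the literal form `algebraMap O (Chart O t) π`
of `KContractChart` / `KContractE`. -/
noncomputable abbrev piChart (t : L) (π : O) : Chart O t := algebraMap O (Chart O t) π

theorem coe_algebraMap (t : L) (a : O) :
    ((algebraMap O (Chart O t) a : Chart O t) : L) = algebraMap O L a := rfl

theorem coe_piChart (t : L) (π : O) : ((piChart t π : Chart O t) : L) = algebraMap O L π := rfl

end Fermat.Agent.S36.ECall.ChartAlg
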