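import Mathlib
import Fermat.Agent.S36.ECall.Cusp
import Fermat.Agent.S36.Haupt4.Inputs

/-!
# S36, E-level call, binder group `Cusp` at the Hauptmodul `u₄` (helper1, junction J3)

`ECall/Cusp.hcusp4_Pc` at `u' := Haupt4.u4E R K h4`, `U := Haupt4.u4 (OE A K)` with ALL
coordinate hypotheses discharged (`hU`, `J'`, `hrel`, the unit): the binder `hcusp` of
`KInst9.holds_of_chart` / `KContractE.holds_of_hyp` for `good y := uC * (uC + 16) ∉ y`
(`q` odd).

* `hU_u4` : the binder `hU` of the InstA block at `u₄`;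
* `hcusp_u4` : vertical primes `Pc`, `pc` on the chart rings with `pc 1 = HypE.pInf`,
  `pc 0 = HypE.pZero`, `Pc 2 = HypE.PMid` (`rfl` at
  `Pc := ![HypE.PZero .., HypE.PInf .., HypE.PMid ..]`, `pc := ![HypE.pZero .., HypE.pInf ..]`;
  for overlap primes `P`, `p` take `Pc := fun i => (P i).comap (toOverlapZero ..)` and the
  `Obj` identities).  Remaining arguments: the chart maps, `h`, `hπ1 := rfl`, and any name `uC`
  of the coordinate.
-/

set_option autoImplicit false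
set_option linter.unusedSectionVars false
set_option linter.unusedVariables false
set_option linter.style.haveILetI false
set_option synthInstance.maxHeartbeats 400000

open ModularCurve Polynomial

noncomputable section

namespace Fermat.Agent.S36.ECall.Cusp4

open Fermat.Agent.S30 Fermat.Agent.S30.CSide
open Fermat.Agent.S18.K1Defs Fermat.Agent.S18.K1Main
open Fermat.Agent.S34.TwoPrimesRank Fermat.Agent.S34.HauptU.Plug
open Fermat.Agent.S36.SqChart Fermat.Agent.S36.CycloBase Fermat.Agent.S36.SqRankE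
open Fermat.Agent.S36.Haupt4

local notation "Qb" => AlgebraicClosure ℚ

attribute [local instance] InstA.algL InstA.towerL

variable (A : ValuationSubring Qb) {q : ℕ} (hq : q.Prime) [NeZero q] (hA : A.LiesOverPrime q)
  (K : IntermediateField ℚ Qb) [FiniteDimensional ℚ K]
  (hK : A.inertiaSubgroupIn ℚ ≤ K.fixingSubgroup) {ζ : Qb} (hζ : IsPrimitiveRoot ζ q)
  [IsDiscreteValuationRing (OE A K)] [IsDiscreteValuationRing (OE A (cyclo K ζ))]
  (R : ℕ) [NeZero R] (hqR : ¬ q ∣ R) (h4 : 4 ∣ R)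

/-- The binder `hU` of the InstA block at `u₄`. -/
theorem hU_u4 :
    ((u4E R K h4 : LE R K) : LaurentSeries K) = GaussDVR.iota (OE A K) K (u4 (OE A K)) :=
  coe_u4E_eq_iota R K h4

open Fermat.Agent.S34.Nodal in
/-- **E-level call, binder `hcusp` at `u₄`, all coordinate facts discharged**
(`q` odd): `good y := uC * (uC + 16) ∉ y`. -/
theorem hcusp_u4 (hq2 : q ≠ 2)
    (Pc : Fin 3 → Ideal (Chart (OE A K) (alphaSq R q K (u4E R K h4))))
    (pc : Fin 2 → Ideal (Chart (OE A K) (alphaHom R q K (u4E R K h4))))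
    (φa₀ : Chart (OE A K) (alphaHom R q K (u4E R K h4))
      →+* Chart (OE A K) (alphaSq R q K (u4E R K h4)))
    (hφa₀ : ∀ x : Chart (OE A K) (alphaHom R q K (u4E R K h4)),
      ((φa₀ x : Chart (OE A K) (alphaSq R q K (u4E R K h4))) : LE (R * q * q) K)
        = alphaHom (R * q) q K (x : LE (R * q) K))
    (φb₀ : Chart (OE A K) (alphaHom R q K (u4E R K h4))
      →+* Chart (OE A K) (alphaSq R q K (u4E R K h4)))
    (hφb₀ : ∀ x : Chart (OE A K) (alphaHom R q K (u4E R K h4)),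
      ((φb₀ x : Chart (OE A K) (alphaSq R q K (u4E R K h4))) : LE (R * q * q) K)
        = betaHom (R * q) q K (x : LE (R * q) K))
    {π1 : Chart (OE A K) (alphaHom R q K (u4E R K h4))}
    (h : SqExit.Hyp φa₀ φb₀ π1 (pc 1) (pc 0) (Pc 1) (Pc 0) (Pc 2) (q - 1))
    (hπ1 : (π1 : LE (R * q) K) = algebraMap (OE A K) (LE (R * q) K) ((q : ℕ) : OE A K))
    (hp1 : pc 1 = HypE.pInf A hq hA K hK R (u4E R K h4) (u4 (OE A K)) (hU_u4 A K R h4))
    (hp0 : pc 0 = HypE.pZero A hq hA K hK R hqR (u4E R K h4) (u4 (OE A K)) (hU_u4 A K R h4))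
    (hP2 : Pc 2 = HypE.PMid A hq hA K hK hζ R hqR (u4E R K h4) (u4 (OE A K)) (hU_u4 A K R h4))
    (uC : Chart (OE A K) (alphaSq R q K (u4E R K h4)))
    (huC : (uC : LE (R * q * q) K) = alphaSq R q K (u4E R K h4)) :
    ∀ y : Ideal (Chart (OE A K) (alphaSq R q K (u4E R K h4))), y.IsMaximal →
      ¬ (uC * (uC + 16) ∉ y) →
      ∀ i : Fin 3, Pc i ≤ y →
      ∃ t' ∈ Pc i, ∀ x ∈ Pc i,
        ∃ s : Chart (OE A K) (alphaSq R q K (u4E R K h4)), s ∉ y ∧ s * x ∈ Ideal.span {t'} :=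
  haveI : Fact q.Prime := ⟨hq⟩
  Cusp.hcusp4_Pc A hq hA K hK hζ R hqR (u4E R K h4) (u4 (OE A K)) (hU_u4 A K R h4)
    Pc pc φa₀ hφa₀ φb₀ hφb₀ h hπ1
    hp1 hp0 hP2 (Fermat.Agent.S18.K1Main.jE R K) rfl
    (jE_mul_u4E R K h4 (Fermat.Agent.S18.K1Main.jE R K) rfl) (isUnit_two_OE A hA hq2 K) uC huC

end Fermat.Agent.S36.ECall.Cusp4
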