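import Mathlib
import Fermat.Agent.S36.ECall.H0
import Fermat.Agent.S36.C1Inst4Alt

/-!
# S36 / ECall / H04 : the binders `good`, `h0` of `KContractE.holds_of_hyp` for the coordinate `u₄`

`u' = Haupt4.u4E R K h4`, `U = Haupt4.u4 (OE A K)` (`4 ∣ R`, `q` an odd prime, `¬ q ∣ R`,
`K` a number field inside the inertia field of `A` containing a primitive `R`-th root of unity),
family 1 (`InstA.algL`, `InstA.towerL`), objects of `SqChart/HypE`.  Every coordinate fact is
discharged: the C1 exit is `C1Inst4Alt.gen_u4` (helper231), which holds at EVERY closed point of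
the level-`R q` chart, so `h0_u4` holds for EVERY predicate `good`.

* `hgen0_u4` : the prime `HypE.pZero` of the chart ring of `α₁ u₄` is locally principal at every
  closed point through it (the hypothesis `hgen0` of `ECall.H0.h0`);
* `h0_pc_u4` : the binder `h0` of `KInst9.holds_of_chart` (chart-prime form) for any chart
  primes `Pc`, `pc` with `pc 0 = HypE.pZero`, given the binder `h`;
* `h0_u4` : the LITERAL binder `h0` of `KContractE.holds_of_hyp` (`L := R * q`, `E := K`,
  `O := OE A K`, `u := alphaSq R q K (u4E R K h4)`, `u1 := alphaHom R q K (u4E R K h4)`,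
  `π := q`) for ANY overlap primes `P`, `p`, chart maps `φa₀`, `φb₀` and exponent `k` satisfying
  the binder `h : SqExit.Hyp ..` of `holds_of_hyp`, with `p 0` contracting to `HypE.pZero` on the
  chart of `u1`, and ANY `good`.
-/

set_option autoImplicit false
set_option linter.unusedSectionVars false
set_option linter.unusedVariables false
set_option linter.style.haveILetI false
set_option synthInstance.maxHeartbeats 400000
set_option maxHeartbeats 1000000

open ModularCurve Polynomial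

noncomputable section

namespace Fermat.Agent.S36.ECall.H04

open Fermat.Agent.S30 Fermat.Agent.S30.CSide
open Fermat.Agent.S18.K1Defs Fermat.Agent.S18.K1Main
open Fermat.Agent.S34 Fermat.Agent.S34.TwoPrimesGauss Fermat.Agent.S34.TwoPrimesRank
open Fermat.Agent.S34.HauptU.Plug
open Fermat.Agent.S36.SqChart Fermat.Agent.S36.SqChart.InstA Fermat.Agent.S36.SqRankE
open Fermat.Agent.S36.PrinAt Fermat.Agent.S36.Haupt4

local notation "Qb" => AlgebraicClosure ℚ

attribute [local instance] InstA.algL InstA.towerL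

/-- Transport of the C1 exit along an equality of ideals (a `subst`-proved congruence: no `rw`
on ideals of `E`-level chart rings). -/
theorem gen_of_eq {B : Type*} [CommRing B] {p0 p0' : Ideal B} (e : p0 = p0')
    (hgen : ∀ y : Ideal B, y.IsMaximal → p0' ≤ y → ∃ t, t ≠ 0 ∧ PrinAt y p0' t) :
    ∀ y : Ideal B, y.IsMaximal → p0 ≤ y → ∃ t, t ≠ 0 ∧ PrinAt y p0 t := by
  subst e
  exact hgen

variable (A : ValuationSubring Qb) {q : ℕ} (hq : q.Prime) [NeZero q] (hA : A.LiesOverPrime q)
  (K : IntermediateField ℚ Qb) [FiniteDimensional ℚ K]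
  (hK : A.inertiaSubgroupIn ℚ ≤ K.fixingSubgroup)
  [IsDiscreteValuationRing (OE A K)]
  (R : ℕ) [NeZero R] (hqR : ¬ q ∣ R) (hodd : q ≠ 2) (h4 : 4 ∣ R)
  (z : Qb) (hz : IsPrimitiveRoot z R) (hzK : z ∈ K)
  (hU : ((u4E R K h4 : LE R K) : LaurentSeries K) = GaussDVR.iota (OE A K) K (u4 (OE A K)))

include hodd hz hzK in
/-- **C1 for `u₄` in the vocabulary of `SqChart/HypE`**: the prime `p_0` of the level-`R q`
chart of `α₁ u₄` is locally principal at every closed point through it. -/
theorem hgen0_u4 :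
    ∀ y : Ideal (Nodal.Chart (OE A K) (alphaHom R q K (u4E R K h4))), y.IsMaximal →
      HypE.pZero A hq hA K hK R hqR (u4E R K h4) (u4 (OE A K)) hU ≤ y →
      ∃ t, t ≠ 0 ∧ PrinAt y (HypE.pZero A hq hA K hK R hqR (u4E R K h4) (u4 (OE A K)) hU) t :=
  (Fermat.Agent.S36.C1Inst4Alt.gen_u4 A R q hq hodd hqR h4 hA K z hz hzK ((q : ℕ) : OE A K)
    (irreducible_q A hq hA K hK) 1 isUnit_one (mul_one _).symm).2

include hodd hz hzK in
/-- **The binder `h0` of `KInst9.holds_of_chart` for `u₄`** (chart-prime form), for ANY chart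
primes `Pc`, `pc`, chart maps `φa₀`, `φb₀`, element `π1` and exponent `k` satisfying the binder
`h : SqExit.Hyp ..` of `holds_of_chart`, with `pc 0 = HypE.pZero` (`rfl` at
`pc := ![HypE.pZero .., HypE.pInf ..]`); `good` is arbitrary. -/
theorem h0_pc_u4
    (Pc : Fin 3 → Ideal (Nodal.Chart (OE A K) (alphaSq R q K (u4E R K h4))))
    (pc : Fin 2 → Ideal (Nodal.Chart (OE A K) (alphaHom R q K (u4E R K h4))))
    (hpc0 : pc 0 = HypE.pZero A hq hA K hK R hqR (u4E R K h4) (u4 (OE A K)) hU)
    (φa₀ φb₀ : Nodal.Chart (OE A K) (alphaHom R q K (u4E R K h4)) →+*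
      Nodal.Chart (OE A K) (alphaSq R q K (u4E R K h4)))
    (π1 : Nodal.Chart (OE A K) (alphaHom R q K (u4E R K h4))) (k : ℕ)
    (h : SqExit.Hyp φa₀ φb₀ π1 (pc 1) (pc 0) (Pc 1) (Pc 0) (Pc 2) k)
    (good : Ideal (Nodal.Chart (OE A K) (alphaSq R q K (u4E R K h4))) → Prop) :
    ∀ y : Ideal (Nodal.Chart (OE A K) (alphaSq R q K (u4E R K h4))), y.IsMaximal → good y →
      Pc 0 ≤ y → Pc 1 ≤ y → Pc 2 ≤ y →
      ∃ t', t' ≠ 0 ∧ PrinAt (y.comap φa₀) (pc 0) t' :=
  fun y hy _ hP0 _ _ =>
    Fermat.Agent.S36.ECall.H0.h0_of_gen φa₀ h.α_int (pc 0) (Pc 0) h.α_p0_P0 (fun _ => True)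
      (fun y' hy' _ => gen_of_eq hpc0 (hgen0_u4 A hq hA K hK R hqR hodd h4 z hz hzK hU) y' hy')
      y hy trivial hP0

include hodd hz hzK in
/-- **The binder `h0` of `KContractE.holds_of_hyp` for `u₄`**
(`u := alphaSq R q K (u4E R K h4)`, `u1 := alphaHom R q K (u4E R K h4)`, `π := q`), for overlap
primes `p` of level `R q` with `p 0` contracting to `HypE.pZero` on the chart of `u1`; `good` is
arbitrary. -/
theorem h0_u4
    (P : Fin 3 → Ideal (Nodal.Overlap (OE A K) (alphaSq R q K (u4E R K h4))))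
    (p : Fin 2 → Ideal (Nodal.Overlap (OE A K) (alphaHom R q K (u4E R K h4))))
    (hp0 : (p 0).comap (Nodal.toOverlapZero (OE A K) (alphaHom R q K (u4E R K h4))) =
      HypE.pZero A hq hA K hK R hqR (u4E R K h4) (u4 (OE A K)) hU)
    (φa₀ φb₀ : Nodal.Chart (OE A K) (alphaHom R q K (u4E R K h4)) →+*
      Nodal.Chart (OE A K) (alphaSq R q K (u4E R K h4)))
    (k : ℕ)
    (h : SqExit.Hyp φa₀ φb₀
      (algebraMap (OE A K) (Nodal.Chart (OE A K) (alphaHom R q K (u4E R K h4)))
        ((q : ℕ) : OE A K))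
      ((p 1).comap (Nodal.toOverlapZero (OE A K) (alphaHom R q K (u4E R K h4))))
      ((p 0).comap (Nodal.toOverlapZero (OE A K) (alphaHom R q K (u4E R K h4))))
      ((P 1).comap (Nodal.toOverlapZero (OE A K) (alphaSq R q K (u4E R K h4))))
      ((P 0).comap (Nodal.toOverlapZero (OE A K) (alphaSq R q K (u4E R K h4))))
      ((P 2).comap (Nodal.toOverlapZero (OE A K) (alphaSq R q K (u4E R K h4)))) k)
    (good : Ideal (Nodal.Chart (OE A K) (alphaSq R q K (u4E R K h4))) → Prop) :
    ∀ y : Ideal (Nodal.Chart (OE A K) (alphaSq R q K (u4E R K h4))), y.IsMaximal → good y →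
      (P 0).comap (Nodal.toOverlapZero (OE A K) (alphaSq R q K (u4E R K h4))) ≤ y →
      (P 1).comap (Nodal.toOverlapZero (OE A K) (alphaSq R q K (u4E R K h4))) ≤ y →
      (P 2).comap (Nodal.toOverlapZero (OE A K) (alphaSq R q K (u4E R K h4))) ≤ y →
      ∃ t', t' ≠ 0 ∧ PrinAt (y.comap φa₀)
        ((p 0).comap (Nodal.toOverlapZero (OE A K) (alphaHom R q K (u4E R K h4)))) t' :=
  Fermat.Agent.S36.ECall.H0.h0 A hq hA K hK R hqR (u4E R K h4) (u4 (OE A K)) hU P p hp0 φa₀ φb₀ k
    h (hgen0_u4 A hq hA K hK R hqR hodd h4 z hz hzK hU) good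

end Fermat.Agent.S36.ECall.H04
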