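import Mathlib
import Fermat.Agent.S36.EpsHypE
import Fermat.Agent.S36.SqChart.Coord4Alt

/-!
# S36 / ECall / H11 : the binder `h11` of the `K`-level contract for the coordinate `u₄`

`u' = Haupt4.u4E R K h4`, `U = Haupt4.u4 (OE A K)` (`4 ∣ R`, `q` an odd prime, `¬ q ∣ R`,
`K` a number field inside the inertia field of `A` containing a primitive `R`-th root of unity),
family 1 (`InstA.algL`, `InstA.towerL`), objects of `SqChart/HypE`, binder block of
`SqChart/HypU4Alt`.  ONE application of `EpsHypE.h11_good` (helper31) with every coordinate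
hypothesis discharged (`SqChart/Coord4Alt`, `Haupt4/Hwu`, `Haupt4/LevelQ`, `Haupt4/Fibre`,
`A2/Pole`), branch values `S = {0, -16}`.

* `good_adapter` (abstract ring) : `u (u + 16) ∉ M` gives `u ∉ M` and `u - c ∉ M` for
  `c ∈ {0, -16}`;
* `hnormal_u4` : the special fibre of the level-`R` chart of `u₄` is normal;
* `h11_u4_good` : the binder `h11` of `KInst.holds_of_inputs` / `KInst9.holds_of_chart` (at
  `Pc := ![HypE.PZero .., HypE.PInf .., HypE.PMid ..]`, `φa₀ := HypE.alphaC ..`, `k := q - 1`,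
  `hU := Coord4Alt.hU_u4 R K h4`) for every predicate `good` with
  `good M → uC * (uC + 16) ∉ M`, `uC` ANY name of the coordinate `α₂ α₁ u₄` in the chart ring
  (`huC`, as in `ECall/Cusp4.hcusp_u4`);
* `h11_u4` : the same with the literal `good M := uC * (uC + 16) ∉ M` (the `good` of
  `ECall/Cusp4.hcusp_u4`).
-/

set_option autoImplicit false
set_option linter.unusedSectionVars false
set_option linter.unusedVariables false
set_option linter.style.haveILetI false
set_option synthInstance.maxHeartbeats 400000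
set_option maxHeartbeats 1000000

open ModularCurve Polynomial IntermediateField

noncomputable section

namespace Fermat.Agent.S36.ECall.H11

open Fermat.Agent.S30 Fermat.Agent.S30.CSide Fermat.Agent.S30.Model
open Fermat.Agent.S18.K1Defs Fermat.Agent.S18.K1Main
open Fermat.Agent.S34.TwoPrimesGauss Fermat.Agent.S34.TwoPrimesRank
open Fermat.Agent.S34.HauptU.Plug
open Fermat.Agent.S36.SqChart Fermat.Agent.S36.MultPrimesGauss Fermat.Agent.S36.CycloBase
open Fermat.Agent.S36.SqRankE Fermat.Agent.S36.SqChart.InstA Fermat.Agent.S36.SqChart.HypE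
open Fermat.Agent.S36 Fermat.Agent.S36.Haupt4

local notation "Qb" => AlgebraicClosure ℚ

attribute [local instance] InstA.algL InstA.towerL

/-- Abstract adapter between the two spellings of the non-cuspidal closed points for the
branch values `{0, -16}` of `u₄`: if `uC = ι X` and `uC * (uC + 16) ∉ M`, then `ι X ∉ M` and
`ι (X - C c) ∉ M` for `c ∈ {0, -16}`.  (Stated for an abstract ring: no rewriting inside an
`E`-level chart ring.) -/
theorem good_adapter {O B : Type*} [CommRing O] [CommRing B] [DecidableEq O] (ι : O[X] →+* B)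
    (uC : B) (e : uC = ι X) (M : Ideal B) (hg : uC * (uC + 16) ∉ M) :
    ι X ∉ M ∧ ∀ c ∈ ({0, -16} : Finset O), ι (X - C c) ∉ M := by
  subst e
  refine ⟨fun h => hg (Ideal.mul_mem_right _ _ h), ?_⟩
  intro c hc
  simp only [Finset.mem_insert, Finset.mem_singleton] at hc
  rcases hc with rfl | rfl
  · intro h
    rw [map_zero, sub_zero] at h
    exact hg (Ideal.mul_mem_right _ _ h)
  · intro h
    have e : ι (X - C (-16)) = ι X + 16 := by
      rw [map_neg, sub_neg_eq_add, map_add, map_ofNat, map_ofNat]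
    rw [e] at h
    exact hg (Ideal.mul_mem_left _ _ h)

variable (A : ValuationSubring Qb) {q : ℕ} (hq : q.Prime) [NeZero q] (hA : A.LiesOverPrime q)
  (hodd : q ≠ 2)
  (K : IntermediateField ℚ Qb) [FiniteDimensional ℚ K]
  (hK : A.inertiaSubgroupIn ℚ ≤ K.fixingSubgroup) {ζ : Qb} (hζ : IsPrimitiveRoot ζ q)
  [IsDiscreteValuationRing (OE A K)] [IsDiscreteValuationRing (OE A (cyclo K ζ))]
  (R : ℕ) [NeZero R] (hqR : ¬ q ∣ R) (h4 : 4 ∣ R)
  (z : Qb) (hz : IsPrimitiveRoot z R) (hzK : z ∈ K)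

include hq hA hodd hK hqR hz hzK in
/-- The special fibre of the level-`R` chart of `u₄` over `𝒪_K` is normal (the binder `hnormal`
of `EpsHypE.h11_good`). -/
theorem hnormal_u4 :
    IsIntegrallyClosed
      (Chart (OE A K) (u4E R K h4) ⧸ Ideal.span {piC (u4E R K h4) ((q : ℕ) : OE A K)}) := by
  haveI : Fact q.Prime := ⟨hq⟩
  exact (Fibre.chartFacts_u4_OE A R h4 hqR hA hodd K z hz hzK ((q : ℕ) : OE A K)
    (irreducible_q A hq hA K hK)).normal_zero

open Classical in
set_option maxHeartbeats 4000000 in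
include hodd hz hzK in
/-- **The binder `h11` at `u₄` (`q` odd), all coordinate facts discharged**, for every predicate
`good` implying `uC * (uC + 16) ∉ M` (the identity `q = ε δ ^ (q - 1)` with `ε` a unit at the
non-cuspidal closed points of the middle component of the level-`R q²` chart of `u₄`). -/
theorem h11_u4_good (uC : HypE.B2 A K R (u4E R K h4) (q := q))
    (huC : (uC : LE (R * q * q) K) = alphaSq R q K (u4E R K h4))
    (good : Ideal (HypE.B2 A K R (u4E R K h4) (q := q)) → Prop)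
    (hgood : ∀ M : Ideal (HypE.B2 A K R (u4E R K h4) (q := q)), M.IsMaximal → good M →
      uC * (uC + 16) ∉ M) :
    ∀ M : Ideal (HypE.B2 A K R (u4E R K h4) (q := q)), M.IsMaximal → good M →
      PMid A hq hA K hK hζ R hqR (u4E R K h4) (u4 (OE A K)) (Coord4Alt.hU_u4 R K h4) ≤ M →
      ¬ PInf A hq hA K hK R (u4E R K h4) (u4 (OE A K)) (Coord4Alt.hU_u4 R K h4) ≤ M →
      ¬ PZero A hq hA K hK R hqR (u4E R K h4) (u4 (OE A K)) (Coord4Alt.hU_u4 R K h4) ≤ M →
      ∃ δ ∈ PMid A hq hA K hK hζ R hqR (u4E R K h4) (u4 (OE A K)) (Coord4Alt.hU_u4 R K h4),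
        δ ≠ 0 ∧ ∃ a0 b0 A' E₀ : HypE.B2 A K R (u4E R K h4) (q := q),
          a0 * alphaC A K R (u4E R K h4) (piC (alphaHom R q K (u4E R K h4)) ((q : ℕ) : OE A K))
            = b0 * δ ^ (q - 1) ∧
          b0 ∉ PMid A hq hA K hK hζ R hqR (u4E R K h4) (u4 (OE A K))
            (Coord4Alt.hU_u4 R K h4) ∧
          a0 * A' - b0 * E₀ ∈ PMid A hq hA K hK hζ R hqR (u4E R K h4) (u4 (OE A K))
            (Coord4Alt.hU_u4 R K h4) ∧ E₀ ∉ M := by
  haveI : Fact q.Prime := ⟨hq⟩
  haveI : CharP (IsLocalRing.ResidueField (OE A K)) q := Coord4Alt.charP_ell K q hq A hA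
  haveI := Coord4Alt.finite_u4E R K h4
  haveI := LevelQ.finiteDimensional_alpha_u4E R q K h4
  have h2 : IsUnit (2 : OE A K) := Coord4Alt.isUnit_two K q hq hodd A hA
  have h0S : (0 : OE A K) ∈ ({0, -16} : Finset (OE A K)) := by simp
  have h16S : (-16 : OE A K) ∈ ({0, -16} : Finset (OE A K)) := by simp
  have hSint : ∀ c ∈ ({0, -16} : Finset (OE A K)), ∃ z : ℤ, c = (z : OE A K) := by
    intro c hc
    simp only [Finset.mem_insert, Finset.mem_singleton] at hc
    rcases hc with rfl | rfl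
    · exact ⟨0, by simp⟩
    · exact ⟨-16, by simp⟩
  have e : uC = incl (alphaSq R q K) (alphaSq_algebraMap R q K (O := OE A K)) (u4E R K h4)
      (polyChart (u4E R K h4) X) :=
    Subtype.ext (huC.trans (congrArg (alphaSq R q K) (aeval_X (u4E R K h4)).symm))
  exact EpsHypE.h11_good A hq hA K hK hζ R hqR (u4E R K h4) (u4 (OE A K))
    (Coord4Alt.hU_u4 R K h4)
    (Hwu.hwu_u4E R q K h2 hq hodd hqR h4)
    (Coord4Alt.hprime_u4 R K q hq hodd A hA h4 hqR z hz hzK ((q : ℕ) : OE A K)
      (irreducible_q A hq hA K hK))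
    (Coord4Alt.hcop_u4 q) Coord4Alt.hord_u4 Coord4Alt.theta_rho_u4_ne_zero
    (Coord4Alt.qExpand_rho_u4 q hq)
    (LevelQ.transcendental_alpha_u4E R q K h4) {0, -16}
    (LevelQ.horizUnram_alpha_u4E R q K h4 {0, -16} h0S h16S)
    (A2.frobStable_of_intCast q {0, -16} hSint)
    (hnormal_u4 A hq hA hodd K hK R hqR h4 z hz hzK)
    good
    (fun M hM hg => good_adapter
      ((incl (alphaSq R q K) (alphaSq_algebraMap R q K (O := OE A K)) (u4E R K h4)).comp
        (polyChart (u4E R K h4))) uC e M (hgood M hM hg))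

set_option maxHeartbeats 4000000 in
include hodd hz hzK in
/-- **The binder `h11` at `u₄` (`q` odd)** with the literal `good M := uC * (uC + 16) ∉ M` of
`ECall/Cusp4.hcusp_u4`, `uC` any name of the coordinate `α₂ α₁ u₄` in the chart ring. -/
theorem h11_u4 (uC : HypE.B2 A K R (u4E R K h4) (q := q))
    (huC : (uC : LE (R * q * q) K) = alphaSq R q K (u4E R K h4)) :
    ∀ M : Ideal (HypE.B2 A K R (u4E R K h4) (q := q)), M.IsMaximal → uC * (uC + 16) ∉ M →
      PMid A hq hA K hK hζ R hqR (u4E R K h4) (u4 (OE A K)) (Coord4Alt.hU_u4 R K h4) ≤ M →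
      ¬ PInf A hq hA K hK R (u4E R K h4) (u4 (OE A K)) (Coord4Alt.hU_u4 R K h4) ≤ M →
      ¬ PZero A hq hA K hK R hqR (u4E R K h4) (u4 (OE A K)) (Coord4Alt.hU_u4 R K h4) ≤ M →
      ∃ δ ∈ PMid A hq hA K hK hζ R hqR (u4E R K h4) (u4 (OE A K)) (Coord4Alt.hU_u4 R K h4),
        δ ≠ 0 ∧ ∃ a0 b0 A' E₀ : HypE.B2 A K R (u4E R K h4) (q := q),
          a0 * alphaC A K R (u4E R K h4) (piC (alphaHom R q K (u4E R K h4)) ((q : ℕ) : OE A K))
            = b0 * δ ^ (q - 1) ∧
          b0 ∉ PMid A hq hA K hK hζ R hqR (u4E R K h4) (u4 (OE A K))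
            (Coord4Alt.hU_u4 R K h4) ∧
          a0 * A' - b0 * E₀ ∈ PMid A hq hA K hK hζ R hqR (u4E R K h4) (u4 (OE A K))
            (Coord4Alt.hU_u4 R K h4) ∧ E₀ ∉ M :=
  h11_u4_good A hq hA hodd K hK hζ R hqR h4 z hz hzK uC huC
    (fun M => uC * (uC + 16) ∉ M) (fun _ _ h => h)

end Fermat.Agent.S36.ECall.H11
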