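import Mathlib
import Fermat.Agent.S36.SqChart.HypE
import Fermat.Agent.S36.ECall.ChartAlg

/-!
# S36, `E`-level call, group `Hyp`: the binder `h` of `KContractE.holds_of_hyp`

Block of `SqChart/InstA` section `Package` (helper111) verbatim, plus the coordinate binders of
`SqChart/HypE.hyp` (`hwu`, `hprime`, `hcop`, `hord`, `hθ`, `hfrob`); no coordinate is fixed.
`O = OE A K`, `π = q`, `L = R * q`, `u1 = alphaHom R q K u'`, `u = alphaSq R q K u'`, `k = q - 1`.
The `O`-algebra structure of the chart rings is the local instance `ECall.ChartAlg.chartAlg`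
(the generic instance of the literal of `holds_of_hyp`).

* `hyp_congr` : transport of `SqExit.Hyp` along equalities of all its arguments (level-free);
* `alphaC_eq`, `betaC_eq` : a chart map `φ : Chart O u1 →+* Chart O u` whose underlying map is
  `alphaHom (R * q) q K` (resp. `betaHom (R * q) q K`) IS `HypE.alphaC` (resp. `HypE.betaC`);
* `algebraMap_eq_piC` : `algebraMap O (Chart O u1) π = piC u1 π`;
* `h_of_eq` : `SqExit.Hyp φa₀ φb₀ (algebraMap O (Chart O u1) π) poo p0 Poo P0 P11 (q - 1)` for ANY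
  five ideals equal to the five primes of `HypE` (`pInf`, `pZero`, `PInf`, `PZero`, `PMid`) and
  ANY chart maps `φa₀`, `φb₀` restricting `alphaHom (R * q) q K`, `betaHom (R * q) q K`;
* `h_of_comap` : **the literal binder `h` of `KContractE.holds_of_hyp`** (`k := q - 1`) for ANY
  `P : Fin 3 → Ideal (Overlap O u)`, `p : Fin 2 → Ideal (Overlap O u1)` whose contractions to the
  charts `u`, `u1` are the five primes of `HypE`.
-/

set_option autoImplicit false
set_option linter.unusedSectionVars false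
set_option linter.unusedVariables false
set_option linter.style.haveILetI false
set_option synthInstance.maxHeartbeats 400000

open ModularCurve Polynomial
open Fermat.Agent.S34.Nodal

noncomputable section

namespace Fermat.Agent.S36.ECall.Hyp

open Fermat.Agent.S18.K1Defs Fermat.Agent.S18.K1Main Fermat.Agent.S30
open Fermat.Agent.S34.TwoPrimesRank (alphaHom)
open Fermat.Agent.S34.HauptU.Plug (wHom)
open Fermat.Agent.S36.SqRankE (betaHom alphaSq)
open Fermat.Agent.S36.CycloBase (cyclo)
open Fermat.Agent.S36.SqChart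

local notation "Qb" => AlgebraicClosure ℚ

attribute [local instance] InstA.algL InstA.towerL ChartAlg.chartAlg

/-- Transport of `SqExit.Hyp` along equalities of all its arguments. -/
theorem hyp_congr {B1 B2 : Type*} [CommRing B1] [CommRing B2]
    {α α' β β' : B1 →+* B2} {π1 π1' : B1} {poo poo' p0 p0' : Ideal B1}
    {Poo Poo' P0 P0' P11 P11' : Ideal B2} {k : ℕ}
    (h : SqExit.Hyp α β π1 poo p0 Poo P0 P11 k)
    (e1 : α' = α) (e2 : β' = β) (e0 : π1' = π1) (e3 : poo' = poo) (e4 : p0' = p0)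
    (e5 : Poo' = Poo) (e6 : P0' = P0) (e7 : P11' = P11) :
    SqExit.Hyp α' β' π1' poo' p0' Poo' P0' P11' k := by
  subst e1 e2 e0 e3 e4 e5 e6 e7
  exact h

variable (A : ValuationSubring Qb) {q : ℕ} (hq : q.Prime) [NeZero q] (hA : A.LiesOverPrime q)
  (K : IntermediateField ℚ Qb) [FiniteDimensional ℚ K]
  (hK : A.inertiaSubgroupIn ℚ ≤ K.fixingSubgroup) {ζ : Qb} (hζ : IsPrimitiveRoot ζ q)
  [IsDiscreteValuationRing (OE A K)] [IsDiscreteValuationRing (OE A (cyclo K ζ))]
  (R : ℕ) [NeZero R] (hqR : ¬ q ∣ R)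
  (u' : LE R K) (U : LaurentSeries (OE A K))
  (hU : (u' : LaurentSeries K) = GaussDVR.iota (OE A K) K U)
  (hwu : IsIntegral (Algebra.adjoin (OE A K) {alphaHom R q K u'})
    (wHom R q K hq hqR (alphaHom R q K u')))

/-- A chart map restricting `alphaHom (R * q) q K` is `HypE.alphaC`. -/
theorem alphaC_eq
    (φa₀ : Chart (OE A K) (alphaHom R q K u') →+* Chart (OE A K) (alphaSq R q K u'))
    (hφa₀ : ∀ x : Chart (OE A K) (alphaHom R q K u'),
      ((φa₀ x : Chart (OE A K) (alphaSq R q K u')) : LE (R * q * q) K)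
        = alphaHom (R * q) q K (x : LE (R * q) K)) :
    φa₀ = HypE.alphaC A K R u' :=
  RingHom.ext fun x => Subtype.ext (hφa₀ x)

/-- A chart map restricting `betaHom (R * q) q K` is `HypE.betaC`. -/
theorem betaC_eq
    (φb₀ : Chart (OE A K) (alphaHom R q K u') →+* Chart (OE A K) (alphaSq R q K u'))
    (hφb₀ : ∀ x : Chart (OE A K) (alphaHom R q K u'),
      ((φb₀ x : Chart (OE A K) (alphaSq R q K u')) : LE (R * q * q) K)
        = betaHom (R * q) q K (x : LE (R * q) K)) :
    φb₀ = HypE.betaC A hq K R hqR u' hwu :=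
  RingHom.ext fun x => Subtype.ext (hφb₀ x)

/-- The uniformiser of the level-`R q` chart ring in the two spellings. -/
theorem algebraMap_eq_piC :
    algebraMap (OE A K) (Chart (OE A K) (alphaHom R q K u')) ((q : ℕ) : OE A K)
      = Fermat.Agent.S34.TwoPrimesGauss.piC (alphaHom R q K u') ((q : ℕ) : OE A K) :=
  rfl

variable [FiniteDimensional (IntermediateField.adjoin K {u'}) (LE R K)]
  (hprime : Prime (Fermat.Agent.S34.TwoPrimesGauss.piC u' ((q : ℕ) : OE A K)))
  (hcop : IsCoprime (GaussDVR.rho (OE A K) U).order ((q : ℕ) : ℤ))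
  (hord : (GaussDVR.rho (OE A K) U).order ≠ 0)
  (hθ : QFormal.theta (GaussDVR.rho (OE A K) U) ≠ 0)
  (hfrob : qExpand (IsLocalRing.ResidueField (OE A K)) q (GaussDVR.rho (OE A K) U)
    = GaussDVR.rho (OE A K) U ^ q)

set_option maxHeartbeats 4000000 in
include hwu hprime hcop hord hθ hfrob in
/-- **The C2 exit `SqChart/HypE.hyp` for any spelling of its two maps and five ideals.** -/
theorem h_of_eq
    (poo p0 : Ideal (Chart (OE A K) (alphaHom R q K u')))
    (Poo P0 P11 : Ideal (Chart (OE A K) (alphaSq R q K u')))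
    (hp1 : poo = HypE.pInf A hq hA K hK R u' U hU)
    (hp0 : p0 = HypE.pZero A hq hA K hK R hqR u' U hU)
    (hP1 : Poo = HypE.PInf A hq hA K hK R u' U hU)
    (hP0 : P0 = HypE.PZero A hq hA K hK R hqR u' U hU)
    (hP2 : P11 = HypE.PMid A hq hA K hK hζ R hqR u' U hU)
    (φa₀ : Chart (OE A K) (alphaHom R q K u') →+* Chart (OE A K) (alphaSq R q K u'))
    (hφa₀ : ∀ x : Chart (OE A K) (alphaHom R q K u'),
      ((φa₀ x : Chart (OE A K) (alphaSq R q K u')) : LE (R * q * q) K)
        = alphaHom (R * q) q K (x : LE (R * q) K))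
    (φb₀ : Chart (OE A K) (alphaHom R q K u') →+* Chart (OE A K) (alphaSq R q K u'))
    (hφb₀ : ∀ x : Chart (OE A K) (alphaHom R q K u'),
      ((φb₀ x : Chart (OE A K) (alphaSq R q K u')) : LE (R * q * q) K)
        = betaHom (R * q) q K (x : LE (R * q) K)) :
    SqExit.Hyp φa₀ φb₀
      (algebraMap (OE A K) (Chart (OE A K) (alphaHom R q K u')) ((q : ℕ) : OE A K))
      poo p0 Poo P0 P11 (q - 1) :=
  hyp_congr (HypE.hyp A hq hA K hK hζ R hqR u' U hU hwu hprime hcop hord hθ hfrob)
    (alphaC_eq A K R u' φa₀ hφa₀) (betaC_eq A hq K R hqR u' hwu φb₀ hφb₀)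
    (algebraMap_eq_piC A K R u') hp1 hp0 hP1 hP0 hP2

set_option maxHeartbeats 4000000 in
include hwu hprime hcop hord hθ hfrob in
/-- **The binder `h` of `KContractE.holds_of_hyp`** at `L := R * q`, `E := K`, `O := OE A K`,
`π := q`, `u := alphaSq R q K u'`, `u1 := alphaHom R q K u'`, `k := q - 1`: the C2 exit
`SqChart/HypE.hyp` in the vocabulary of the overlap primes. -/
theorem h_of_comap
    (P : Fin 3 → Ideal (Overlap (OE A K) (alphaSq R q K u')))
    (p : Fin 2 → Ideal (Overlap (OE A K) (alphaHom R q K u')))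
    (hp1 : (p 1).comap (toOverlapZero (OE A K) (alphaHom R q K u'))
      = HypE.pInf A hq hA K hK R u' U hU)
    (hp0 : (p 0).comap (toOverlapZero (OE A K) (alphaHom R q K u'))
      = HypE.pZero A hq hA K hK R hqR u' U hU)
    (hP1 : (P 1).comap (toOverlapZero (OE A K) (alphaSq R q K u'))
      = HypE.PInf A hq hA K hK R u' U hU)
    (hP0 : (P 0).comap (toOverlapZero (OE A K) (alphaSq R q K u'))
      = HypE.PZero A hq hA K hK R hqR u' U hU)
    (hP2 : (P 2).comap (toOverlapZero (OE A K) (alphaSq R q K u'))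
      = HypE.PMid A hq hA K hK hζ R hqR u' U hU)
    (φa₀ : Chart (OE A K) (alphaHom R q K u') →+* Chart (OE A K) (alphaSq R q K u'))
    (hφa₀ : ∀ x : Chart (OE A K) (alphaHom R q K u'),
      ((φa₀ x : Chart (OE A K) (alphaSq R q K u')) : LE (R * q * q) K)
        = alphaHom (R * q) q K (x : LE (R * q) K))
    (φb₀ : Chart (OE A K) (alphaHom R q K u') →+* Chart (OE A K) (alphaSq R q K u'))
    (hφb₀ : ∀ x : Chart (OE A K) (alphaHom R q K u'),
      ((φb₀ x : Chart (OE A K) (alphaSq R q K u')) : LE (R * q * q) K)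
        = betaHom (R * q) q K (x : LE (R * q) K)) :
    SqExit.Hyp φa₀ φb₀
      (algebraMap (OE A K) (Chart (OE A K) (alphaHom R q K u')) ((q : ℕ) : OE A K))
      ((p 1).comap (toOverlapZero (OE A K) (alphaHom R q K u')))
      ((p 0).comap (toOverlapZero (OE A K) (alphaHom R q K u')))
      ((P 1).comap (toOverlapZero (OE A K) (alphaSq R q K u')))
      ((P 0).comap (toOverlapZero (OE A K) (alphaSq R q K u')))
      ((P 2).comap (toOverlapZero (OE A K) (alphaSq R q K u'))) (q - 1) :=
  hyp_congr (HypE.hyp A hq hA K hK hζ R hqR u' U hU hwu hprime hcop hord hθ hfrob)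
    (alphaC_eq A K R u' φa₀ hφa₀) (betaC_eq A hq K R hqR u' hwu φb₀ hφb₀)
    (algebraMap_eq_piC A K R u') hp1 hp0 hP1 hP0 hP2

end Fermat.Agent.S36.ECall.Hyp
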