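import Mathlib
import Fermat.Agent.S36.ECall.ObjInf
import Fermat.Agent.S36.Haupt4.InfSq
import Fermat.Agent.S36.Haupt4.Inputs

/-!
# S36, E-level call `ECall/ObjInf4`: the chart maps at infinity at `u' = u₄` (`q` odd)

The `_u4` forms (ruling #16 (3)) of the binders `φa₁ hφa₁ hinta φb₁ hφb₁ hintb` of
`KContractE.holds_of_hyp` at `L := R * q`, `E := K`, `O := OE A K` (instances `InstA.algL`,
`InstA.towerL`), `u := alphaSq R q K (u4E R K h4)`, `u1 := alphaHom R q K (u4E R K h4)`: the two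
named coordinate hypotheses `hβinv`, `hαinv` of `ECall/ObjInf` are DISCHARGED
(`Haupt4.InfSq.hbetaInv_u4E` / `halphaInv_u4E`, `2 ∈ O_Kˣ` from `Haupt4.isUnit_two_OE`).
Remaining arguments: `A hq hA hodd K R h4` only (no `q ∤ R`).

* `hbetaInv_u4`, `halphaInv_u4` : the two coordinate facts in the literal of `ObjInf`;
* `phiA1_u4`, `coe_phiA1_u4`, `phiA1_isIntegral_u4`, `phiA1_injective_u4`;
* `phiB1_u4`, `coe_phiB1_u4`, `phiB1_isIntegral_u4`, `phiB1_injective_u4`.
-/

set_option autoImplicit false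
set_option linter.unusedSectionVars false
set_option linter.unusedVariables false
set_option linter.style.haveILetI false
set_option synthInstance.maxHeartbeats 400000
set_option maxHeartbeats 1000000

open ModularCurve Polynomial

noncomputable section

namespace Fermat.Agent.S36.ECall.ObjInf4

open Fermat.Agent.S30 Fermat.Agent.S18.K1Defs Fermat.Agent.S18.K1Main
open Fermat.Agent.S34 Fermat.Agent.S34.TwoPrimesRank
open Fermat.Agent.S36 Fermat.Agent.S36.SqRankE Fermat.Agent.S36.SqChart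
open Fermat.Agent.S36.Haupt4

local notation "Qb" => AlgebraicClosure ℚ

attribute [local instance] InstA.algL InstA.towerL

variable (A : ValuationSubring Qb) {q : ℕ} (hq : q.Prime) [NeZero q] (hA : A.LiesOverPrime q)
  (hodd : q ≠ 2) (K : IntermediateField ℚ Qb) [IsDiscreteValuationRing (OE A K)]
  (R : ℕ) [NeZero R] (h4 : 4 ∣ R)

include hq hA hodd in
/-- `2` is a unit of `O_K` (`q` odd). -/
theorem isUnit_two : IsUnit (2 : OE A K) :=
  haveI : Fact q.Prime := ⟨hq⟩
  isUnit_two_OE A hA hodd K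

include hq hA hodd in
/-- **`hβinv` at `u₄`**, in the literal of `ObjInf.phiB1`. -/
theorem hbetaInv_u4 :
    IsIntegral (Algebra.adjoin (OE A K) {(alphaSq R q K (u4E R K h4))⁻¹})
      (betaHom (R * q) q K (alphaHom R q K (u4E R K h4)))⁻¹ :=
  InfSq.hbetaInv_u4E R q K (isUnit_two A hq hA hodd K) hq hodd h4

include hq hA hodd in
/-- **`hαinv` at `u₄`**, in the literal of `ObjInf.phiB1_isIntegral`. -/
theorem halphaInv_u4 :
    IsIntegral (Algebra.adjoin (OE A K) {(betaHom (R * q) q K (alphaHom R q K (u4E R K h4)))⁻¹})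
      (alphaSq R q K (u4E R K h4))⁻¹ :=
  InfSq.halphaInv_u4E R q K (isUnit_two A hq hA hodd K) hq hodd h4

/-- **`φa₁` at `u₄`**. -/
def phiA1_u4 : Nodal.Chart (OE A K) (alphaHom R q K (u4E R K h4))⁻¹ →+*
    Nodal.Chart (OE A K) (alphaSq R q K (u4E R K h4))⁻¹ :=
  ObjInf.phiA1 A K R (u4E R K h4)

/-- **`hφa₁` at `u₄`**. -/
theorem coe_phiA1_u4 (x : Nodal.Chart (OE A K) (alphaHom R q K (u4E R K h4))⁻¹) :
    ((phiA1_u4 A K R h4 x : Nodal.Chart (OE A K) (alphaSq R q K (u4E R K h4))⁻¹) :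
        LE (R * q * q) K)
      = alphaHom (R * q) q K (x : LE (R * q) K) := rfl

/-- **`hinta` at `u₄`**. -/
theorem phiA1_isIntegral_u4 : (phiA1_u4 (q := q) A K R h4).IsIntegral :=
  ObjInf.phiA1_isIntegral A K R (u4E R K h4)

theorem phiA1_injective_u4 : Function.Injective (phiA1_u4 (q := q) A K R h4) :=
  ObjInf.phiA1_injective A K R (u4E R K h4)

/-- **`φb₁` at `u₄`** (`q` odd). -/
def phiB1_u4 : Nodal.Chart (OE A K) (alphaHom R q K (u4E R K h4))⁻¹ →+*
    Nodal.Chart (OE A K) (alphaSq R q K (u4E R K h4))⁻¹ :=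
  ObjInf.phiB1 A K R (u4E R K h4) (hbetaInv_u4 A hq hA hodd K R h4)

/-- **`hφb₁` at `u₄`**. -/
theorem coe_phiB1_u4 (x : Nodal.Chart (OE A K) (alphaHom R q K (u4E R K h4))⁻¹) :
    ((phiB1_u4 A hq hA hodd K R h4 x : Nodal.Chart (OE A K) (alphaSq R q K (u4E R K h4))⁻¹) :
        LE (R * q * q) K)
      = betaHom (R * q) q K (x : LE (R * q) K) := rfl

/-- **`hintb` at `u₄`**. -/
theorem phiB1_isIntegral_u4 : (phiB1_u4 A hq hA hodd K R h4).IsIntegral :=
  ObjInf.phiB1_isIntegral A K R (u4E R K h4) (hbetaInv_u4 A hq hA hodd K R h4)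
    (halphaInv_u4 A hq hA hodd K R h4)

theorem phiB1_injective_u4 : Function.Injective (phiB1_u4 A hq hA hodd K R h4) :=
  ObjInf.phiB1_injective A K R (u4E R K h4) (hbetaInv_u4 A hq hA hodd K R h4)

end Fermat.Agent.S36.ECall.ObjInf4
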