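import Mathlib
import Fermat.Agent.S36.ECall.Inf
import Fermat.Agent.S36.ECall.ObjInf4
import Fermat.Agent.S36.SqChart.Coord4Alt

/-!
# S36, E-level call `ECall/Inf4`: the binder `hreg` at `u' = u₄` (`q` odd)

The `_u4` form (ruling #16 (3)) of the binder `hreg` of `KContractE.holds_of_hyp` at
`L := R * q`, `E := K`, `O := OE A K` (instances `InstA.algL`, `InstA.towerL`), `π := q`,
`u := alphaSq R q K (u4E R K h4)`: `ECall.Inf.hreg_of_chartFacts` with EVERY coordinate hypothesis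
discharged:

* `hU`, `hwu`, `hcop`, `hord`, `hθ`, `hfrob`, finiteness : `SqChart/Coord4Alt`, `Haupt4/Hwu`;
* `hF` (the level `R` fibre: normal on the chart `u₄`, Dedekind on the chart `u₄⁻¹`, `q` prime,
  `u₄` transcendental) : `Haupt4/Fibre.chartFacts_u4_OE` at `π := q`;
* `h1`, `h1'` : `Coord4Alt.hwu_s4`, `hwu_s4'`; `hβinv`, `hαinv` : `ECall/ObjInf4`.

Remaining arguments: `A hq hA hodd K hK hζ R hqR h4 z hz hzK` and the overlap primes `P` with the
three comap-zero identities against `HypE.PZero / PInf / PMid` (`hreg_u4`), or chart primes `Pc`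
in any spelling + `hc : ∀ i, (P i) ∩ Chart = Pc i` (`hreg_u4_of_comap`, the shape of the binder
`hinf` of `KInst9.holds_of_chart`).
-/

set_option autoImplicit false
set_option linter.unusedSectionVars false
set_option linter.unusedVariables false
set_option linter.style.haveILetI false
set_option synthInstance.maxHeartbeats 400000
set_option maxHeartbeats 1000000

open ModularCurve Polynomial

noncomputable section

namespace Fermat.Agent.S36.ECall.Inf4

open Fermat.Agent.S30 Fermat.Agent.S18.K1Defs Fermat.Agent.S18.K1Main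
open Fermat.Agent.S34 Fermat.Agent.S34.TwoPrimesRank
open Fermat.Agent.S36 Fermat.Agent.S36.SqRankE Fermat.Agent.S36.SqChart
open Fermat.Agent.S36.CycloBase Fermat.Agent.S36.Haupt4

local notation "Qb" => AlgebraicClosure ℚ

attribute [local instance] InstA.algL InstA.towerL

variable (A : ValuationSubring Qb) {q : ℕ} (hq : q.Prime) [NeZero q] (hA : A.LiesOverPrime q)
  (hodd : q ≠ 2) (K : IntermediateField ℚ Qb) [FiniteDimensional ℚ K]
  (hK : A.inertiaSubgroupIn ℚ ≤ K.fixingSubgroup) {ζ : Qb} (hζ : IsPrimitiveRoot ζ q)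
  [IsDiscreteValuationRing (OE A K)] [IsDiscreteValuationRing (OE A (cyclo K ζ))]
  (R : ℕ) [NeZero R] (hqR : ¬ q ∣ R) (h4 : 4 ∣ R)
  (z : Qb) (hz : IsPrimitiveRoot z R) (hzK : z ∈ K)

include hq hA hodd hK hqR hz hzK in
/-- The level `R` chart facts of `u₄` at `π := q`. -/
theorem chartFacts_u4 :
    HauptU.LevelMAux.ChartFacts K ((q : ℕ) : OE A K) (u4E R K h4) (u4E R K h4)⁻¹ :=
  haveI : Fact q.Prime := ⟨hq⟩
  Fibre.chartFacts_u4_OE A R h4 hqR hA hodd K z hz hzK ((q : ℕ) : OE A K)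
    (InstA.irreducible_q A hq hA K hK)

include hodd hz hzK in
/-- **`hreg` at `u₄`** (`q` odd): the binder `hreg` of `KContractE.holds_of_hyp` for any overlap
primes `P` contracting to the three Gauss primes of `SqChart/HypE` on the chart `u`. -/
theorem hreg_u4
    (P : Fin 3 → Ideal (Nodal.Overlap (OE A K) (alphaSq R q K (u4E R K h4))))
    [hP : ∀ i, (P i).IsPrime]
    (hP0 : (P 0).comap (Nodal.toOverlapZero (OE A K) (alphaSq R q K (u4E R K h4)))
      = HypE.PZero A hq hA K hK R hqR (u4E R K h4) (u4 (OE A K)) (Coord4Alt.hU_u4 R K h4))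
    (hP1 : (P 1).comap (Nodal.toOverlapZero (OE A K) (alphaSq R q K (u4E R K h4)))
      = HypE.PInf A hq hA K hK R (u4E R K h4) (u4 (OE A K)) (Coord4Alt.hU_u4 R K h4))
    (hP2 : (P 2).comap (Nodal.toOverlapZero (OE A K) (alphaSq R q K (u4E R K h4)))
      = HypE.PMid A hq hA K hK hζ R hqR (u4E R K h4) (u4 (OE A K)) (Coord4Alt.hU_u4 R K h4)) :
    Inf.HregStmt A K R (u4E R K h4) P := by
  haveI := Coord4Alt.finite_u4E R K h4
  haveI := Coord4Alt.charP_ell K q hq A hA
  have h2 : IsUnit (2 : OE A K) := Coord4Alt.isUnit_two K q hq hodd A hA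
  exact Inf.hreg_of_chartFacts A hq hA K hK hζ R hqR (u4E R K h4) (u4 (OE A K))
    (Coord4Alt.hU_u4 R K h4) (Hwu.hwu_u4E R q K (O := OE A K) h2 hq hodd hqR h4)
    (Coord4Alt.hcop_u4 q) Coord4Alt.hord_u4 Coord4Alt.theta_rho_u4_ne_zero
    (Coord4Alt.qExpand_rho_u4 q hq) (chartFacts_u4 A hq hA hodd K hK R hqR h4 z hz hzK)
    (Coord4Alt.hwu_s4 R K q h2 hq hodd hqR h4) (Coord4Alt.hwu_s4' R K q h2 hq hodd hqR h4)
    (ObjInf4.hbetaInv_u4 A hq hA hodd K R h4) (ObjInf4.halphaInv_u4 A hq hA hodd K R h4)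
    P hP0 hP1 hP2

include hodd hz hzK in
/-- **`hreg` at `u₄` for overlap primes given through chart primes `Pc`** (any spelling of the
three Gauss primes: `hPc0 hPc1 hPc2`, `rfl` for `![HypE.PZero .., HypE.PInf .., HypE.PMid ..]`
and for the `SqInstW` kernels). -/
theorem hreg_u4_of_comap
    (Pc : Fin 3 → Ideal (Nodal.Chart (OE A K) (alphaSq R q K (u4E R K h4))))
    (hPc0 : Pc 0
      = HypE.PZero A hq hA K hK R hqR (u4E R K h4) (u4 (OE A K)) (Coord4Alt.hU_u4 R K h4))
    (hPc1 : Pc 1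
      = HypE.PInf A hq hA K hK R (u4E R K h4) (u4 (OE A K)) (Coord4Alt.hU_u4 R K h4))
    (hPc2 : Pc 2
      = HypE.PMid A hq hA K hK hζ R hqR (u4E R K h4) (u4 (OE A K)) (Coord4Alt.hU_u4 R K h4))
    (P : Fin 3 → Ideal (Nodal.Overlap (OE A K) (alphaSq R q K (u4E R K h4))))
    [hP : ∀ i, (P i).IsPrime]
    (hc : ∀ i, (P i).comap (Nodal.toOverlapZero (OE A K) (alphaSq R q K (u4E R K h4))) = Pc i) :
    Inf.HregStmt A K R (u4E R K h4) P :=
  hreg_u4 A hq hA hodd K hK hζ R hqR h4 z hz hzK P ((hc 0).trans hPc0) ((hc 1).trans hPc1)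
    ((hc 2).trans hPc2)

end Fermat.Agent.S36.ECall.Inf4
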