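import Mathlib
import Fermat.Agent.S36.ECall.Cusp
import Fermat.Agent.S36.CuspInstOv

/-!
# S36, E-level call `ECall/InfCusp`: the binders `hsep`, `h11inf` of `KContractE.holds_of_hyp`
(fibre `u⁻¹ = 0`), Hauptmodul `u₄`, `q` odd (helper281; second hand of `CuspInstEK`)

`CuspInstOv.cusp_inf_ov` (helper161; level-free, `SqAbs` block) at the `E`-level objects of
`SqChart/InstA` (family 1: `σ₁ = sigmaHom (R q) K`, `σ₁z = σ₁ ∘ InstA.w1`,
`σ = sigmaHom (R q q) K`, `σm = InstA.sigM`, `z₀ = CycloBase.zetaU`), in the block of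
`SqChart/InstA` `section Package` / `SqChart/HypE` `section Inst` VERBATIM, under
`attribute [local instance] InstA.algL InstA.towerL`.  The `E`-level embedding identities are
those of `ECall/Cusp` (helper1); the identifications of the primes are `SqChart/HypBridge`
(helper111).

* `cusp_inf` : `hsep ∧ h11inf` LITERALLY (binders of `KContractE.holds_of_hyp` at `L := R * q`,
  `E := K`, `O := OE A K`, `π := q`, `u := alphaSq R q K u'`, `u1 := alphaHom R q K u'`,
  `k := q - 1`), for ANY overlap primes `P`, `p` and ANY chart maps `φa₀ φb₀ φa₁ φb₁` lying under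
  `α₂`, `β₂`, carrying the binder `h` (comap form) and the three comap-zero identities
  `hp1 hp0 hP2` against `HypE.pInf`, `HypE.pZero`, `HypE.PMid`.
* `cusp_inf_chart` : the same in the CHART-PRIME form of `KInst9.holds_of_chart` (binder
  `hinf`): the C2 exit `h` is given at chart primes `Pc`, `pc` (any spelling of the Gauss
  primes: `hpc1 hpc0 hPc2`), and `P`, `p` are ANY overlap primes contracting to `Pc`, `pc`.

Coordinate facts (named): `hu` (+ finiteness over `K(u)`), any name `J'` of `j` in `LE R K`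
(`hJ'`) and the `u₄`-relation `hrel` (`Haupt4.jE_mul_u4E R K h4 J' hJ'` at `u' = u₄`).  The
uniformiser is spelled `piC _ q` (`= algebraMap O (Chart O _) q` by `rfl`).
-/

set_option autoImplicit false
set_option linter.unusedSectionVars false
set_option linter.unusedVariables false
set_option linter.style.haveILetI false
set_option synthInstance.maxHeartbeats 400000
set_option maxHeartbeats 1000000

open ModularCurve Polynomial

noncomputable section

namespace Fermat.Agent.S36.ECall.InfCusp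

open Fermat.Agent.S30 Fermat.Agent.S30.CSide
open Fermat.Agent.S18.K1Defs Fermat.Agent.S18.K1Main
open Fermat.Agent.S34.TwoPrimesRank Fermat.Agent.S34.HauptU.Plug
open Fermat.Agent.S34.TwoPrimesGauss (piC)
open Fermat.Agent.S36.SqChart Fermat.Agent.S36.CycloBase Fermat.Agent.S36.SqRankE
open Fermat.Agent.S36.ECall.Cusp

local notation "Qb" => AlgebraicClosure ℚ

attribute [local instance] InstA.algL InstA.towerL

/-- Transport of `SqExit.Hyp` along an equality of the uniformiser. -/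
theorem hyp_pi_congr {B1 B2 : Type*} [CommRing B1] [CommRing B2]
    {α β : B1 →+* B2} {π1 π1' : B1} {poo p0 : Ideal B1} {Poo P0 P11 : Ideal B2} {k : ℕ}
    (h : SqExit.Hyp α β π1 poo p0 Poo P0 P11 k) (e : π1 = π1') :
    SqExit.Hyp α β π1' poo p0 Poo P0 P11 k := by
  subst e
  exact h

variable (A : ValuationSubring Qb) {q : ℕ} (hq : q.Prime) [NeZero q] (hA : A.LiesOverPrime q)
  (K : IntermediateField ℚ Qb) [FiniteDimensional ℚ K]
  (hK : A.inertiaSubgroupIn ℚ ≤ K.fixingSubgroup) {ζ : Qb} (hζ : IsPrimitiveRoot ζ q)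
  [IsDiscreteValuationRing (OE A K)] [IsDiscreteValuationRing (OE A (cyclo K ζ))]
  (R : ℕ) [NeZero R] (hqR : ¬ q ∣ R)
  (u' : LE R K) (U : LaurentSeries (OE A K))
  (hU : (u' : LaurentSeries K) = GaussDVR.iota (OE A K) K U)

open Fermat.Agent.S34.Nodal in
/-- **E-level call, binders `hsep ∧ h11inf` of `KContractE.holds_of_hyp`, Hauptmodul `u₄`**
(`L := R * q`, `E := K`, `O := OE A K`, `π := q`, `u := alphaSq R q K u'`,
`u1 := alphaHom R q K u'`, `k := q - 1`): for ANY overlap primes `P`, `p` and chart maps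
`φa₀ φa₁ φb₀ φb₁` under `α₂`, `β₂` with the binder `h` and the three comap-zero identities. -/
theorem cusp_inf
    (hu : Transcendental K (alphaSq R q K u'))
    [FiniteDimensional (IntermediateField.adjoin K {alphaSq R q K u'}) (LE (R * q * q) K)]
    (P : Fin 3 → Ideal (Overlap (OE A K) (alphaSq R q K u'))) [hP : ∀ i, (P i).IsPrime]
    (p : Fin 2 → Ideal (Overlap (OE A K) (alphaHom R q K u')))
    (φa₀ : Chart (OE A K) (alphaHom R q K u') →+* Chart (OE A K) (alphaSq R q K u'))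
    (hφa₀ : ∀ x : Chart (OE A K) (alphaHom R q K u'),
      ((φa₀ x : Chart (OE A K) (alphaSq R q K u')) : LE (R * q * q) K)
        = alphaHom (R * q) q K (x : LE (R * q) K))
    (φa₁ : Chart (OE A K) (alphaHom R q K u')⁻¹ →+* Chart (OE A K) (alphaSq R q K u')⁻¹)
    (hφa₁ : ∀ x : Chart (OE A K) (alphaHom R q K u')⁻¹,
      ((φa₁ x : Chart (OE A K) (alphaSq R q K u')⁻¹) : LE (R * q * q) K)
        = alphaHom (R * q) q K (x : LE (R * q) K))
    (φb₀ : Chart (OE A K) (alphaHom R q K u') →+* Chart (OE A K) (alphaSq R q K u'))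
    (hφb₀ : ∀ x : Chart (OE A K) (alphaHom R q K u'),
      ((φb₀ x : Chart (OE A K) (alphaSq R q K u')) : LE (R * q * q) K)
        = betaHom (R * q) q K (x : LE (R * q) K))
    (φb₁ : Chart (OE A K) (alphaHom R q K u')⁻¹ →+* Chart (OE A K) (alphaSq R q K u')⁻¹)
    (hφb₁ : ∀ x : Chart (OE A K) (alphaHom R q K u')⁻¹,
      ((φb₁ x : Chart (OE A K) (alphaSq R q K u')⁻¹) : LE (R * q * q) K)
        = betaHom (R * q) q K (x : LE (R * q) K))
    (h : SqExit.Hyp φa₀ φb₀ (piC (alphaHom R q K u') ((q : ℕ) : OE A K))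
      ((p 1).comap (toOverlapZero (OE A K) (alphaHom R q K u')))
      ((p 0).comap (toOverlapZero (OE A K) (alphaHom R q K u')))
      ((P 1).comap (toOverlapZero (OE A K) (alphaSq R q K u')))
      ((P 0).comap (toOverlapZero (OE A K) (alphaSq R q K u')))
      ((P 2).comap (toOverlapZero (OE A K) (alphaSq R q K u'))) (q - 1))
    (hp1 : (p 1).comap (toOverlapZero (OE A K) (alphaHom R q K u'))
      = HypE.pInf A hq hA K hK R u' U hU)
    (hp0 : (p 0).comap (toOverlapZero (OE A K) (alphaHom R q K u'))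
      = HypE.pZero A hq hA K hK R hqR u' U hU)
    (hP2 : (P 2).comap (toOverlapZero (OE A K) (alphaSq R q K u'))
      = HypE.PMid A hq hA K hK hζ R hqR u' U hU)
    (J' : LE R K) (hJ' : (J' : LaurentSeries K) = coeffEmb K jq)
    (hrel : J' * u' ^ 4 * (u' + 16) = (u' ^ 2 + 256 * u' + 4096) ^ 3) :
    (∀ M : Ideal (Chart (OE A K) (alphaSq R q K u')⁻¹), M.IsMaximal →
      Model.ChartInf.tInf (alphaSq R q K u') ∈ M → ∀ i j, i ≠ j →
      (P i).comap (toOverlapInf (OE A K) (alphaSq R q K u')) ≤ M →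
      (P j).comap (toOverlapInf (OE A K) (alphaSq R q K u')) ≤ M → False) ∧
    (∀ M : Ideal (Chart (OE A K) (alphaSq R q K u')⁻¹), M.IsMaximal →
      Model.ChartInf.tInf (alphaSq R q K u') ∈ M →
      (P 2).comap (toOverlapInf (OE A K) (alphaSq R q K u')) ≤ M →
      ∃ δ ∈ (P 2).comap (toOverlapInf (OE A K) (alphaSq R q K u')), δ ≠ 0 ∧
      ∃ a0 b0 A' E' : Chart (OE A K) (alphaSq R q K u')⁻¹,
        a0 * piC (alphaSq R q K u')⁻¹ ((q : ℕ) : OE A K) = b0 * δ ^ (q - 1) ∧
        b0 ∉ (P 2).comap (toOverlapInf (OE A K) (alphaSq R q K u')) ∧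
        a0 * A' - b0 * E' ∈ (P 2).comap (toOverlapInf (OE A K) (alphaSq R q K u')) ∧ E' ∉ M) := by
  haveI : Fact q.Prime := ⟨hq⟩
  haveI : CharP (IsLocalRing.ResidueField (OE A K)) q :=
    Fermat.Agent.S34.Sat.charP_residue_OE' A K hq hA
  exact Fermat.Agent.S36.CuspInstOv.cusp_inf_ov
    (inclOE A (le_cyclo K ζ)) (inclE (le_cyclo K ζ)) (inclE_algebraMap A (le_cyclo K ζ))
    ((q : ℕ) : OE A K) (InstA.irreducible_q A hq hA K hK) q
    (alphaHom R q K) (betaHom R q K) (sigmaHom (R * q) K)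
    (sigmaHom_algebraMap (R * q) K (O := OE A K)) (sigmaHom_mem_fracField (R * q) K A)
    u' U (sigma1_u A K R u' U hU)
    (sig1z hq K R hqR) (sig1z_algebraMap A hq K R hqR) (sig1z_mem_fracField A hq K R hqR)
    (sig1z_alpha hq K R hqR) (sigma1_beta K R) (sig1z_beta hq K R hqR)
    (alphaHom (R * q) q K) (betaHom (R * q) q K)
    (alphaHom_algebraMap (R * q) q K (O := OE A K)) (betaHom_algebraMap (R * q) q K (O := OE A K))
    (sigmaHom (R * q * q) K) (sigma_alpha2 K R (q := q)) (sigma_beta2 K R)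
    (InstA.sigM A hq hA K hζ R hqR) (InstA.sigM_algebraMap A hq hA K hζ R hqR)
    (InstA.sigM_mem_fracField A hq hA K hζ R hqR) (zetaU A hq K hζ)
    (InstA.irreducible_zeta_sub_one A hq hA K hK hζ) (InstA.sigM_alpha A hq hA K hζ R hqR)
    (InstA.sigM_beta A hq hA K hζ R hqR) hu P p φa₀ hφa₀ φa₁ hφa₁ φb₀ hφb₀ φb₁ hφb₁
    (hyp_pi_congr h rfl)
    (hp1.trans (HypBridge.pInf_eq A hq hA K hK R u' U hU (InstA.irreducible_q A hq hA K hK)
      (sigmaHom_algebraMap (R * q) K (O := OE A K)) (sigmaHom_mem_fracField (R * q) K A)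
      (sigma1_u A K R u' U hU)))
    (hp0.trans (HypBridge.pZero_eq A hq hA K hK R hqR u' U hU (InstA.irreducible_q A hq hA K hK)
      (sigma1_u A K R u' U hU) (sig1z_algebraMap A hq K R hqR) (sig1z_mem_fracField A hq K R hqR)
      (sig1z_alpha hq K R hqR)))
    (hP2.trans (HypBridge.PMid_eq A hq hA K hK hζ R hqR u' U hU (sigma1_u A K R u' U hU)
      (sigma_alpha2 K R (q := q)) (InstA.sigM_algebraMap A hq hA K hζ R hqR)
      (InstA.sigM_mem_fracField A hq hA K hζ R hqR)
      (InstA.irreducible_zeta_sub_one A hq hA K hK hζ) (InstA.sigM_alpha A hq hA K hζ R hqR)))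
    J' (sigma1_J K R J' hJ') hrel 1 isUnit_one (mul_one _).symm

open Fermat.Agent.S34.Nodal in
/-- **The binders `hsep ∧ h11inf` in the chart-prime form of `KInst9.holds_of_chart`** (the first
two components of its binder `hinf`): the C2 exit `h` at chart primes `Pc`, `pc` which are ANY
spelling of the Gauss primes (`hpc1 hpc0 hPc2`; `rfl` for the `HypE` primes and for the `SqInstW`
kernels), and ANY overlap primes `P`, `p` with `(P i) ∩ Chart = Pc i`, `(p j) ∩ Chart = pc j`. -/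
theorem cusp_inf_chart
    (hu : Transcendental K (alphaSq R q K u'))
    [FiniteDimensional (IntermediateField.adjoin K {alphaSq R q K u'}) (LE (R * q * q) K)]
    (φa₀ : Chart (OE A K) (alphaHom R q K u') →+* Chart (OE A K) (alphaSq R q K u'))
    (hφa₀ : ∀ x : Chart (OE A K) (alphaHom R q K u'),
      ((φa₀ x : Chart (OE A K) (alphaSq R q K u')) : LE (R * q * q) K)
        = alphaHom (R * q) q K (x : LE (R * q) K))
    (φa₁ : Chart (OE A K) (alphaHom R q K u')⁻¹ →+* Chart (OE A K) (alphaSq R q K u')⁻¹)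
    (hφa₁ : ∀ x : Chart (OE A K) (alphaHom R q K u')⁻¹,
      ((φa₁ x : Chart (OE A K) (alphaSq R q K u')⁻¹) : LE (R * q * q) K)
        = alphaHom (R * q) q K (x : LE (R * q) K))
    (φb₀ : Chart (OE A K) (alphaHom R q K u') →+* Chart (OE A K) (alphaSq R q K u'))
    (hφb₀ : ∀ x : Chart (OE A K) (alphaHom R q K u'),
      ((φb₀ x : Chart (OE A K) (alphaSq R q K u')) : LE (R * q * q) K)
        = betaHom (R * q) q K (x : LE (R * q) K))
    (φb₁ : Chart (OE A K) (alphaHom R q K u')⁻¹ →+* Chart (OE A K) (alphaSq R q K u')⁻¹)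
    (hφb₁ : ∀ x : Chart (OE A K) (alphaHom R q K u')⁻¹,
      ((φb₁ x : Chart (OE A K) (alphaSq R q K u')⁻¹) : LE (R * q * q) K)
        = betaHom (R * q) q K (x : LE (R * q) K))
    (Pc : Fin 3 → Ideal (Chart (OE A K) (alphaSq R q K u')))
    (pc : Fin 2 → Ideal (Chart (OE A K) (alphaHom R q K u')))
    (h : SqExit.Hyp φa₀ φb₀ (piC (alphaHom R q K u') ((q : ℕ) : OE A K))
      (pc 1) (pc 0) (Pc 1) (Pc 0) (Pc 2) (q - 1))
    (hpc1 : pc 1 = HypE.pInf A hq hA K hK R u' U hU)
    (hpc0 : pc 0 = HypE.pZero A hq hA K hK R hqR u' U hU)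
    (hPc2 : Pc 2 = HypE.PMid A hq hA K hK hζ R hqR u' U hU)
    (J' : LE R K) (hJ' : (J' : LaurentSeries K) = coeffEmb K jq)
    (hrel : J' * u' ^ 4 * (u' + 16) = (u' ^ 2 + 256 * u' + 4096) ^ 3)
    (P : Fin 3 → Ideal (Overlap (OE A K) (alphaSq R q K u'))) [hP : ∀ i, (P i).IsPrime]
    (p : Fin 2 → Ideal (Overlap (OE A K) (alphaHom R q K u')))
    (hc : ∀ i, (P i).comap (toOverlapZero (OE A K) (alphaSq R q K u')) = Pc i)
    (hcp : ∀ j, (p j).comap (toOverlapZero (OE A K) (alphaHom R q K u')) = pc j) :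
    (∀ M : Ideal (Chart (OE A K) (alphaSq R q K u')⁻¹), M.IsMaximal →
      Model.ChartInf.tInf (alphaSq R q K u') ∈ M → ∀ i j, i ≠ j →
      (P i).comap (toOverlapInf (OE A K) (alphaSq R q K u')) ≤ M →
      (P j).comap (toOverlapInf (OE A K) (alphaSq R q K u')) ≤ M → False) ∧
    (∀ M : Ideal (Chart (OE A K) (alphaSq R q K u')⁻¹), M.IsMaximal →
      Model.ChartInf.tInf (alphaSq R q K u') ∈ M →
      (P 2).comap (toOverlapInf (OE A K) (alphaSq R q K u')) ≤ M →
      ∃ δ ∈ (P 2).comap (toOverlapInf (OE A K) (alphaSq R q K u')), δ ≠ 0 ∧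
      ∃ a0 b0 A' E' : Chart (OE A K) (alphaSq R q K u')⁻¹,
        a0 * piC (alphaSq R q K u')⁻¹ ((q : ℕ) : OE A K) = b0 * δ ^ (q - 1) ∧
        b0 ∉ (P 2).comap (toOverlapInf (OE A K) (alphaSq R q K u')) ∧
        a0 * A' - b0 * E' ∈ (P 2).comap (toOverlapInf (OE A K) (alphaSq R q K u')) ∧ E' ∉ M) :=
  cusp_inf A hq hA K hK hζ R hqR u' U hU hu P p φa₀ hφa₀ φa₁ hφa₁ φb₀ hφb₀ φb₁ hφb₁
    (HypBridge.hyp_congr h rfl rfl (hcp 1).symm (hcp 0).symm (hc 1).symm (hc 0).symm (hc 2).symm)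
    ((hcp 1).trans hpc1) ((hcp 0).trans hpc0) ((hc 2).trans hPc2) J' hJ' hrel

end Fermat.Agent.S36.ECall.InfCusp
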