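import Mathlib
import Fermat.Agent.S36.SqChart.HypE
import Fermat.Agent.S34.Nodal.Defs

/-!
# S36, `E`-level call, binder group `Mult` (helper63): the generic multiplicity identity at `P₁₁`

The binder `hmult` of `KContractE.holds_of_hyp` (and of `KContractChart.kContract_of_hyp_mult`)
at `L := R * q`, `E := K`, `O := 𝒪_K = OE A K`, `π := q`, `u := alphaSq R q K u'`:

  `∃ δ ∈ P₁₁, ∃ a₀ b₀, a₀ ∉ P₁₁ ∧ a₀ * π = b₀ * δ ^ (q - 1)`,

for the middle prime `P₁₁ = HypE.PMid` of the level-`R q²` chart ring (object family of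
`SqChart/InstA`, `SqChart/HypE`).  It is read off from `InstA.package_alpha` (conjuncts 8 and 9):
`δ = β₂ β₁ u' - α₂ α₁ u'`.

* `delta`, `delta_spec` : the element `δ`, with `δ ∈ P₁₁` and the identity;
* `hmult_PMid` : the identity at the chart prime `HypE.PMid`;
* `hmult` : the literal binder, for any family `P` of primes of the overlap ring whose third
  member contracts to `HypE.PMid` on the chart `u`;
* `delta_mem_PMid` : `δ ∈ P₁₁`.

Variable block = `InstA`'s `section Package`, verbatim.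
-/

set_option autoImplicit false
set_option linter.unusedSectionVars false
set_option linter.unusedVariables false
set_option linter.style.haveILetI false
set_option synthInstance.maxHeartbeats 400000

open ModularCurve Polynomial

noncomputable section

namespace Fermat.Agent.S36.ECall.Mult

open Fermat.Agent.S30 Fermat.Agent.S30.CSide
open Fermat.Agent.S18.K1Defs Fermat.Agent.S18.K1Main
open Fermat.Agent.S34.TwoPrimesGauss Fermat.Agent.S34.TwoPrimesRank
open Fermat.Agent.S34.HauptU.Plug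
open Fermat.Agent.S36.SqChart Fermat.Agent.S36.MultPrimesGauss Fermat.Agent.S36.CycloBase
open Fermat.Agent.S36.SqRankE Fermat.Agent.S36.SqChart.InstA

local notation "Qb" => AlgebraicClosure ℚ

attribute [local instance] InstA.algL InstA.towerL

section Package

variable (A : ValuationSubring Qb) {q : ℕ} (hq : q.Prime) [NeZero q] (hA : A.LiesOverPrime q)
  (K : IntermediateField ℚ Qb) [FiniteDimensional ℚ K]
  (hK : A.inertiaSubgroupIn ℚ ≤ K.fixingSubgroup) {ζ : Qb} (hζ : IsPrimitiveRoot ζ q)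
  [IsDiscreteValuationRing (OE A K)] [IsDiscreteValuationRing (OE A (cyclo K ζ))]
  (R : ℕ) [NeZero R] (hqR : ¬ q ∣ R)
  (u' : LE R K) (U : LaurentSeries (OE A K))
  (hU : (u' : LaurentSeries K) = GaussDVR.iota (OE A K) K U)

variable [FiniteDimensional (IntermediateField.adjoin K {u'}) (LE R K)]
  (hy : IsIntegral (Algebra.adjoin (OE A K) {alphaSq R q K u'}) (betaSq R q K u'))
  (hprime : Prime (piC u' ((q : ℕ) : OE A K)))
  (hcop : IsCoprime (GaussDVR.rho (OE A K) U).order ((q * q : ℕ) : ℤ))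
  (hord : (GaussDVR.rho (OE A K) U).order ≠ 0)
  (hθ : QFormal.theta (GaussDVR.rho (OE A K) U) ≠ 0)
  (hfrob : qExpand (IsLocalRing.ResidueField (OE A K)) (q * q) (GaussDVR.rho (OE A K) U)
    = GaussDVR.rho (OE A K) U ^ (q * q))

/-- The element `δ = β₂ β₁ u' - α₂ α₁ u'` of the level-`R q²` chart ring. -/
def delta : Chart (OE A K) (alphaSq R q K u') :=
  (Subtype.mk (betaSq R q K u') hy : Chart (OE A K) (alphaSq R q K u'))
    - incl (alphaSq R q K) (alphaSq_algebraMap R q K (O := OE A K)) u' (polyChart u' X)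

include hprime hcop hord hθ hfrob in
/-- `δ` lies in the middle prime `P₁₁ = HypE.PMid`, and `a₀ * q = b₀ * δ ^ (q - 1)` for some
`a₀ ∉ P₁₁` (conjuncts 8 and 9 of `InstA.package_alpha`). -/
theorem delta_spec :
    delta A K R u' hy ∈ HypE.PMid A hq hA K hK hζ R hqR u' U hU ∧
      ∃ a₀ b₀ : Fermat.Agent.S34.Nodal.Chart (OE A K) (alphaSq R q K u'),
        a₀ ∉ HypE.PMid A hq hA K hK hζ R hqR u' U hU ∧
          a₀ * algebraMap (OE A K) (Fermat.Agent.S34.Nodal.Chart (OE A K) (alphaSq R q K u'))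
            ((q : ℕ) : OE A K) = b₀ * delta A K R u' hy ^ (q - 1) := by
  obtain ⟨-, -, -, -, -, -, -, ⟨t, ht, b, hb⟩, ⟨-, -, hδ⟩, -, -⟩ :=
    InstA.package_alpha A hq hA K hK hζ R hqR u' U hU hy hprime hcop hord hθ hfrob
  refine ⟨Ideal.mem_comap.mpr (Ideal.mem_span_singleton.mpr hδ), t, b,
    fun h => ht (Ideal.mem_span_singleton.mp (Ideal.mem_comap.mp h)), ?_⟩
  exact hb.trans (mul_comm _ _)

include hprime hcop hord hθ hfrob in
/-- `δ` lies in the middle prime. -/
theorem delta_mem_PMid :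
    delta A K R u' hy ∈ HypE.PMid A hq hA K hK hζ R hqR u' U hU :=
  (delta_spec A hq hA K hK hζ R hqR u' U hU hy hprime hcop hord hθ hfrob).1

include hy hprime hcop hord hθ hfrob in
/-- **The generic multiplicity identity at the middle prime** `P₁₁ = HypE.PMid` of the
level-`R q²` chart ring over `𝒪_K`: `a₀ * q = b₀ * δ ^ (q - 1)` with `δ ∈ P₁₁`, `a₀ ∉ P₁₁`. -/
theorem hmult_PMid :
    ∃ δ ∈ HypE.PMid A hq hA K hK hζ R hqR u' U hU,
      ∃ a₀ b₀ : Fermat.Agent.S34.Nodal.Chart (OE A K) (alphaSq R q K u'),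
        a₀ ∉ HypE.PMid A hq hA K hK hζ R hqR u' U hU ∧
          a₀ * algebraMap (OE A K) (Fermat.Agent.S34.Nodal.Chart (OE A K) (alphaSq R q K u'))
            ((q : ℕ) : OE A K) = b₀ * δ ^ (q - 1) :=
  ⟨delta A K R u' hy,
    (delta_spec A hq hA K hK hζ R hqR u' U hU hy hprime hcop hord hθ hfrob).1,
    (delta_spec A hq hA K hK hζ R hqR u' U hU hy hprime hcop hord hθ hfrob).2⟩

include hy hprime hcop hord hθ hfrob in
/-- **The binder `hmult` of `KContractE.holds_of_hyp`** (`L := R * q`, `E := K`, `O := OE A K`,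
`π := q`, `u := alphaSq R q K u'`), for any family `P` of ideals of the overlap ring whose third
member contracts to the middle prime `HypE.PMid` of the chart `u`. -/
theorem hmult
    (P : Fin 3 → Ideal (Fermat.Agent.S34.Nodal.Overlap (OE A K) (alphaSq R q K u')))
    (hP2 : (P 2).comap (Fermat.Agent.S34.Nodal.toOverlapZero (OE A K) (alphaSq R q K u'))
      = HypE.PMid A hq hA K hK hζ R hqR u' U hU) :
    ∃ δ ∈ (P 2).comap (Fermat.Agent.S34.Nodal.toOverlapZero (OE A K) (alphaSq R q K u')),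
      ∃ a₀ b₀ : Fermat.Agent.S34.Nodal.Chart (OE A K) (alphaSq R q K u'),
        a₀ ∉ (P 2).comap (Fermat.Agent.S34.Nodal.toOverlapZero (OE A K) (alphaSq R q K u')) ∧
          a₀ * algebraMap (OE A K) (Fermat.Agent.S34.Nodal.Chart (OE A K) (alphaSq R q K u'))
            ((q : ℕ) : OE A K) = b₀ * δ ^ (q - 1) := by
  rw [hP2]
  exact hmult_PMid A hq hA K hK hζ R hqR u' U hU hy hprime hcop hord hθ hfrob

end Package

end Fermat.Agent.S36.ECall.Mult

end
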