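import Mathlib
import Fermat.Agent.S36.SqChart.HypBridge
import Fermat.Agent.S36.TriDatumAlt
import Fermat.Agent.S36.SqInfMaps
import Fermat.Agent.S34.RootDatumAlpha

/-!
# S36, E-level call `ECall/Obj`: the objects of `KContractE.holds_of_hyp` at family 1

The binders `u hu fin u1 hu1 fin P hP p hp φa₀ hφa₀ φb₀ hφb₀` of `KContractE.holds_of_hyp` at
`L := R * q`, `E := K`, `O := OE A K` (instances `InstA.algL`, `InstA.towerL`),
`u := alphaSq R q K u'`, `u1 := alphaHom R q K u'`, for a GENERIC coordinate `u' : LE R K`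
(variable block of `SqChart/InstA`, `section Package`), plus `hρ : ρ U ≠ 0`
(`rho_ne_zero` : from the coordinate fact `hord` of the block).

* `P : Fin 3 → Ideal (Overlap 𝒪_K u)` := `TriDatumAlt.Pov` at the `InstA` objects
  (`σ₁z = σ₁ ∘ w₁`, `σ₀ = InstA.sig0`, `σm = InstA.sigM`, `z₀ = CycloBase.zetaU`); prime.
* `p : Fin 2 → Ideal (Overlap 𝒪_K u1)` := `SqInfMaps.pov` at the same objects; prime.
* index convention: `0` = zero component, `1` = component at infinity, `2` = middle component.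
* the five contractions to the charts of `u`, `u1`, each in two forms: the `HypE` names
  (`comap_P0 / comap_P1 / comap_P2 / comap_p0 / comap_p1 : … = HypE.PZero / PInf / PMid / pZero /
  pInf`) and the `SqAbs` kernels for ARBITRARY proofs of their side conditions
  (`comap_P0_ker / comap_P1_ker / comap_P2_centre / comap_p0_ker / comap_p1_ker`).
* `φa₀ := HypE.alphaC A K R u'`, `φb₀ := HypE.betaC A hq K R hqR u' hwu`, with `coe_phiA0`,
  `coe_phiB0` (the binders `hφa₀`, `hφb₀`).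
* `hyp` : the binder `h` (`SqExit.Hyp` at the contractions of `P`, `p`, `k = q - 1`).
* `transcendental_u1 / _u`, `finiteDimensional_u1 / _u` : the binders `hu1`, `hu` and the two
  finiteness instances, from `Transcendental K u'` and `[FiniteDimensional K⟮u'⟯ (LE R K)]`.

The chart maps at infinity `φa₁`, `φb₁` are in `ECall/ObjInf`.
-/

set_option autoImplicit false
set_option linter.unusedSectionVars false
set_option linter.unusedVariables false
set_option linter.style.haveILetI false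
set_option synthInstance.maxHeartbeats 400000
set_option maxHeartbeats 1000000

open ModularCurve Polynomial

noncomputable section

namespace Fermat.Agent.S36.ECall.Obj

open Fermat.Agent.S30
open Fermat.Agent.S18.K1Defs Fermat.Agent.S18.K1Main
open Fermat.Agent.S34 Fermat.Agent.S34.TwoPrimesGauss Fermat.Agent.S34.TwoPrimesRank
open Fermat.Agent.S34.HauptU.Plug
open Fermat.Agent.S36 Fermat.Agent.S36.SqChart Fermat.Agent.S36.MultPrimesGauss
open Fermat.Agent.S36.CycloBase Fermat.Agent.S36.SqRankE Fermat.Agent.S36.SqChart.InstA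

local notation "Qb" => AlgebraicClosure ℚ

/-! ### Finiteness along `α₂` (no hypothesis `ℓ ∤ M`) -/

section Fin

open IntermediateField

variable (M ℓ : ℕ) [NeZero M] [NeZero ℓ] (E : IntermediateField ℚ Qb)

set_option maxHeartbeats 4000000 in
/-- `LE (M ℓ²) E` is finite over `E(α₂ v)` when `LE (M ℓ) E` is finite over `E(v)`. -/
theorem finite_adjoin_alpha_sq (hℓ : ℓ.Prime) (v : LE (M * ℓ) E)
    [FiniteDimensional (IntermediateField.adjoin E {v}) (LE (M * ℓ) E)] :
    FiniteDimensional (IntermediateField.adjoin E {alphaHom (M * ℓ) ℓ E v})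
      (LE (M * ℓ * ℓ) E) := by
  letI algLL : Algebra (LE (M * ℓ) E) (LE (M * ℓ * ℓ) E) := (alphaHom (M * ℓ) ℓ E).toAlgebra
  haveI hfin : Module.Finite (LE (M * ℓ) E) (LE (M * ℓ * ℓ) E) := finite_alpha_sq M ℓ E hℓ
  have hmap : (E⟮v⟯).map (heckeAlphaBar E (M * ℓ) ℓ) = E⟮alphaHom (M * ℓ) ℓ E v⟯ := by
    rw [IntermediateField.adjoin_map, Set.image_singleton]
    rfl
  have hmem : ∀ x : E⟮v⟯,
      heckeAlphaBar E (M * ℓ) ℓ (x : LE (M * ℓ) E) ∈ E⟮alphaHom (M * ℓ) ℓ E v⟯ := by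
    intro x
    rw [← hmap]
    exact (IntermediateField.mem_map _).mpr ⟨x, x.2, rfl⟩
  have hbij : Function.Bijective (fun x : E⟮v⟯ =>
      (⟨heckeAlphaBar E (M * ℓ) ℓ (x : LE (M * ℓ) E), hmem x⟩ :
        E⟮alphaHom (M * ℓ) ℓ E v⟯)) := by
    constructor
    · intro x y hxy
      have h := congrArg (fun z : E⟮alphaHom (M * ℓ) ℓ E v⟯ => (z : LE (M * ℓ * ℓ) E)) hxy
      exact Subtype.ext ((heckeAlphaBar E (M * ℓ) ℓ).toRingHom.injective h)
    · intro y
      have hy : (y : LE (M * ℓ * ℓ) E) ∈ (E⟮v⟯).map (heckeAlphaBar E (M * ℓ) ℓ) := by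
        rw [hmap]; exact y.2
      obtain ⟨x, hx, hxy⟩ := (IntermediateField.mem_map _).mp hy
      exact ⟨⟨x, hx⟩, Subtype.ext hxy⟩
  have hrank : Module.rank E⟮v⟯ (LE (M * ℓ * ℓ) E) =
      Module.rank E⟮alphaHom (M * ℓ) ℓ E v⟯ (LE (M * ℓ * ℓ) E) :=
    rank_eq_of_equiv_equiv _ (AddEquiv.refl _) hbij (fun r m => by
      rw [AddEquiv.refl_apply, AddEquiv.refl_apply, IntermediateField.smul_def,
        IntermediateField.smul_def]
      rfl)
  have h1 : Module.finrank E⟮v⟯ (LE (M * ℓ * ℓ) E) =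
      Module.finrank E⟮alphaHom (M * ℓ) ℓ E v⟯ (LE (M * ℓ * ℓ) E) :=
    congrArg Cardinal.toNat hrank
  have h2 := Module.finrank_mul_finrank E⟮v⟯ (LE (M * ℓ) E) (LE (M * ℓ * ℓ) E)
  have hpos1 : 0 < Module.finrank E⟮v⟯ (LE (M * ℓ) E) := Module.finrank_pos
  have hpos2 : 0 < Module.finrank (LE (M * ℓ) E) (LE (M * ℓ * ℓ) E) := Module.finrank_pos
  apply Module.finite_of_finrank_pos
  rw [← h1, ← h2]
  exact Nat.mul_pos hpos1 hpos2

end Fin

attribute [local instance] InstA.algL InstA.towerL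

section Package

variable (A : ValuationSubring Qb) {q : ℕ} (hq : q.Prime) [NeZero q] (hA : A.LiesOverPrime q)
  (K : IntermediateField ℚ Qb) [FiniteDimensional ℚ K]
  (hK : A.inertiaSubgroupIn ℚ ≤ K.fixingSubgroup) {ζ : Qb} (hζ : IsPrimitiveRoot ζ q)
  [IsDiscreteValuationRing (OE A K)] [IsDiscreteValuationRing (OE A (cyclo K ζ))]
  (R : ℕ) [NeZero R] (hqR : ¬ q ∣ R)
  (u' : LE R K) (U : LaurentSeries (OE A K))
  (hU : (u' : LaurentSeries K) = GaussDVR.iota (OE A K) K U)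

local notation "ϖ" => ((q : ℕ) : OE A K)
local notation "a1" => alphaHom R q K
local notation "b1" => betaHom R q K
local notation "a2" => alphaHom (R * q) q K
local notation "b2" => betaHom (R * q) q K
local notation "σ1" => sigmaHom (R * q) K
local notation "σ2" => sigmaHom (R * q * q) K
local notation "σz" => RingHom.comp (sigmaHom (R * q) K) (InstA.w1 hq K R hqR)
local notation "ψ" => inclOE A (le_cyclo K ζ)
local notation "φ" => inclE (le_cyclo K ζ)
local notation "z₀" => zetaU A hq K hζ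

/-! ### The binders `hu1`, `hu` and the finiteness instances -/

/-- **`hu1`**. -/
theorem transcendental_u1 (hu' : Transcendental K u') :
    Transcendental K (alphaHom R q K u') :=
  Fermat.Agent.S34.RootDatumAlpha.transcendental_alpha R q K u' hu'

/-- **`hu`**. -/
theorem transcendental_u (hu' : Transcendental K u') :
    Transcendental K (alphaSq R q K u') :=
  Fermat.Agent.S34.RootDatumAlpha.transcendental_alpha (R * q) q K (alphaHom R q K u')
    (transcendental_u1 K R u' hu')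

include hq hqR in
/-- The finiteness instance of `u1 = α₁ u'`. -/
theorem finiteDimensional_u1 [FiniteDimensional (IntermediateField.adjoin K {u'}) (LE R K)] :
    FiniteDimensional (IntermediateField.adjoin K {alphaHom R q K u'}) (LE (R * q) K) :=
  Fermat.Agent.S34.RootDatumAlpha.finite_adjoin_alpha R q K hq hqR u'

include hq hqR in
/-- The finiteness instance of `u = α₂ (α₁ u')`. -/
theorem finiteDimensional_u [FiniteDimensional (IntermediateField.adjoin K {u'}) (LE R K)] :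
    FiniteDimensional (IntermediateField.adjoin K {alphaSq R q K u'}) (LE (R * q * q) K) :=
  haveI := finiteDimensional_u1 hq K R hqR u'
  finite_adjoin_alpha_sq R q K hq (alphaHom R q K u')

/-! ### Side conditions of the `SqAbs` block at `σ₁z = σ₁ ∘ w₁` -/

/-- `hσ₁zO`. -/
theorem sz_algebraMap (r : OE A K) :
    σz (algebraMap (OE A K) (LE (R * q) K) r) = HahnSeries.C (algebraMap (OE A K) K r) := by
  show sigmaHom (R * q) K (wHom R q K hq hqR (algebraMap (OE A K) (LE (R * q) K) r)) = _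
  rw [wHom_algebraMap R q K hq hqR (O := OE A K)]
  exact sigmaHom_algebraMap (R * q) K (O := OE A K) r

/-- `hσ₁zfrac`. -/
theorem sz_mem_fracField (x : LE (R * q) K) : σz x ∈ GaussDVR.fracField (OE A K) K :=
  sigmaHom_mem_fracField (R * q) K A _

/-- `hσ₁zα`. -/
theorem sz_alpha (x : LE R K) : σz (a1 x) = qExpand K q (σ1 (a1 x)) :=
  sigmaHom_wHom_alpha R q K hq hqR x

/-- `hσ₀α₂`. -/
theorem sig0_alpha_sz (f : LE (R * q) K) : sig0 hq K R hqR (a2 f) = qExpand K q (σz f) :=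
  sig0_alpha hq K R hqR f

/-- `hρ` from the coordinate fact `hord`. -/
theorem rho_ne_zero (hord : (GaussDVR.rho (OE A K) U).order ≠ 0) :
    GaussDVR.rho (OE A K) U ≠ 0 := fun h => hord (by rw [h]; exact HahnSeries.order_zero)

variable (hρ : GaussDVR.rho (OE A K) U ≠ 0)

/-! ### The primes on the overlap charts -/

/-- **`P`** : the three vertical primes of level `R q²` on the overlap chart of
`u = α₂ (α₁ u')` (`0` = zero component, `1` = component at infinity, `2` = middle component). -/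
def P : Fin 3 → Ideal (Nodal.Overlap (OE A K) (alphaSq R q K u')) :=
  TriDatumAlt.Pov ψ φ (inclE_algebraMap A (le_cyclo K ζ)) ϖ (irreducible_q A hq hA K hK) q a1 σ1
    u' U (HypE.sigma1_u A K R u' U hU) σz (sz_alpha hq K R hqR) a2 σ2
    (sigmaHom_algebraMap (R * q * q) K (O := OE A K)) (sigmaHom_mem_fracField (R * q * q) K A)
    (HypE.sigma_alpha K R) (sig0 hq K R hqR) (sig0_algebraMap hq K R hqR A)
    (sig0_mem_fracField hq K R hqR A) (sig0_alpha_sz hq K R hqR)
    (sigM A hq hA K hζ R hqR) (sigM_algebraMap A hq hA K hζ R hqR)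
    (sigM_mem_fracField A hq hA K hζ R hqR) z₀ (irreducible_zeta_sub_one A hq hA K hK hζ)
    (sigM_alpha A hq hA K hζ R hqR) hρ

/-- `P` is `TriDatumAlt.Pov` at the `InstA` objects. -/
theorem P_eq :
    P A hq hA K hK hζ R hqR u' U hU hρ =
      TriDatumAlt.Pov ψ φ (inclE_algebraMap A (le_cyclo K ζ)) ϖ (irreducible_q A hq hA K hK) q a1
        σ1 u' U (HypE.sigma1_u A K R u' U hU) σz (sz_alpha hq K R hqR) a2 σ2
        (sigmaHom_algebraMap (R * q * q) K (O := OE A K))
        (sigmaHom_mem_fracField (R * q * q) K A)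
        (HypE.sigma_alpha K R) (sig0 hq K R hqR) (sig0_algebraMap hq K R hqR A)
        (sig0_mem_fracField hq K R hqR A) (sig0_alpha_sz hq K R hqR)
        (sigM A hq hA K hζ R hqR) (sigM_algebraMap A hq hA K hζ R hqR)
        (sigM_mem_fracField A hq hA K hζ R hqR) z₀ (irreducible_zeta_sub_one A hq hA K hK hζ)
        (sigM_alpha A hq hA K hζ R hqR) hρ :=
  rfl

/-- **`hP`**. -/
instance isPrime_P (i : Fin 3) : (P A hq hA K hK hζ R hqR u' U hU hρ i).IsPrime :=
  TriDatumAlt.isPrime_Pov ψ φ (inclE_algebraMap A (le_cyclo K ζ)) ϖ (irreducible_q A hq hA K hK)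
    q a1 σ1 u' U (HypE.sigma1_u A K R u' U hU) σz (sz_alpha hq K R hqR) a2 σ2
    (sigmaHom_algebraMap (R * q * q) K (O := OE A K)) (sigmaHom_mem_fracField (R * q * q) K A)
    (HypE.sigma_alpha K R) (sig0 hq K R hqR) (sig0_algebraMap hq K R hqR A)
    (sig0_mem_fracField hq K R hqR A) (sig0_alpha_sz hq K R hqR)
    (sigM A hq hA K hζ R hqR) (sigM_algebraMap A hq hA K hζ R hqR)
    (sigM_mem_fracField A hq hA K hζ R hqR) z₀ (irreducible_zeta_sub_one A hq hA K hK hζ)
    (sigM_alpha A hq hA K hζ R hqR) hρ i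

/-- **`p`** : the two vertical primes of level `R q` on the overlap chart of `u1 = α₁ u'`
(`0` = zero component, `1` = component at infinity). -/
def p : Fin 2 → Ideal (Nodal.Overlap (OE A K) (alphaHom R q K u')) :=
  SqInfMaps.pov ϖ (irreducible_q A hq hA K hK) q a1 σ1
    (sigmaHom_algebraMap (R * q) K (O := OE A K)) (sigmaHom_mem_fracField (R * q) K A) u' U
    (HypE.sigma1_u A K R u' U hU) σz (sz_algebraMap A hq K R hqR) (sz_mem_fracField A hq K R hqR)
    (sz_alpha hq K R hqR) hρ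

/-- `p` is `SqInfMaps.pov` at the `InstA` objects. -/
theorem p_eq :
    p A hq hA K hK R hqR u' U hU hρ =
      SqInfMaps.pov ϖ (irreducible_q A hq hA K hK) q a1 σ1
        (sigmaHom_algebraMap (R * q) K (O := OE A K)) (sigmaHom_mem_fracField (R * q) K A) u' U
        (HypE.sigma1_u A K R u' U hU) σz (sz_algebraMap A hq K R hqR)
        (sz_mem_fracField A hq K R hqR) (sz_alpha hq K R hqR) hρ :=
  rfl

/-- **`hp`**. -/
instance isPrime_p (j : Fin 2) : (p A hq hA K hK R hqR u' U hU hρ j).IsPrime :=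
  SqInfMaps.isPrime_pov ϖ (irreducible_q A hq hA K hK) q a1 σ1
    (sigmaHom_algebraMap (R * q) K (O := OE A K)) (sigmaHom_mem_fracField (R * q) K A) u' U
    (HypE.sigma1_u A K R u' U hU) σz (sz_algebraMap A hq K R hqR) (sz_mem_fracField A hq K R hqR)
    (sz_alpha hq K R hqR) hρ j

/-! ### The contractions to the charts of `u`, `u1`: `SqAbs` kernels, any proofs -/

/-- `(p 1) ∩ Chart(u1) = ker rI1` (any proofs of the side conditions). -/
theorem comap_p1_ker (hϖ' : Irreducible ϖ)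
    (h1 : ∀ r : OE A K, σ1 (algebraMap (OE A K) (LE (R * q) K) r)
      = HahnSeries.C (algebraMap (OE A K) K r))
    (h2 : ∀ x : LE (R * q) K, σ1 x ∈ GaussDVR.fracField (OE A K) K)
    (h3 : σ1 (a1 u') = GaussDVR.iota (OE A K) K U) :
    (p A hq hA K hK R hqR u' U hU hρ 1).comap (Nodal.toOverlapZero (OE A K) (alphaHom R q K u'))
      = RingHom.ker (SqAbs.rI1 ϖ hϖ' a1 σ1 h1 h2 u' U h3) :=
  SqInfMaps.comap_zero_povInf ϖ hϖ' a1 σ1 h1 h2 u' U h3 hρ

/-- `(p 0) ∩ Chart(u1) = ker rZ1` at `σ₁z = σ₁ ∘ w₁` (any proofs of the side conditions). -/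
theorem comap_p0_ker (hϖ' : Irreducible ϖ)
    (h3 : σ1 (a1 u') = GaussDVR.iota (OE A K) K U)
    (g1 : ∀ r : OE A K, σz (algebraMap (OE A K) (LE (R * q) K) r)
      = HahnSeries.C (algebraMap (OE A K) K r))
    (g2 : ∀ x : LE (R * q) K, σz x ∈ GaussDVR.fracField (OE A K) K)
    (g3 : ∀ x : LE R K, σz (a1 x) = qExpand K q (σ1 (a1 x))) :
    (p A hq hA K hK R hqR u' U hU hρ 0).comap (Nodal.toOverlapZero (OE A K) (alphaHom R q K u'))
      = RingHom.ker (SqAbs.rZ1 ϖ hϖ' q a1 σ1 u' U h3 σz g1 g2 g3) :=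
  SqInfMaps.comap_zero_povZero ϖ hϖ' q a1 σ1 u' U h3 σz g1 g2 g3 hρ

/-- `(P 1) ∩ Chart(u) = ker rI2` (any proofs of the side conditions). -/
theorem comap_P1_ker (hϖ' : Irreducible ϖ)
    (h3 : σ1 (a1 u') = GaussDVR.iota (OE A K) K U)
    (k1 : ∀ r : OE A K, σ2 (algebraMap (OE A K) (LE (R * q * q) K) r)
      = HahnSeries.C (algebraMap (OE A K) K r))
    (k2 : ∀ x : LE (R * q * q) K, σ2 x ∈ GaussDVR.fracField (OE A K) K)
    (k3 : ∀ f : LE (R * q) K, σ2 (a2 f) = σ1 f) :
    (P A hq hA K hK hζ R hqR u' U hU hρ 1).comap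
        (Nodal.toOverlapZero (OE A K) (alphaSq R q K u'))
      = RingHom.ker (SqAbs.rI2 ϖ hϖ' a1 σ1 u' U h3 a2 σ2 k1 k2 k3) :=
  TriDatumAlt.comap_zero_PovInf ϖ hϖ' a1 σ1 u' U h3 a2 σ2 k1 k2 k3 hρ

/-- `(P 0) ∩ Chart(u) = ker rZ2` at `σ₁z = σ₁ ∘ w₁`, `σ₀ = InstA.sig0` (any proofs). -/
theorem comap_P0_ker (hϖ' : Irreducible ϖ)
    (h3 : σ1 (a1 u') = GaussDVR.iota (OE A K) K U)
    (g3 : ∀ x : LE R K, σz (a1 x) = qExpand K q (σ1 (a1 x)))
    (k3 : ∀ f : LE (R * q) K, σ2 (a2 f) = σ1 f)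
    (m1 : ∀ r : OE A K, sig0 hq K R hqR (algebraMap (OE A K) (LE (R * q * q) K) r)
      = HahnSeries.C (algebraMap (OE A K) K r))
    (m2 : ∀ x : LE (R * q * q) K, sig0 hq K R hqR x ∈ GaussDVR.fracField (OE A K) K)
    (m3 : ∀ f : LE (R * q) K, sig0 hq K R hqR (a2 f) = qExpand K q (σz f)) :
    (P A hq hA K hK hζ R hqR u' U hU hρ 0).comap
        (Nodal.toOverlapZero (OE A K) (alphaSq R q K u'))
      = RingHom.ker (SqAbs.rZ2 ϖ hϖ' q a1 σ1 u' U h3 σz g3 a2 σ2 k3 (sig0 hq K R hqR) m1 m2 m3) :=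
  TriDatumAlt.comap_zero_PovZero ϖ hϖ' q a1 σ1 u' U h3 σz g3 a2 σ2 k3 (sig0 hq K R hqR) m1 m2 m3
    hρ

/-- `(P 2) ∩ Chart(u) = centreM tM lamV` at `σm = InstA.sigM` (any proofs). -/
theorem comap_P2_centre
    (h3 : σ1 (a1 u') = GaussDVR.iota (OE A K) K U)
    (k3 : ∀ f : LE (R * q) K, σ2 (a2 f) = σ1 f)
    (n1 : ∀ r : OE A K, sigM A hq hA K hζ R hqR (algebraMap (OE A K) (LE (R * q * q) K) r)
      = HahnSeries.C (algebraMap (OE A (cyclo K ζ)) (cyclo K ζ) (ψ r)))
    (n2 : ∀ x : LE (R * q * q) K,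
      sigM A hq hA K hζ R hqR x ∈ GaussDVR.fracField (OE A (cyclo K ζ)) (cyclo K ζ))
    (hz₀' : Irreducible (((z₀ : (OE A (cyclo K ζ))ˣ) : OE A (cyclo K ζ)) - 1))
    (n3 : ∀ f : LE (R * q) K, sigM A hq hA K hζ R hqR (a2 f) = coeffMap φ (σ1 f)) :
    (P A hq hA K hK hζ R hqR u' U hU hρ 2).comap
        (Nodal.toOverlapZero (OE A K) (alphaSq R q K u'))
      = SqGlue.centreM
          (SqAbs.tM ψ φ (inclE_algebraMap A (le_cyclo K ζ)) a1 σ1 u' U h3 a2 σ2 k3
            (sigM A hq hA K hζ R hqR) n1 n2 z₀ hz₀' n3)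
          (GaussDVR.unif (cyclo K ζ)
            (((z₀ : (OE A (cyclo K ζ))ˣ) : OE A (cyclo K ζ)) - 1)) :=
  TriDatumAlt.comap_zero_PovMid ψ φ (inclE_algebraMap A (le_cyclo K ζ)) a1 σ1 u' U h3 a2 σ2 k3
    (sigM A hq hA K hζ R hqR) n1 n2 z₀ hz₀' n3 hρ

/-! ### The contractions to the charts of `u`, `u1`: the `HypE` names -/

/-- `(p 1) ∩ Chart(u1) = HypE.pInf`. -/
theorem comap_p1 :
    (p A hq hA K hK R hqR u' U hU hρ 1).comap (Nodal.toOverlapZero (OE A K) (alphaHom R q K u'))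
      = HypE.pInf A hq hA K hK R u' U hU :=
  comap_p1_ker A hq hA K hK R hqR u' U hU hρ (irreducible_q A hq hA K hK)
    (sigmaHom_algebraMap (R * q) K (O := OE A K)) (sigmaHom_mem_fracField (R * q) K A)
    (HypE.sigma1_u A K R u' U hU)

/-- `(p 0) ∩ Chart(u1) = HypE.pZero`. -/
theorem comap_p0 :
    (p A hq hA K hK R hqR u' U hU hρ 0).comap (Nodal.toOverlapZero (OE A K) (alphaHom R q K u'))
      = HypE.pZero A hq hA K hK R hqR u' U hU :=
  (comap_p0_ker A hq hA K hK R hqR u' U hU hρ (irreducible_q A hq hA K hK)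
    (HypE.sigma1_u A K R u' U hU) (sz_algebraMap A hq K R hqR) (sz_mem_fracField A hq K R hqR)
    (sz_alpha hq K R hqR)).trans
    (HypBridge.pZero_eq A hq hA K hK R hqR u' U hU (irreducible_q A hq hA K hK)
      (HypE.sigma1_u A K R u' U hU) (sz_algebraMap A hq K R hqR) (sz_mem_fracField A hq K R hqR)
      (sz_alpha hq K R hqR)).symm

/-- `(P 1) ∩ Chart(u) = HypE.PInf`. -/
theorem comap_P1 :
    (P A hq hA K hK hζ R hqR u' U hU hρ 1).comap
        (Nodal.toOverlapZero (OE A K) (alphaSq R q K u'))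
      = HypE.PInf A hq hA K hK R u' U hU :=
  comap_P1_ker A hq hA K hK hζ R hqR u' U hU hρ (irreducible_q A hq hA K hK)
    (HypE.sigma1_u A K R u' U hU) (sigmaHom_algebraMap (R * q * q) K (O := OE A K))
    (sigmaHom_mem_fracField (R * q * q) K A) (HypE.sigma_alpha K R)

/-- `(P 0) ∩ Chart(u) = HypE.PZero`. -/
theorem comap_P0 :
    (P A hq hA K hK hζ R hqR u' U hU hρ 0).comap
        (Nodal.toOverlapZero (OE A K) (alphaSq R q K u'))
      = HypE.PZero A hq hA K hK R hqR u' U hU :=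
  comap_P0_ker A hq hA K hK hζ R hqR u' U hU hρ (irreducible_q A hq hA K hK)
    (HypE.sigma1_u A K R u' U hU) (sz_alpha hq K R hqR) (HypE.sigma_alpha K R)
    (sig0_algebraMap hq K R hqR A) (sig0_mem_fracField hq K R hqR A) (sig0_alpha_sz hq K R hqR)

/-- `(P 2) ∩ Chart(u) = HypE.PMid`. -/
theorem comap_P2 :
    (P A hq hA K hK hζ R hqR u' U hU hρ 2).comap
        (Nodal.toOverlapZero (OE A K) (alphaSq R q K u'))
      = HypE.PMid A hq hA K hK hζ R hqR u' U hU :=
  comap_P2_centre A hq hA K hK hζ R hqR u' U hU hρ (HypE.sigma1_u A K R u' U hU)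
    (HypE.sigma_alpha K R) (sigM_algebraMap A hq hA K hζ R hqR)
    (sigM_mem_fracField A hq hA K hζ R hqR) (irreducible_zeta_sub_one A hq hA K hK hζ)
    (sigM_alpha A hq hA K hζ R hqR)

/-! ### The chart maps `φa₀`, `φb₀` and the binder `h` -/

/-- **`hφa₀`** for `φa₀ := HypE.alphaC A K R u'`. -/
theorem coe_phiA0 (x : Nodal.Chart (OE A K) (alphaHom R q K u')) :
    ((HypE.alphaC A K R u' x : Nodal.Chart (OE A K) (alphaSq R q K u')) : LE (R * q * q) K)
      = alphaHom (R * q) q K (x : LE (R * q) K) := rfl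

variable (hwu : IsIntegral (Algebra.adjoin (OE A K) {alphaHom R q K u'})
    (wHom R q K hq hqR (alphaHom R q K u')))

/-- **`hφb₀`** for `φb₀ := HypE.betaC A hq K R hqR u' hwu`. -/
theorem coe_phiB0 (x : Nodal.Chart (OE A K) (alphaHom R q K u')) :
    ((HypE.betaC A hq K R hqR u' hwu x : Nodal.Chart (OE A K) (alphaSq R q K u')) :
        LE (R * q * q) K)
      = betaHom (R * q) q K (x : LE (R * q) K) := rfl

variable [FiniteDimensional (IntermediateField.adjoin K {u'}) (LE R K)]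
  (hprime : Prime (piC u' ((q : ℕ) : OE A K)))
  (hcop : IsCoprime (GaussDVR.rho (OE A K) U).order ((q : ℕ) : ℤ))
  (hord : (GaussDVR.rho (OE A K) U).order ≠ 0)
  (hθ : QFormal.theta (GaussDVR.rho (OE A K) U) ≠ 0)
  (hfrob : qExpand (IsLocalRing.ResidueField (OE A K)) q (GaussDVR.rho (OE A K) U)
    = GaussDVR.rho (OE A K) U ^ q)

include hprime hcop hord hθ hfrob in
/-- **The binder `h` of `KContractE.holds_of_hyp`** at the objects of this file
(`π = q`, `k = q - 1`): `HypE.hyp` read on the contractions of `P`, `p`. -/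
theorem hyp :
    SqExit.Hyp (HypE.alphaC A K R u') (HypE.betaC A hq K R hqR u' hwu)
      (piC (alphaHom R q K u') ((q : ℕ) : OE A K))
      ((p A hq hA K hK R hqR u' U hU hρ 1).comap
        (Nodal.toOverlapZero (OE A K) (alphaHom R q K u')))
      ((p A hq hA K hK R hqR u' U hU hρ 0).comap
        (Nodal.toOverlapZero (OE A K) (alphaHom R q K u')))
      ((P A hq hA K hK hζ R hqR u' U hU hρ 1).comap
        (Nodal.toOverlapZero (OE A K) (alphaSq R q K u')))
      ((P A hq hA K hK hζ R hqR u' U hU hρ 0).comap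
        (Nodal.toOverlapZero (OE A K) (alphaSq R q K u')))
      ((P A hq hA K hK hζ R hqR u' U hU hρ 2).comap
        (Nodal.toOverlapZero (OE A K) (alphaSq R q K u')))
      (q - 1) :=
  @HypBridge.hyp_congr _ _ _ _ _ _ _ _ _ _ _ _ _ _ _ _ _ _ _ _
    (HypE.hyp A hq hA K hK hζ R hqR u' U hU hwu hprime hcop hord hθ hfrob)
    rfl rfl (comap_p1 A hq hA K hK R hqR u' U hU hρ).symm
    (comap_p0 A hq hA K hK R hqR u' U hU hρ).symm
    (comap_P1 A hq hA K hK hζ R hqR u' U hU hρ).symm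
    (comap_P0 A hq hA K hK hζ R hqR u' U hU hρ).symm
    (comap_P2 A hq hA K hK hζ R hqR u' U hU hρ).symm

end Package

end Fermat.Agent.S36.ECall.Obj
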