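import Mathlib
import Fermat.Agent.S36.TriDatumAlt
import Fermat.Agent.S36.SqInfMaps
import Fermat.Agent.S36.SqInstW
import Fermat.Agent.S36.SqChart.HypE

/-!
# S36, E-level call `ECall/Obj`, Alt twin: the Overlap primes `P`, `p` and their contractions

The binders `P hP p hp` of `KContractE.holds_of_hyp` / `KInst.holds_of_inputs` at `L := R * q`,
`E := K`, `O := OE A K` (instances `InstA.algL`, `InstA.towerL`), `u := alphaSq R q K u'`,
`u1 := alphaHom R q K u'`, for a GENERIC coordinate `u' : LE R K` with `ρ U ≠ 0`, together with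
the five contraction identities `hP0 hP1 hP2 hp0 hp1` of `KInst.holds_of_inputs`:

* `P := TriDatumAlt.Pov` and `p := SqInfMaps.pov` at the objects of `SqChart/InstA`
  (`σ₁z = σ₁ ∘ InstA.w1`, `σ₀ = InstA.sig0`, `σm = InstA.sigM`, `z₀ = CycloBase.zetaU`);
  index convention `0 ↦` zero component, `1 ↦` component at infinity, `2 ↦` middle component;
* `isPrime_P` (instance), `isPrime_p`;
* `comap_P0`, `comap_P1`, `comap_P2`, `comap_p0`, `comap_p1` : the contractions to the charts of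
  `u`, `u1` are `HypE.PZero`, `HypE.PInf`, `HypE.PMid`, `HypE.pZero`, `HypE.pInf`;
* `comap_P0_ker`, `comap_P1_ker`, `comap_P2_centre`, `comap_p0_ker`, `comap_p1_ker` : the same in
  the `SqAbs` vocabulary, for ARBITRARY proofs of the side conditions;
* `rho_ne_zero_of_order` : `hρ` from the coordinate fact `hord`.

Same names as the primary `ECall/Obj` (other namespace); nothing here depends on it.
-/

set_option autoImplicit false
set_option linter.unusedSectionVars false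
set_option linter.unusedVariables false
set_option linter.style.haveILetI false
set_option synthInstance.maxHeartbeats 400000

open ModularCurve Polynomial

noncomputable section

namespace Fermat.Agent.S36.ECall.ObjAlt

open Fermat.Agent.S30 Fermat.Agent.S30.CSide
open Fermat.Agent.S18.K1Defs Fermat.Agent.S18.K1Main
open Fermat.Agent.S34 Fermat.Agent.S34.TwoPrimesGauss Fermat.Agent.S34.TwoPrimesRank
open Fermat.Agent.S34.HauptU.Plug
open Fermat.Agent.S36.SqChart Fermat.Agent.S36.MultPrimesGauss Fermat.Agent.S36.CycloBase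
open Fermat.Agent.S36.SqRankE Fermat.Agent.S36.SqChart.InstA

local notation "Qb" => AlgebraicClosure ℚ

attribute [local instance] InstA.algL InstA.towerL

section Main

variable (A : ValuationSubring Qb) {q : ℕ} (hq : q.Prime) [NeZero q] (hA : A.LiesOverPrime q)
  (K : IntermediateField ℚ Qb) [FiniteDimensional ℚ K]
  (hK : A.inertiaSubgroupIn ℚ ≤ K.fixingSubgroup) {ζ : Qb} (hζ : IsPrimitiveRoot ζ q)
  [IsDiscreteValuationRing (OE A K)] [IsDiscreteValuationRing (OE A (cyclo K ζ))]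
  (R : ℕ) [NeZero R] (hqR : ¬ q ∣ R)
  (u' : LE R K) (U : LaurentSeries (OE A K))
  (hU : (u' : LaurentSeries K) = GaussDVR.iota (OE A K) K U)
  (hρ : GaussDVR.rho (OE A K) U ≠ 0)

/-- `hρ` from the coordinate fact `hord` of `HypE.hyp`. -/
theorem rho_ne_zero_of_order (hord : (GaussDVR.rho (OE A K) U).order ≠ 0) :
    GaussDVR.rho (OE A K) U ≠ 0 := by
  intro h
  exact hord (by rw [h]; exact HahnSeries.order_zero)

local notation "ϖ" => ((q : ℕ) : OE A K)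
local notation "hϖ" => InstA.irreducible_q A hq hA K hK
local notation "ψ" => inclOE A (le_cyclo K ζ)
local notation "φ" => inclE (le_cyclo K ζ)
local notation "hψφ" => inclE_algebraMap A (le_cyclo K ζ)
local notation "α₁" => alphaHom R q K
local notation "β₁" => betaHom R q K
local notation "σ₁" => sigmaHom (R * q) K
local notation "hσ₁O" => sigmaHom_algebraMap (R * q) K (O := OE A K)
local notation "hσ₁frac" => sigmaHom_mem_fracField (R * q) K A
local notation "hσ₁u" => SqInstW.sigma1_u A K R u' U hU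
local notation "hσ₁β" => SqInstW.sigma1_beta (q := q) K R
local notation "w₁" => InstA.w1 hq K R hqR
local notation "hw₁O" => SqInstW.w1_algebraMap A hq K R hqR
local notation "hw₁α" => InstA.w1_alpha hq K R hqR
local notation "α₂" => alphaHom (R * q) q K
local notation "σ" => sigmaHom (R * q * q) K
local notation "hσO" => sigmaHom_algebraMap (R * q * q) K (O := OE A K)
local notation "hσfrac" => sigmaHom_mem_fracField (R * q * q) K A
local notation "hσα₂" => SqInstW.sigma_alpha (q := q) K R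
local notation "σ₀" => InstA.sig0 hq K R hqR
local notation "hσ₀O" => InstA.sig0_algebraMap hq K R hqR A
local notation "hσ₀frac" => InstA.sig0_mem_fracField hq K R hqR A
local notation "hσ₀α₂" => SqInstW.sig0_alpha' hq K R hqR
local notation "σm" => InstA.sigM A hq hA K hζ R hqR
local notation "hσmO" => InstA.sigM_algebraMap A hq hA K hζ R hqR
local notation "hσmfrac" => InstA.sigM_mem_fracField A hq hA K hζ R hqR
local notation "z₀" => zetaU A hq K hζ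
local notation "hz₀" => InstA.irreducible_zeta_sub_one A hq hA K hK hζ
local notation "hσmα₂" => SqInstW.sigM_alpha' A hq hA K hζ R hqR
local notation "σ₁z" => RingHom.comp σ₁ w₁
local notation "hσ₁zO" => SqAbsW.sz_O σ₁ hσ₁O w₁ hw₁O
local notation "hσ₁zfrac" => SqAbsW.sz_frac σ₁ hσ₁frac w₁
local notation "hσ₁zα" => SqAbsW.sz_alpha q α₁ β₁ σ₁ hσ₁β w₁ hw₁α

/-! ### The objects -/

/-- **`P`**: the three Gauss primes on the overlap chart of `u = α₂ α₁ u'` (level `R q²`):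
`0 ↦ P_0`, `1 ↦ P_∞`, `2 ↦ P_{11}`. -/
def P : Fin 3 → Ideal (Nodal.Overlap (OE A K) (alphaSq R q K u')) :=
  TriDatumAlt.Pov ψ φ hψφ ϖ hϖ q α₁ σ₁ u' U hσ₁u σ₁z hσ₁zα α₂ σ hσO hσfrac hσα₂ σ₀ hσ₀O hσ₀frac
    hσ₀α₂ σm hσmO hσmfrac z₀ hz₀ hσmα₂ hρ

/-- **`p`**: the two Gauss primes on the overlap chart of `u1 = α₁ u'` (level `R q`):
`0 ↦ p_0`, `1 ↦ p_∞`. -/
def p : Fin 2 → Ideal (Nodal.Overlap (OE A K) (alphaHom R q K u')) :=
  SqInfMaps.pov ϖ hϖ q α₁ σ₁ hσ₁O hσ₁frac u' U hσ₁u σ₁z hσ₁zO hσ₁zfrac hσ₁zα hρ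

/-- **`hP`**. -/
instance isPrime_P (i : Fin 3) : (P A hq hA K hK hζ R hqR u' U hU hρ i).IsPrime :=
  TriDatumAlt.isPrime_Pov ψ φ hψφ ϖ hϖ q α₁ σ₁ u' U hσ₁u σ₁z hσ₁zα α₂ σ hσO hσfrac hσα₂ σ₀ hσ₀O
    hσ₀frac hσ₀α₂ σm hσmO hσmfrac z₀ hz₀ hσmα₂ hρ i

/-- **`hp`**. -/
theorem isPrime_p (j : Fin 2) : (p A hq hA K hK R hqR u' U hU hρ j).IsPrime :=
  SqInfMaps.isPrime_pov ϖ hϖ q α₁ σ₁ hσ₁O hσ₁frac u' U hσ₁u σ₁z hσ₁zO hσ₁zfrac hσ₁zα hρ j

/-! ### The five contractions, `HypE` vocabulary (the binders `hP0 hP1 hP2 hp0 hp1`) -/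

/-- **`hP0`**. -/
theorem comap_P0 :
    (P A hq hA K hK hζ R hqR u' U hU hρ 0).comap
        (Nodal.toOverlapZero (OE A K) (alphaSq R q K u'))
      = HypE.PZero A hq hA K hK R hqR u' U hU :=
  TriDatumAlt.comap_zero_Pov_zero ψ φ hψφ ϖ hϖ q α₁ σ₁ u' U hσ₁u σ₁z hσ₁zα α₂ σ hσO hσfrac hσα₂
    σ₀ hσ₀O hσ₀frac hσ₀α₂ σm hσmO hσmfrac z₀ hz₀ hσmα₂ hρ

/-- **`hP1`**. -/
theorem comap_P1 :
    (P A hq hA K hK hζ R hqR u' U hU hρ 1).comap
        (Nodal.toOverlapZero (OE A K) (alphaSq R q K u'))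
      = HypE.PInf A hq hA K hK R u' U hU :=
  TriDatumAlt.comap_zero_Pov_one ψ φ hψφ ϖ hϖ q α₁ σ₁ u' U hσ₁u σ₁z hσ₁zα α₂ σ hσO hσfrac hσα₂
    σ₀ hσ₀O hσ₀frac hσ₀α₂ σm hσmO hσmfrac z₀ hz₀ hσmα₂ hρ

/-- **`hP2`**. -/
theorem comap_P2 :
    (P A hq hA K hK hζ R hqR u' U hU hρ 2).comap
        (Nodal.toOverlapZero (OE A K) (alphaSq R q K u'))
      = HypE.PMid A hq hA K hK hζ R hqR u' U hU :=
  TriDatumAlt.comap_zero_Pov_two ψ φ hψφ ϖ hϖ q α₁ σ₁ u' U hσ₁u σ₁z hσ₁zα α₂ σ hσO hσfrac hσα₂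
    σ₀ hσ₀O hσ₀frac hσ₀α₂ σm hσmO hσmfrac z₀ hz₀ hσmα₂ hρ

/-- **`hp0`**. -/
theorem comap_p0 :
    (p A hq hA K hK R hqR u' U hU hρ 0).comap
        (Nodal.toOverlapZero (OE A K) (alphaHom R q K u'))
      = HypE.pZero A hq hA K hK R hqR u' U hU :=
  SqInfMaps.comap_zero_povZero ϖ hϖ q α₁ σ₁ u' U hσ₁u σ₁z hσ₁zO hσ₁zfrac hσ₁zα hρ

/-- **`hp1`**. -/
theorem comap_p1 :
    (p A hq hA K hK R hqR u' U hU hρ 1).comap
        (Nodal.toOverlapZero (OE A K) (alphaHom R q K u'))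
      = HypE.pInf A hq hA K hK R u' U hU :=
  SqInfMaps.comap_zero_povInf ϖ hϖ α₁ σ₁ hσ₁O hσ₁frac u' U hσ₁u hρ

/-! ### The five contractions, `SqAbs` vocabulary (arbitrary proofs of the side conditions) -/

theorem comap_P0_ker (hϖ' : Irreducible ϖ)
    (h3 : σ₁ (α₁ u') = GaussDVR.iota (OE A K) K U)
    (g3 : ∀ x : LE R K, (RingHom.comp σ₁ w₁) (α₁ x) = qExpand K q (σ₁ (α₁ x)))
    (k3 : ∀ f : LE (R * q) K, σ (α₂ f) = σ₁ f)
    (m1 : ∀ r : OE A K, sig0 hq K R hqR (algebraMap (OE A K) (LE (R * q * q) K) r)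
      = HahnSeries.C (algebraMap (OE A K) K r))
    (m2 : ∀ x : LE (R * q * q) K, sig0 hq K R hqR x ∈ GaussDVR.fracField (OE A K) K)
    (m3 : ∀ f : LE (R * q) K, sig0 hq K R hqR (α₂ f) = qExpand K q ((RingHom.comp σ₁ w₁) f)) :
    (P A hq hA K hK hζ R hqR u' U hU hρ 0).comap
        (Nodal.toOverlapZero (OE A K) (alphaSq R q K u'))
      = RingHom.ker (SqAbs.rZ2 ϖ hϖ' q α₁ σ₁ u' U h3 (RingHom.comp σ₁ w₁) g3 α₂ σ k3
          (sig0 hq K R hqR) m1 m2 m3) :=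
  comap_P0 A hq hA K hK hζ R hqR u' U hU hρ

theorem comap_P1_ker (hϖ' : Irreducible ϖ)
    (h3 : σ₁ (α₁ u') = GaussDVR.iota (OE A K) K U)
    (k1 : ∀ r : OE A K, σ (algebraMap (OE A K) (LE (R * q * q) K) r)
      = HahnSeries.C (algebraMap (OE A K) K r))
    (k2 : ∀ x : LE (R * q * q) K, σ x ∈ GaussDVR.fracField (OE A K) K)
    (k3 : ∀ f : LE (R * q) K, σ (α₂ f) = σ₁ f) :
    (P A hq hA K hK hζ R hqR u' U hU hρ 1).comap
        (Nodal.toOverlapZero (OE A K) (alphaSq R q K u'))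
      = RingHom.ker (SqAbs.rI2 ϖ hϖ' α₁ σ₁ u' U h3 α₂ σ k1 k2 k3) :=
  comap_P1 A hq hA K hK hζ R hqR u' U hU hρ

theorem comap_P2_centre
    (h3 : σ₁ (α₁ u') = GaussDVR.iota (OE A K) K U)
    (k3 : ∀ f : LE (R * q) K, σ (α₂ f) = σ₁ f)
    (n1 : ∀ r : OE A K, sigM A hq hA K hζ R hqR (algebraMap (OE A K) (LE (R * q * q) K) r)
      = HahnSeries.C (algebraMap (OE A (cyclo K ζ)) (cyclo K ζ) (ψ r)))
    (n2 : ∀ x : LE (R * q * q) K,
      sigM A hq hA K hζ R hqR x ∈ GaussDVR.fracField (OE A (cyclo K ζ)) (cyclo K ζ))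
    (hz₀' : Irreducible (((z₀ : (OE A (cyclo K ζ))ˣ) : OE A (cyclo K ζ)) - 1))
    (n3 : ∀ f : LE (R * q) K, sigM A hq hA K hζ R hqR (α₂ f) = coeffMap φ (σ₁ f)) :
    (P A hq hA K hK hζ R hqR u' U hU hρ 2).comap
        (Nodal.toOverlapZero (OE A K) (alphaSq R q K u'))
      = SqGlue.centreM
          (SqAbs.tM ψ φ hψφ α₁ σ₁ u' U h3 α₂ σ k3 (sigM A hq hA K hζ R hqR) n1 n2 z₀ hz₀' n3)
          (GaussDVR.unif (cyclo K ζ)
            (((z₀ : (OE A (cyclo K ζ))ˣ) : OE A (cyclo K ζ)) - 1)) :=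
  comap_P2 A hq hA K hK hζ R hqR u' U hU hρ

theorem comap_p0_ker (hϖ' : Irreducible ϖ)
    (h3 : σ₁ (α₁ u') = GaussDVR.iota (OE A K) K U)
    (g1 : ∀ r : OE A K, (RingHom.comp σ₁ w₁) (algebraMap (OE A K) (LE (R * q) K) r)
      = HahnSeries.C (algebraMap (OE A K) K r))
    (g2 : ∀ x : LE (R * q) K, (RingHom.comp σ₁ w₁) x ∈ GaussDVR.fracField (OE A K) K)
    (g3 : ∀ x : LE R K, (RingHom.comp σ₁ w₁) (α₁ x) = qExpand K q (σ₁ (α₁ x))) :
    (p A hq hA K hK R hqR u' U hU hρ 0).comap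
        (Nodal.toOverlapZero (OE A K) (alphaHom R q K u'))
      = RingHom.ker (SqAbs.rZ1 ϖ hϖ' q α₁ σ₁ u' U h3 (RingHom.comp σ₁ w₁) g1 g2 g3) :=
  comap_p0 A hq hA K hK R hqR u' U hU hρ

theorem comap_p1_ker (hϖ' : Irreducible ϖ)
    (h1 : ∀ r : OE A K, σ₁ (algebraMap (OE A K) (LE (R * q) K) r)
      = HahnSeries.C (algebraMap (OE A K) K r))
    (h2 : ∀ x : LE (R * q) K, σ₁ x ∈ GaussDVR.fracField (OE A K) K)
    (h3 : σ₁ (α₁ u') = GaussDVR.iota (OE A K) K U) :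
    (p A hq hA K hK R hqR u' U hU hρ 1).comap
        (Nodal.toOverlapZero (OE A K) (alphaHom R q K u'))
      = RingHom.ker (SqAbs.rI1 ϖ hϖ' α₁ σ₁ h1 h2 u' U h3) :=
  comap_p1 A hq hA K hK R hqR u' U hU hρ

end Main

end Fermat.Agent.S36.ECall.ObjAlt
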