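import Mathlib
import Fermat.Agent.S36.SqChart.HypE
import Fermat.Agent.S36.C1Inst4Alt

/-!
# S36 / ECall / Red4 : the binder `red` of `KContractE.holds_of_hyp` for the coordinate `u₄`

`u' = Haupt4.u4E R K h4`, `U = Haupt4.u4 (OE A K)` (`4 ∣ R`, `q` an odd prime, `¬ q ∣ R`,
`K` a number field inside the inertia field of `A` containing a primitive `R`-th root of unity),
family 1 (`InstA.algL`, `InstA.towerL`), objects of `SqChart/HypE`.  Every coordinate fact is
discharged: the special fibre of the level-`R q` chart is `C1Inst4Alt.fibre_u4` (helper231).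

* `fibre_u4` : `HypE.pInf ⊓ HypE.pZero = (q)` in the chart ring of `α₁ u₄`;
* `red_chart_u4`, `red_pc_u4` : the binder `red` of `KInst9.holds_of_chart` (chart-prime form),
  at the literal primes `HypE.pInf`, `HypE.pZero`, resp. for any `pc` with `pc 0 = HypE.pZero`,
  `pc 1 = HypE.pInf`;
* `red_u4` : the LITERAL binder `red` of `KContractE.holds_of_hyp` (`L := R * q`, `E := K`,
  `O := OE A K`, `u1 := alphaHom R q K (u4E R K h4)`, `π := q`) for ANY pair of overlap primes
  `p` whose contractions to the chart of `u1` are `HypE.pZero` (`p 0`) and `HypE.pInf` (`p 1`).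
-/

set_option autoImplicit false
set_option linter.unusedSectionVars false
set_option linter.unusedVariables false
set_option linter.style.haveILetI false
set_option synthInstance.maxHeartbeats 400000
set_option maxHeartbeats 1000000

open ModularCurve Polynomial

noncomputable section

namespace Fermat.Agent.S36.ECall.Red4

open Fermat.Agent.S30 Fermat.Agent.S30.CSide
open Fermat.Agent.S18.K1Defs Fermat.Agent.S18.K1Main
open Fermat.Agent.S34 Fermat.Agent.S34.TwoPrimesGauss Fermat.Agent.S34.TwoPrimesRank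
open Fermat.Agent.S34.HauptU.Plug
open Fermat.Agent.S36.SqChart Fermat.Agent.S36.SqChart.InstA Fermat.Agent.S36.Haupt4

local notation "Qb" => AlgebraicClosure ℚ

attribute [local instance] InstA.algL InstA.towerL

/-- Transport of an inclusion `a' ⊓ b' ≤ I` along two equalities of ideals (a `subst`-proved
congruence: no `rw` on ideals of `E`-level chart rings). -/
theorem inf_le_of_eq {B : Type*} [CommRing B] {a b a' b' I : Ideal B} (ha : a = a')
    (hb : b = b') (h : a' ⊓ b' ≤ I) : a ⊓ b ≤ I := by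
  subst ha hb
  exact h

variable (A : ValuationSubring Qb) {q : ℕ} (hq : q.Prime) [NeZero q] (hA : A.LiesOverPrime q)
  (K : IntermediateField ℚ Qb) [FiniteDimensional ℚ K]
  (hK : A.inertiaSubgroupIn ℚ ≤ K.fixingSubgroup)
  [IsDiscreteValuationRing (OE A K)]
  (R : ℕ) [NeZero R] (hqR : ¬ q ∣ R) (hodd : q ≠ 2) (h4 : 4 ∣ R)
  (z : Qb) (hz : IsPrimitiveRoot z R) (hzK : z ∈ K)
  (hU : ((u4E R K h4 : LE R K) : LaurentSeries K) = GaussDVR.iota (OE A K) K (u4 (OE A K)))

include hodd hz hzK in
/-- **The special fibre of the level-`R q` chart of `α₁ u₄`** in the vocabulary of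
`SqChart/HypE`: `p_∞ ⊓ p_0 = (q)`. -/
theorem fibre_u4 :
    HypE.pInf A hq hA K hK R (u4E R K h4) (u4 (OE A K)) hU ⊓
        HypE.pZero A hq hA K hK R hqR (u4E R K h4) (u4 (OE A K)) hU =
      Ideal.span {algebraMap (OE A K) (Nodal.Chart (OE A K) (alphaHom R q K (u4E R K h4)))
        ((q : ℕ) : OE A K)} :=
  (Fermat.Agent.S36.C1Inst4Alt.fibre_u4 A R q hq hodd hqR h4 hA K z hz hzK ((q : ℕ) : OE A K)
    (irreducible_q A hq hA K hK) 1 isUnit_one (mul_one _).symm).1

include hodd hz hzK in
/-- **The binder `red` for `u₄`, chart-prime form** (`KInst9.holds_of_chart` at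
`pc := ![HypE.pZero .., HypE.pInf ..]`): `p_∞ ⊓ p_0 ≤ (q)`. -/
theorem red_chart_u4 :
    HypE.pInf A hq hA K hK R (u4E R K h4) (u4 (OE A K)) hU ⊓
        HypE.pZero A hq hA K hK R hqR (u4E R K h4) (u4 (OE A K)) hU ≤
      Ideal.span {algebraMap (OE A K) (Nodal.Chart (OE A K) (alphaHom R q K (u4E R K h4)))
        ((q : ℕ) : OE A K)} :=
  (fibre_u4 A hq hA K hK R hqR hodd h4 z hz hzK hU).le

include hodd hz hzK in
/-- **The binder `red` of `KInst9.holds_of_chart` for `u₄`**, for ANY pair of chart primes `pc`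
with `pc 0 = HypE.pZero`, `pc 1 = HypE.pInf`. -/
theorem red_pc_u4 (pc : Fin 2 → Ideal (Nodal.Chart (OE A K) (alphaHom R q K (u4E R K h4))))
    (hpc0 : pc 0 = HypE.pZero A hq hA K hK R hqR (u4E R K h4) (u4 (OE A K)) hU)
    (hpc1 : pc 1 = HypE.pInf A hq hA K hK R (u4E R K h4) (u4 (OE A K)) hU) :
    pc 1 ⊓ pc 0 ≤
      Ideal.span {algebraMap (OE A K) (Nodal.Chart (OE A K) (alphaHom R q K (u4E R K h4)))
        ((q : ℕ) : OE A K)} :=
  inf_le_of_eq hpc1 hpc0 (fibre_u4 A hq hA K hK R hqR hodd h4 z hz hzK hU).le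

include hodd hz hzK in
/-- **The binder `red` of `KContractE.holds_of_hyp` for `u₄`**
(`u1 := alphaHom R q K (u4E R K h4)`, `π := q`), for overlap primes `p` of level `R q`
contracting to `HypE.pZero`, `HypE.pInf` on the chart of `u1`. -/
theorem red_u4 (p : Fin 2 → Ideal (Nodal.Overlap (OE A K) (alphaHom R q K (u4E R K h4))))
    (hp0 : (p 0).comap (Nodal.toOverlapZero (OE A K) (alphaHom R q K (u4E R K h4))) =
      HypE.pZero A hq hA K hK R hqR (u4E R K h4) (u4 (OE A K)) hU)
    (hp1 : (p 1).comap (Nodal.toOverlapZero (OE A K) (alphaHom R q K (u4E R K h4))) =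
      HypE.pInf A hq hA K hK R (u4E R K h4) (u4 (OE A K)) hU) :
    (p 1).comap (Nodal.toOverlapZero (OE A K) (alphaHom R q K (u4E R K h4))) ⊓
        (p 0).comap (Nodal.toOverlapZero (OE A K) (alphaHom R q K (u4E R K h4))) ≤
      Ideal.span {algebraMap (OE A K) (Nodal.Chart (OE A K) (alphaHom R q K (u4E R K h4)))
        ((q : ℕ) : OE A K)} :=
  inf_le_of_eq hp1 hp0 (fibre_u4 A hq hA K hK R hqR hodd h4 z hz hzK hU).le

end Fermat.Agent.S36.ECall.Red4
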