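import Mathlib
import Fermat.Agent.S36.ECall.Red
import Fermat.Agent.S36.C1Inst9Alt

/-!
# S36 / ECall / Red9 : the binder `red` of `KContractE.holds_of_hyp` for the coordinate `u₉`

`q = 2`, `u' = Haupt9.u9E R K h9`, `U = Haupt9.u9 (OE A K)` (`9 ∣ R`, `¬ 2 ∣ R`, `K` a number
field inside the inertia field of `A` containing a primitive `R`-th root of unity), family 1
(`InstA.algL`, `InstA.towerL`), objects of `SqChart/HypE`.  Every coordinate fact of
`ECall.Red.red` is discharged: `hwu` (`C1Inst9Alt.hwu_u9`), `hprime` (`Coord9.hprime_u9`),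
`hcop`, `hord`, `hfrob` (`Haupt9/LevelTwo`), finiteness (`Coord9.finite_u9E`).

* `red_chart_u9` : `HypE.pInf ⊓ HypE.pZero ≤ (2)` in the chart ring of `α₁ u₉` (= the binder
  `red` of `KInst9.holds_of_chart` at `pc := ![HypE.pZero .., HypE.pInf ..]`);
* `red_pc_u9` : the same for any chart primes `pc` with `pc 0 = HypE.pZero`, `pc 1 = HypE.pInf`;
* `red_u9` : the LITERAL binder `red` of `KContractE.holds_of_hyp` (`L := R * 2`, `E := K`,
  `O := OE A K`, `u1 := alphaHom R 2 K (u9E R K h9)`, `π := 2`) for ANY pair of overlap primes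
  `p` whose contractions to the chart of `u1` are `HypE.pZero` (`p 0`) and `HypE.pInf` (`p 1`).
-/

set_option autoImplicit false
set_option linter.unusedSectionVars false
set_option linter.unusedVariables false
set_option linter.style.haveILetI false
set_option synthInstance.maxHeartbeats 400000
set_option maxHeartbeats 1000000

open ModularCurve Polynomial

noncomputable section

namespace Fermat.Agent.S36.ECall.Red9

open Fermat.Agent.S30 Fermat.Agent.S30.CSide
open Fermat.Agent.S18.K1Defs Fermat.Agent.S18.K1Main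
open Fermat.Agent.S34 Fermat.Agent.S34.TwoPrimesGauss Fermat.Agent.S34.TwoPrimesRank
open Fermat.Agent.S34.HauptU.Plug
open Fermat.Agent.S36.SqChart Fermat.Agent.S36.SqChart.InstA Fermat.Agent.S36.Haupt9

local notation "Qb" => AlgebraicClosure ℚ

attribute [local instance] InstA.algL InstA.towerL

/-- Transport of an inclusion `a' ⊓ b' ≤ I` along two equalities of ideals (a `subst`-proved
congruence: no `rw` on ideals of `E`-level chart rings). -/
theorem inf_le_of_eq {B : Type*} [CommRing B] {a b a' b' I : Ideal B} (ha : a = a')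
    (hb : b = b') (h : a' ⊓ b' ≤ I) : a ⊓ b ≤ I := by
  subst ha hb
  exact h

variable (A : ValuationSubring Qb) (hq : Nat.Prime 2) (hA : A.LiesOverPrime 2)
  (K : IntermediateField ℚ Qb) [FiniteDimensional ℚ K]
  (hK : A.inertiaSubgroupIn ℚ ≤ K.fixingSubgroup)
  [IsDiscreteValuationRing (OE A K)]
  (R : ℕ) [NeZero R] (h9 : 9 ∣ R) (h2R : ¬ 2 ∣ R)
  (z : Qb) (hz : IsPrimitiveRoot z R) (hzK : z ∈ K)
  (hU : ((u9E R K h9 : LE R K) : LaurentSeries K) = GaussDVR.iota (OE A K) K (u9 (OE A K)))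

include hz hzK in
/-- **(SAT) at level `R·2` for `u₉`** in the vocabulary of `SqChart/HypE`: `p_∞ ⊓ p_0 ≤ (2)`. -/
theorem red_chart_u9 :
    HypE.pInf A hq hA K hK R (u9E R K h9) (u9 (OE A K)) hU ⊓
        HypE.pZero A hq hA K hK R h2R (u9E R K h9) (u9 (OE A K)) hU ≤
      Ideal.span {algebraMap (OE A K) (Nodal.Chart (OE A K) (alphaHom R 2 K (u9E R K h9)))
        ((2 : ℕ) : OE A K)} := by
  haveI := Coord9.finite_u9E R K h9
  haveI := Coord9.charP_two K A hA
  exact Fermat.Agent.S36.ECall.Red.red_chart A hq hA K hK R h2R (u9E R K h9) (u9 (OE A K)) hU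
    (Fermat.Agent.S36.C1Inst9Alt.hwu_u9 A hq K R h9 h2R)
    (Coord9.hprime_u9 R K A hA h9 h2R z hz hzK ((2 : ℕ) : OE A K) (irreducible_q A hq hA K hK))
    (isCoprime_order_rho_u9 2) order_rho_u9_ne_zero (qExpand_rho_u9 2 hq)

include hz hzK in
/-- **The binder `red` of `KInst9.holds_of_chart` for `u₉`** (chart-prime form), for ANY pair
of chart primes `pc` with `pc 0 = HypE.pZero`, `pc 1 = HypE.pInf`. -/
theorem red_pc_u9 (pc : Fin 2 → Ideal (Nodal.Chart (OE A K) (alphaHom R 2 K (u9E R K h9))))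
    (hpc0 : pc 0 = HypE.pZero A hq hA K hK R h2R (u9E R K h9) (u9 (OE A K)) hU)
    (hpc1 : pc 1 = HypE.pInf A hq hA K hK R (u9E R K h9) (u9 (OE A K)) hU) :
    pc 1 ⊓ pc 0 ≤
      Ideal.span {algebraMap (OE A K) (Nodal.Chart (OE A K) (alphaHom R 2 K (u9E R K h9)))
        ((2 : ℕ) : OE A K)} :=
  inf_le_of_eq hpc1 hpc0 (red_chart_u9 A hq hA K hK R h9 h2R z hz hzK hU)

include hz hzK in
/-- **The binder `red` of `KContractE.holds_of_hyp` for `u₉`**
(`u1 := alphaHom R 2 K (u9E R K h9)`, `π := 2`), for overlap primes `p` of level `R·2`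
contracting to `HypE.pZero`, `HypE.pInf` on the chart of `u1`. -/
theorem red_u9 (p : Fin 2 → Ideal (Nodal.Overlap (OE A K) (alphaHom R 2 K (u9E R K h9))))
    (hp0 : (p 0).comap (Nodal.toOverlapZero (OE A K) (alphaHom R 2 K (u9E R K h9))) =
      HypE.pZero A hq hA K hK R h2R (u9E R K h9) (u9 (OE A K)) hU)
    (hp1 : (p 1).comap (Nodal.toOverlapZero (OE A K) (alphaHom R 2 K (u9E R K h9))) =
      HypE.pInf A hq hA K hK R (u9E R K h9) (u9 (OE A K)) hU) :
    (p 1).comap (Nodal.toOverlapZero (OE A K) (alphaHom R 2 K (u9E R K h9))) ⊓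
        (p 0).comap (Nodal.toOverlapZero (OE A K) (alphaHom R 2 K (u9E R K h9))) ≤
      Ideal.span {algebraMap (OE A K) (Nodal.Chart (OE A K) (alphaHom R 2 K (u9E R K h9)))
        ((2 : ℕ) : OE A K)} :=
  inf_le_of_eq hp1 hp0 (red_chart_u9 A hq hA K hK R h9 h2R z hz hzK hU)

end Fermat.Agent.S36.ECall.Red9
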